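import Mathlib
import Fermat.Agent.LT.Spec.Joint
import Fermat.Agent.LT.Spec.HS

/-! # Restriction of a family of operators to stable subspaces

`W ≤ E` a closed subspace, `ρ : M →* (W →L[ℂ] W)` a homomorphism with adjoints `ρ (st m)`.
For `V ≤ W` stable (`StabRep`), `hom : M →* (V →L[ℂ] V)`.  `mainPart J` is the orthogonal
complement in `V` of the common kernel of the `ρ j`, `j ∈ J`. -/

set_option autoImplicit false

noncomputable section

open scoped InnerProductSpace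

namespace Fermat.Agent.LT

section Res

variable {E : Type*} [NormedAddCommGroup E] [InnerProductSpace ℂ E] {W V : Submodule ℂ E}

/-- Restriction to `V ≤ W` of an operator of `W` which preserves `V`. -/
def resL (hV : V ≤ W) (T : W →L[ℂ] W) (hT : ∀ v (hv : v ∈ V), (T ⟨v, hV hv⟩ : E) ∈ V) :
    V →L[ℂ] V :=
  (W.subtypeL ∘L T ∘L (V.subtypeL.codRestrict W fun v => hV v.2)).codRestrict V
    fun v => hT v v.2

theorem coe_resL (hV : V ≤ W) (T : W →L[ℂ] W) (hT : ∀ v (hv : v ∈ V), (T ⟨v, hV hv⟩ : E) ∈ V)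
    (v : V) : ((resL hV T hT v : V) : E) = T ⟨v, hV v.2⟩ := rfl

theorem coe_resL' (hV : V ≤ W) (T : W →L[ℂ] W) (hT : ∀ v (hv : v ∈ V), (T ⟨v, hV hv⟩ : E) ∈ V)
    (v : V) : (⟨(resL hV T hT v : V), hV (resL hV T hT v).2⟩ : W) = T ⟨v, hV v.2⟩ := rfl

variable {M : Type*} [Monoid M]

/-- `V` is stable under all the operators `ρ m`. -/
structure StabRep (ρ : M →* (W →L[ℂ] W)) (V : Submodule ℂ E) : Prop where
  le : V ≤ W
  stab : ∀ m v (hv : v ∈ V), (ρ m ⟨v, le hv⟩ : E) ∈ V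

variable {ρ : M →* (W →L[ℂ] W)}

/-- The restricted representation. -/
def StabRep.hom (h : StabRep ρ V) : M →* (V →L[ℂ] V) where
  toFun m := resL h.le (ρ m) (h.stab m)
  map_one' := by
    ext v
    rw [coe_resL, map_one]
    rfl
  map_mul' m n := by
    ext v
    rw [coe_resL, map_mul]
    rfl

theorem StabRep.coe_hom (h : StabRep ρ V) (m : M) (v : V) :
    ((h.hom m v : V) : E) = ρ m ⟨v, h.le v.2⟩ := rfl

/-- inclusion of a smaller stable subspace -/
theorem StabRep.coe_hom_of_le {V' : Submodule ℂ E} (h : StabRep ρ V) (h' : StabRep ρ V')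
    (hle : V' ≤ V) (m : M) (v : V') :
    ((h'.hom m v : V') : E) = h.hom m ⟨v, hle v.2⟩ := rfl

theorem StabRep.adjoint_hom [CompleteSpace W] [CompleteSpace V] (h : StabRep ρ V) {st : M → M}
    (hst : ∀ m, ContinuousLinearMap.adjoint (ρ m) = ρ (st m)) (m : M) :
    ContinuousLinearMap.adjoint (h.hom m) = h.hom (st m) := by
  symm
  rw [ContinuousLinearMap.eq_adjoint_iff]
  intro x y
  rw [Submodule.coe_inner, Submodule.coe_inner, h.coe_hom, h.coe_hom, ← hst]
  exact ContinuousLinearMap.adjoint_inner_left (ρ m) ⟨y, h.le y.2⟩ ⟨x, h.le x.2⟩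

theorem StabRep.isSymmetric [CompleteSpace W] (h : StabRep ρ V) {st : M → M}
    (hst : ∀ m, ContinuousLinearMap.adjoint (ρ m) = ρ (st m)) {m : M} (hm : st m = m) :
    (h.hom m).IsSymmetric := by
  intro x y
  change ⟪(h.hom m x : V), y⟫_ℂ = ⟪x, h.hom m y⟫_ℂ
  rw [Submodule.coe_inner, Submodule.coe_inner, h.coe_hom, h.coe_hom]
  have h1 := ContinuousLinearMap.adjoint_inner_left (ρ m) ⟨y, h.le y.2⟩ ⟨x, h.le x.2⟩
  rw [hst, hm] at h1
  exact h1

/-! ### The main part -/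

/-- The common kernel in `V` of the operators of `J`. -/
def StabRep.kerPart (h : StabRep ρ V) (J : Set M) : Submodule ℂ E where
  carrier := {u | ∃ hu : u ∈ V, ∀ j ∈ J, ρ j ⟨u, h.le hu⟩ = 0}
  add_mem' := by
    rintro a b ⟨ha, ha'⟩ ⟨hb, hb'⟩
    refine ⟨V.add_mem ha hb, fun j hj => ?_⟩
    have : (⟨a + b, h.le (V.add_mem ha hb)⟩ : W) = ⟨a, h.le ha⟩ + ⟨b, h.le hb⟩ := rfl
    rw [this, map_add, ha' j hj, hb' j hj, add_zero]
  zero_mem' := by
    refine ⟨V.zero_mem, fun j _ => ?_⟩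
    have : (⟨0, h.le V.zero_mem⟩ : W) = 0 := rfl
    rw [this, map_zero]
  smul_mem' := by
    rintro c a ⟨ha, ha'⟩
    refine ⟨V.smul_mem c ha, fun j hj => ?_⟩
    have : (⟨c • a, h.le (V.smul_mem c ha)⟩ : W) = c • ⟨a, h.le ha⟩ := rfl
    rw [this, map_smul, ha' j hj, smul_zero]

theorem StabRep.mem_kerPart (h : StabRep ρ V) {J : Set M} {u : E} :
    u ∈ h.kerPart J ↔ ∃ hu : u ∈ V, ∀ j ∈ J, ρ j ⟨u, h.le hu⟩ = 0 := Iff.rfl

/-- The orthogonal complement in `V` of the common kernel. -/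
def StabRep.mainPart (h : StabRep ρ V) (J : Set M) : Submodule ℂ E := V ⊓ (h.kerPart J)ᗮ

theorem StabRep.mainPart_le (h : StabRep ρ V) (J : Set M) : h.mainPart J ≤ V := inf_le_left

theorem StabRep.mem_mainPart (h : StabRep ρ V) {J : Set M} {v : E} :
    v ∈ h.mainPart J ↔ v ∈ V ∧ ∀ u ∈ h.kerPart J, ⟪u, v⟫_ℂ = 0 := by
  rw [StabRep.mainPart, Submodule.mem_inf, Submodule.mem_orthogonal]

theorem StabRep.isClosed_mainPart (h : StabRep ρ V) (J : Set M) (hV : IsClosed (V : Set E)) :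
    IsClosed (h.mainPart J : Set E) := by
  rw [StabRep.mainPart, Submodule.coe_inf]
  exact hV.inter (Submodule.isClosed_orthogonal _)

variable [CompleteSpace W] {st : M → M} {J : Set M}

/-- The main part is stable. -/
theorem StabRep.main (h : StabRep ρ V)
    (hst : ∀ m, ContinuousLinearMap.adjoint (ρ m) = ρ (st m))
    (hJ : ∀ m, ∀ j ∈ J, j * m ∈ J) : StabRep ρ (h.mainPart J) where
  le := (h.mainPart_le J).trans h.le
  stab m v hv := by
    rw [h.mem_mainPart] at hv ⊢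
    refine ⟨h.stab m v hv.1, fun u hu => ?_⟩
    obtain ⟨hu1, hu2⟩ := hu
    have h1 := ContinuousLinearMap.adjoint_inner_left (ρ m) ⟨v, h.le hv.1⟩ ⟨u, h.le hu1⟩
    rw [hst] at h1
    have h2 : (ρ (st m) ⟨u, h.le hu1⟩ : E) ∈ h.kerPart J := by
      refine ⟨h.stab _ _ hu1, fun j hj => ?_⟩
      have h3 : (ρ j) ((ρ (st m)) ⟨u, h.le hu1⟩) = ρ (j * st m) ⟨u, h.le hu1⟩ := by
        rw [map_mul]
        rfl
      exact h3.trans (hu2 _ (hJ _ _ hj))
    exact h1.symm.trans (hv.2 _ h2)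

/-- The operators of `J` map `V` to the main part. -/
theorem StabRep.mem_main (h : StabRep ρ V)
    (hst : ∀ m, ContinuousLinearMap.adjoint (ρ m) = ρ (st m)) (hJs : ∀ j ∈ J, st j ∈ J) {j : M}
    (hj : j ∈ J) {v : E} (hv : v ∈ V) : (ρ j ⟨v, h.le hv⟩ : E) ∈ h.mainPart J := by
  rw [h.mem_mainPart]
  refine ⟨h.stab _ _ hv, fun u hu => ?_⟩
  obtain ⟨hu1, hu2⟩ := hu
  have h1 := ContinuousLinearMap.adjoint_inner_left (ρ j) ⟨v, h.le hv⟩ ⟨u, h.le hu1⟩
  rw [hst, hu2 _ (hJs j hj), inner_zero_left] at h1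
  exact h1.symm

/-- A general criterion. -/
theorem StabRep.mem_main_of (h : StabRep ρ V) {T : W →L[ℂ] W} {f : W} (hf : (T f : E) ∈ V)
    (hT : ∀ u (hu : u ∈ V), (∀ j ∈ J, ρ j ⟨u, h.le hu⟩ = 0) →
      ContinuousLinearMap.adjoint T ⟨u, h.le hu⟩ = 0) : (T f : E) ∈ h.mainPart J := by
  rw [h.mem_mainPart]
  refine ⟨hf, fun u hu => ?_⟩
  obtain ⟨hu1, hu2⟩ := hu
  have h1 := ContinuousLinearMap.adjoint_inner_left T f ⟨u, h.le hu1⟩
  rw [hT u hu1 hu2, inner_zero_left] at h1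
  exact h1.symm

/-- An eigenvector with a non-zero eigenvalue lies in the main part. -/
theorem StabRep.mem_main_of_eig (h : StabRep ρ V)
    (hst : ∀ m, ContinuousLinearMap.adjoint (ρ m) = ρ (st m)) (hJs : ∀ j ∈ J, st j ∈ J) {j : M}
    (hj : j ∈ J) {v : E} (hv : v ∈ V) {c : ℂ} (hc : c ≠ 0)
    (he : (ρ j ⟨v, h.le hv⟩ : E) = c • v) : v ∈ h.mainPart J := by
  have h1 := h.mem_main hst hJs hj hv
  rw [he] at h1
  have h2 := (h.mainPart J).smul_mem c⁻¹ h1
  rwa [smul_smul, inv_mul_cancel₀ hc, one_smul] at h2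

omit [CompleteSpace W] in
/-- There is no common kernel on the main part. -/
theorem StabRep.eq_zero_of_main (h : StabRep ρ V) {v : E} (hv : v ∈ h.mainPart J)
    (h0 : ∀ j ∈ J, ρ j ⟨v, h.le (h.mainPart_le J hv)⟩ = 0) : v = 0 := by
  have h1 : v ∈ h.kerPart J := ⟨h.mainPart_le J hv, h0⟩
  have h2 := ((h.mem_mainPart).mp hv).2 v h1
  exact inner_self_eq_zero.mp h2

/-- An operator whose adjoint maps `W` to `V'` kills the orthogonal complement of `V'`. -/
theorem eq_zero_of_orth {V' : Submodule ℂ E} {T : W →L[ℂ] W}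
    (hT : ∀ g : W, (ContinuousLinearMap.adjoint T g : E) ∈ V') {f : W} (hf : (f : E) ∈ V'ᗮ) :
    T f = 0 := by
  refine ext_inner_left ℂ fun g => ?_
  rw [inner_zero_right, ← ContinuousLinearMap.adjoint_inner_left]
  exact (Submodule.mem_orthogonal _ _).mp hf _ (hT g)

end Res

/-! ### Diagonalisation -/

section Diag

variable {E : Type*} [NormedAddCommGroup E] [InnerProductSpace ℂ E] {W V : Submodule ℂ E}
  {M : Type*} [Monoid M] {ρ : M →* (W →L[ℂ] W)} [CompleteSpace W] {st : M → M} {J : Set M}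

/-- powers of a symmetric operator -/
theorem IsSymmetric.eq_zero_of_pow {H : Type*} [NormedAddCommGroup H] [InnerProductSpace ℂ H]
    {T : H →L[ℂ] H} (hT : T.IsSymmetric) {n : ℕ} {v : H} (h : (T ^ (n + 1)) v = 0) :
    T v = 0 := by
  -- `T ^ (2 ^ k) v = 0` for large `k`, then halve
  have hsym : ∀ k : ℕ, (T ^ k : H →L[ℂ] H).IsSymmetric := by
    intro k
    induction k with
    | zero => intro x y; rfl
    | succ k ih =>
      intro x y
      change ⟪(T ^ (k + 1)) x, y⟫_ℂ = ⟪x, (T ^ (k + 1)) y⟫_ℂ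
      have e1 : (T ^ (k + 1)) x = (T ^ k) (T x) := by rw [pow_succ]; rfl
      have e2 : (T ^ (k + 1)) y = T ((T ^ k) y) := by rw [pow_succ']; rfl
      rw [e1, e2]
      exact (ih (T x) y).trans (hT x _)
  have hhalf : ∀ k, (T ^ (2 * k)) v = 0 → (T ^ k) v = 0 := by
    intro k hk
    have e1 : (T ^ (2 * k)) v = (T ^ k) ((T ^ k) v) := by rw [two_mul, pow_add]; rfl
    have h1 : ⟪(T ^ k) v, (T ^ k) v⟫_ℂ = ⟪v, (T ^ k) ((T ^ k) v)⟫_ℂ := hsym k v _
    rw [← e1, hk, inner_zero_right] at h1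
    exact inner_self_eq_zero.mp h1
  have hpow : ∀ k, (T ^ (2 ^ k)) v = 0 → T v = 0 := by
    intro k
    induction k with
    | zero => intro hk; simpa using hk
    | succ k ih =>
      intro hk
      apply ih
      apply hhalf
      rwa [← pow_succ']
  apply hpow (n + 1)
  have hle : n + 1 ≤ 2 ^ (n + 1) := Nat.lt_two_pow_self.le
  have e1 : (T ^ (2 ^ (n + 1))) v = (T ^ (2 ^ (n + 1) - (n + 1))) ((T ^ (n + 1)) v) := by
    conv_lhs => rw [← Nat.sub_add_cancel hle, pow_add]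
    rfl
  rw [e1, h, map_zero]

variable [CompleteSpace V] {I : Type*} {A : I → M}

/-- **Diagonalisation on the main part**: finiteness. -/
theorem StabRep.finite_jointEig (h : StabRep ρ V)
    {c : Set I} (hc : ∀ i ∈ c, IsCompactOperator (h.hom (A i)))
    (hker : ∀ v : V, (∀ i ∈ c, h.hom (A i) v = 0) → v = 0) (χ : I → ℝ) :
    FiniteDimensional ℂ (jointEig (fun i => h.hom (A i)) χ) :=
  finiteDimensional_jointEig (A := fun i => h.hom (A i)) hc hker χ

/-- **Diagonalisation on the main part**: density. -/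
theorem StabRep.dense_jointEig (h : StabRep ρ V)
    (hst : ∀ m, ContinuousLinearMap.adjoint (ρ m) = ρ (st m)) (hA : ∀ i, st (A i) = A i)
    (hcomm : ∀ i j, A i * A j = A j * A i)
    {c : Set I} (hc : ∀ i ∈ c, IsCompactOperator (h.hom (A i)))
    (hker : ∀ v : V, (∀ i ∈ c, h.hom (A i) v = 0) → v = 0) :
    (⨆ χ : I → ℝ, jointEig (fun i => h.hom (A i)) χ).topologicalClosure = ⊤ := by
  refine iSup_jointEig_topologicalClosure (A := fun i => h.hom (A i))
    (fun i => h.isSymmetric hst (hA i)) (fun i j v => ?_) hc hker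
  have h1 : h.hom (A i) * h.hom (A j) = h.hom (A j) * h.hom (A i) := by
    rw [← map_mul, ← map_mul, hcomm]
  exact congrArg (fun T : V →L[ℂ] V => T v) h1

end Diag

end Fermat.Agent.LT
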