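import Mathlib
import Fermat.Agent.LT.Unfold

/-! # The Hilbert space `L²(G \ Z)`

`G` is a countable group acting on `(Z, μ)`, `w` a weight, `ν = μ.withDensity w`.

* `autL2 G ν` : the closed subspace of `Lp ℂ 2 ν` of classes of invariant functions;
* `arep f` : the invariant representative; it is unique `μ`-almost everywhere;
* `RevKer G μ κ` : reversible invariant kernels `κ`;
* `kop κ c F z = ∫ c z z' F z' κ(z, dz')`, and `lintegral_kop_sq_le`, Schur's test. -/

set_option autoImplicit false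

noncomputable section

open MeasureTheory ENNReal MulAction ProbabilityTheory
open scoped InnerProductSpace ComplexConjugate

namespace Fermat.Agent.LT

/-! ### The invariant σ-algebra -/

section InvSigma

variable (G Z : Type*) [Group G] [MulAction G Z]

/-- The invariant measurable sets. -/
@[instance_reducible]
def invMS [mZ : MeasurableSpace Z] : MeasurableSpace Z where
  MeasurableSet' A := @MeasurableSet Z mZ A ∧ ∀ g : G, (fun z => g • z) ⁻¹' A = A
  measurableSet_empty := ⟨MeasurableSet.empty, fun _ => rfl⟩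
  measurableSet_compl A hA := ⟨hA.1.compl, fun g => by rw [Set.preimage_compl, hA.2 g]⟩
  measurableSet_iUnion f hf := ⟨MeasurableSet.iUnion fun i => (hf i).1, fun g => by
    rw [Set.preimage_iUnion]
    exact Set.iUnion_congr fun i => (hf i).2 g⟩

variable [mZ : MeasurableSpace Z]

theorem invMS_le : invMS G Z ≤ mZ := fun _ hA => hA.1

instance : Fact (invMS G Z ≤ mZ) := ⟨invMS_le G Z⟩

variable {G Z}

theorem measurable_invMS_iff {E : Type*} [MeasurableSpace E] [MeasurableSingletonClass E]
    {f : Z → E} :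
    Measurable[invMS G Z] f ↔ Measurable f ∧ ∀ (g : G) z, f (g • z) = f z := by
  constructor
  · intro h
    refine ⟨fun A hA => (h hA).1, fun g z => ?_⟩
    have h1 := (h (measurableSet_singleton (f z))).2 g
    have h2 : z ∈ (fun z => g • z) ⁻¹' (f ⁻¹' {f z}) := by
      rw [h1]; rfl
    exact h2
  · rintro ⟨h1, h2⟩ A hA
    refine ⟨h1 hA, fun g => ?_⟩
    ext z
    simp only [Set.mem_preimage, h2]

end InvSigma

/-! ### Null sets -/

section Null

variable {G Z : Type*} [Group G] [Countable G] [MeasurableSpace Z] [MulAction G Z]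
  [MeasurableConstSMul G Z] {μ : Measure Z} [SMulInvariantMeasure G Z μ] {w : Z → ℝ≥0∞}

/-- An invariant `ν`-null set is `μ`-null. -/
theorem IsWeight.measure_eq_zero (h : IsWeight G w) {A : Set Z} (hA : MeasurableSet A)
    (hinv : ∀ g : G, (fun z => g • z) ⁻¹' A = A) (h0 : (μ.withDensity w) A = 0) : μ A = 0 := by
  have h1 : μ A = ∑' g : G, ∫⁻ z, w (g • z) * A.indicator 1 (g • z) ∂μ := by
    rw [← lintegral_tsum fun g => ?_, ← lintegral_indicator_one hA]
    swap
    · exact ((h.meas.mul (measurable_one.indicator hA)).comp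
        (measurable_const_smul g)).aemeasurable
    refine lintegral_congr fun z => ?_
    have h2 : ∀ g : G, A.indicator (1 : Z → ℝ≥0∞) (g • z) = A.indicator 1 z := by
      intro g
      by_cases hz : z ∈ A
      · have : g • z ∈ A := by rw [← hinv g] at hz; exact hz
        rw [Set.indicator_of_mem hz, Set.indicator_of_mem this]; rfl
      · have : g • z ∉ A := fun hh => hz (by rw [← hinv g]; exact hh)
        rw [Set.indicator_of_notMem hz, Set.indicator_of_notMem this]
    simp_rw [h2, ENNReal.tsum_mul_right, h.sum_eq z, one_mul]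
  rw [h1, ENNReal.tsum_eq_zero]
  intro g
  rw [IsWeight.lintegral_smul (μ := μ) g (fun z => w z * A.indicator 1 z)]
  rw [withDensity_apply _ hA] at h0
  rw [← h0, ← lintegral_indicator hA]
  refine lintegral_congr fun z => ?_
  by_cases hz : z ∈ A
  · rw [Set.indicator_of_mem hz, Set.indicator_of_mem hz, Pi.one_apply, mul_one]
  · rw [Set.indicator_of_notMem hz, Set.indicator_of_notMem hz, mul_zero]

/-- Two invariant functions which agree `ν`-a.e. agree `μ`-a.e. -/
theorem IsWeight.ae_eq_of_inv (h : IsWeight G w) {f f' : Z → ℂ} (hf : Measurable f)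
    (hf' : Measurable f') (hi : ∀ (g : G) z, f (g • z) = f z)
    (hi' : ∀ (g : G) z, f' (g • z) = f' z) (hae : f =ᵐ[μ.withDensity w] f') : f =ᵐ[μ] f' := by
  have hA : MeasurableSet {z | f z = f' z}ᶜ := (measurableSet_eq_fun hf hf').compl
  refine h.measure_eq_zero hA (fun g => ?_) hae
  ext z
  simp only [Set.mem_preimage, Set.mem_compl_iff, Set.mem_ofPred_eq, hi, hi']

theorem withDensity_ac (μ : Measure Z) (w : Z → ℝ≥0∞) : μ.withDensity w ≪ μ :=
  withDensity_absolutelyContinuous μ w

end Null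

/-! ### The Hilbert space -/

section Space

variable (G : Type*) {Z : Type*} [Group G] [MulAction G Z] [mZ : MeasurableSpace Z]

/-- The space `L²(G \ Z)`: classes of invariant functions in `L²(ν)`. -/
abbrev autL2 (ν : Measure Z) : Submodule ℂ (Lp ℂ 2 ν) := lpMeas ℂ ℂ (invMS G Z) 2 ν

variable {G} {ν : Measure Z}

theorem mem_autL2 {f : Lp ℂ 2 ν} :
    f ∈ autL2 G ν ↔ ∃ F : Z → ℂ, Measurable F ∧ (∀ (g : G) z, F (g • z) = F z) ∧ f =ᵐ[ν] F := by
  rw [mem_lpMeas_iff_aestronglyMeasurable]
  constructor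
  · rintro ⟨F, hF, hae⟩
    have h1 := measurable_invMS_iff.mp hF.measurable
    exact ⟨F, h1.1, h1.2, hae⟩
  · rintro ⟨F, hF, hinv, hae⟩
    exact ⟨F, (measurable_invMS_iff.mpr ⟨hF, hinv⟩).stronglyMeasurable, hae⟩

/-- The invariant representative. -/
def arep (f : autL2 G ν) : Z → ℂ := (mem_autL2.mp f.2).choose

theorem measurable_arep (f : autL2 G ν) : Measurable (arep f) :=
  (mem_autL2.mp f.2).choose_spec.1

theorem arep_smul (f : autL2 G ν) (g : G) (z : Z) : arep f (g • z) = arep f z :=
  (mem_autL2.mp f.2).choose_spec.2.1 g z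

theorem coeFn_ae_arep (f : autL2 G ν) : (f : Lp ℂ 2 ν) =ᵐ[ν] arep f :=
  (mem_autL2.mp f.2).choose_spec.2.2

theorem memLp_arep (f : autL2 G ν) : MemLp (arep f) 2 ν :=
  (memLp_congr_ae (coeFn_ae_arep f)).mp (Lp.memLp _)

/-- The element of `L²(G \ Z)` defined by an invariant function. -/
def autMk (F : Z → ℂ) (hF : Measurable F) (hinv : ∀ (g : G) z, F (g • z) = F z)
    (hmem : MemLp F 2 ν) : autL2 G ν :=
  ⟨hmem.toLp F, mem_autL2.mpr ⟨F, hF, hinv, hmem.coeFn_toLp⟩⟩

theorem coeFn_autMk (F : Z → ℂ) (hF : Measurable F) (hinv : ∀ (g : G) z, F (g • z) = F z)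
    (hmem : MemLp F 2 ν) : ((autMk F hF hinv hmem : autL2 G ν) : Lp ℂ 2 ν) =ᵐ[ν] F :=
  hmem.coeFn_toLp

theorem arep_autMk (F : Z → ℂ) (hF : Measurable F) (hinv : ∀ (g : G) z, F (g • z) = F z)
    (hmem : MemLp F 2 ν) : arep (autMk F hF hinv hmem : autL2 G ν) =ᵐ[ν] F :=
  (coeFn_ae_arep _).symm.trans (coeFn_autMk F hF hinv hmem)

theorem autL2_ext {f g : autL2 G ν} (h : arep f =ᵐ[ν] arep g) : f = g := by
  apply Subtype.ext
  apply Lp.ext
  exact (coeFn_ae_arep f).trans (h.trans (coeFn_ae_arep g).symm)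

theorem arep_add (f g : autL2 G ν) : arep (f + g) =ᵐ[ν] arep f + arep g := by
  refine (coeFn_ae_arep _).symm.trans ((Lp.coeFn_add (f : Lp ℂ 2 ν) g).trans ?_)
  exact (coeFn_ae_arep f).add (coeFn_ae_arep g)

theorem arep_csmul (a : ℂ) (f : autL2 G ν) : arep (a • f) =ᵐ[ν] a • arep f := by
  refine (coeFn_ae_arep _).symm.trans ((Lp.coeFn_smul a (f : Lp ℂ 2 ν)).trans ?_)
  exact (coeFn_ae_arep f).const_smul a

theorem inner_autL2 (f g : autL2 G ν) :
    ⟪f, g⟫_ℂ = ∫ z, conj (arep f z) * arep g z ∂ν := by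
  rw [Submodule.coe_inner, L2.inner_def]
  apply integral_congr_ae
  filter_upwards [coeFn_ae_arep f, coeFn_ae_arep g] with z h1 h2
  rw [h1, h2, RCLike.inner_apply, mul_comm]

end Space

/-! ### Reversible invariant kernels -/

section Rev

variable {G Z : Type*} [Group G] [MeasurableSpace Z] [MulAction G Z]

/-- `κ` is invariant and reversible with respect to `μ`. -/
structure RevKer (G : Type*) {Z : Type*} [Group G] [MeasurableSpace Z] [MulAction G Z]
    (μ : Measure Z) (κ : Kernel Z Z) : Prop where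
  swap : (μ ⊗ₘ κ).map Prod.swap = μ ⊗ₘ κ
  inv : ∀ (g : G) z, (κ z).map (fun z' => g • z') = κ (g • z)

variable {μ : Measure Z} {κ : Kernel Z Z} {w : Z → ℝ≥0∞}

instance measurableConstSMul_prod' [MeasurableConstSMul G Z] : MeasurableConstSMul G (Z × Z) where
  measurable_const_smul g :=
    ((measurable_const_smul g).comp measurable_fst).prodMk
      ((measurable_const_smul g).comp measurable_snd)

theorem RevKer.smulInvariant [MeasurableConstSMul G Z] [SMulInvariantMeasure G Z μ] [SFinite μ]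
    [IsSFiniteKernel κ] (hκ : RevKer G μ κ) : SMulInvariantMeasure G (Z × Z) (μ ⊗ₘ κ) where
  measure_preimage_smul g s hs := by
    rw [Measure.compProd_apply (measurable_const_smul g hs), Measure.compProd_apply hs,
      ← IsWeight.lintegral_smul (μ := μ) g (fun z => κ z (Prod.mk z ⁻¹' s))]
    refine lintegral_congr fun z => ?_
    rw [← hκ.inv g z, Measure.map_apply (measurable_const_smul g) (measurable_prodMk_left hs)]
    rfl

theorem withDensity_compProd [SFinite μ] [IsSFiniteKernel κ] (hw : Measurable w) :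
    (μ.withDensity w) ⊗ₘ κ = (μ ⊗ₘ κ).withDensity fun p => w p.1 := by
  have : SFinite (μ.withDensity w) := inferInstance
  ext s hs
  rw [Measure.compProd_apply hs, withDensity_apply _ hs, ← lintegral_indicator hs,
    Measure.lintegral_compProd (show Measurable (s.indicator fun p : Z × Z => w p.1) from
      (hw.comp measurable_fst).indicator hs),
    lintegral_withDensity_eq_lintegral_mul _ hw (Kernel.measurable_kernel_prodMk_left hs)]
  refine lintegral_congr fun z => ?_
  have h1 : ∀ z', s.indicator (fun p : Z × Z => w p.1) (z, z') =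
      w z * (Prod.mk z ⁻¹' s).indicator 1 z' := by
    intro z'
    by_cases hz : (z, z') ∈ s
    · rw [Set.indicator_of_mem hz, Set.indicator_of_mem (show z' ∈ Prod.mk z ⁻¹' s from hz),
        Pi.one_apply, mul_one]
    · rw [Set.indicator_of_notMem hz, Set.indicator_of_notMem
        (show z' ∉ Prod.mk z ⁻¹' s from hz), mul_zero]
  simp_rw [h1]
  rw [lintegral_const_mul _ (measurable_one.indicator (measurable_prodMk_left hs)),
    lintegral_indicator_one (measurable_prodMk_left hs)]
  rfl

theorem IsWeight.fst (h : IsWeight G w) : IsWeight G fun p : Z × Z => w p.1 :=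
  ⟨h.meas.comp measurable_fst, fun p => h.sum_eq p.1⟩

theorem IsWeight.snd (h : IsWeight G w) : IsWeight G fun p : Z × Z => w p.2 :=
  ⟨h.meas.comp measurable_snd, fun p => h.sum_eq p.2⟩

variable [MeasurableConstSMul G Z] [SMulInvariantMeasure G Z μ] [SFinite μ]
  [IsSFiniteKernel κ] [Countable G]

/-- **Symmetry** for non-negative functions. -/
theorem RevKer.lintegral_swap (hκ : RevKer G μ κ) (h : IsWeight G w) {Φ : Z × Z → ℝ≥0∞}
    (hΦ : Measurable Φ) (hinv : ∀ (g : G) p, Φ (g • p) = Φ p) :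
    ∫⁻ p, Φ p ∂((μ.withDensity w) ⊗ₘ κ) = ∫⁻ p, Φ p.swap ∂((μ.withDensity w) ⊗ₘ κ) := by
  have := hκ.smulInvariant
  rw [withDensity_compProd h.meas]
  rw [h.fst.lintegral_eq h.snd hΦ hinv]
  rw [lintegral_withDensity_eq_lintegral_mul _ h.snd.meas hΦ,
    lintegral_withDensity_eq_lintegral_mul _ h.fst.meas
      (show Measurable fun p : Z × Z => Φ p.swap from hΦ.comp measurable_swap)]
  conv_lhs => rw [← hκ.swap]
  rw [lintegral_map (h.snd.meas.mul hΦ) measurable_swap]
  rfl

/-- The swapped measure has the same image on the orbit space. -/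
theorem RevKer.integral_swap (hκ : RevKer G μ κ) (h : IsWeight G w) {Φ : Z × Z → ℂ}
    (hΦ : Measurable Φ) (hinv : ∀ (g : G) p, Φ (g • p) = Φ p) :
    ∫ p, Φ p ∂((μ.withDensity w) ⊗ₘ κ) = ∫ p, Φ p.swap ∂((μ.withDensity w) ⊗ₘ κ) := by
  have := hκ.smulInvariant
  rw [withDensity_compProd h.meas]
  rw [h.fst.integral_eq h.snd hΦ hinv]
  rw [integral_withDensity_eq_integral_toReal_smul h.snd.meas
      (Filter.Eventually.of_forall fun z => h.snd.lt_top z),
    integral_withDensity_eq_integral_toReal_smul h.fst.meas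
      (Filter.Eventually.of_forall fun z => h.fst.lt_top z)]
  conv_lhs => rw [← hκ.swap]
  rw [integral_map measurable_swap.aemeasurable]
  · rfl
  · exact (h.snd.meas.ennreal_toReal.smul hΦ).aestronglyMeasurable

theorem RevKer.integrable_swap (hκ : RevKer G μ κ) (h : IsWeight G w) {Φ : Z × Z → ℂ}
    (hΦ : Measurable Φ) (hinv : ∀ (g : G) p, Φ (g • p) = Φ p)
    (hi : Integrable Φ ((μ.withDensity w) ⊗ₘ κ)) :
    Integrable (fun p => Φ p.swap) ((μ.withDensity w) ⊗ₘ κ) := by
  refine ⟨(hΦ.comp measurable_swap).aestronglyMeasurable, ?_⟩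
  have h1 := hκ.lintegral_swap h hΦ.enorm (fun g p => by rw [hinv g p])
  have h2 := hi.2
  rw [HasFiniteIntegral] at h2 ⊢
  rw [h1] at h2
  exact h2

end Rev

end Fermat.Agent.LT
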