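import Mathlib
import Fermat.Agent.LT.Auto.Space

/-! # Operators on `L²(G \ Z)` defined by kernels

`kop κ c F z = ∫ c z z' F z' κ(z, dz')` for a reversible invariant kernel `κ` and an invariant
function `c` which satisfies the two Schur bounds. -/

set_option autoImplicit false

noncomputable section

open MeasureTheory ENNReal MulAction ProbabilityTheory
open scoped InnerProductSpace ComplexConjugate

namespace Fermat.Agent.LT

/-- Cauchy–Schwarz. -/
theorem lintegral_mul_sq_le {Z : Type*} [MeasurableSpace Z] {κ : Measure Z} {a b : Z → ℝ≥0∞}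
    (ha : Measurable a) (hb : Measurable b) :
    (∫⁻ z, a z * b z ∂κ) ^ 2 ≤ (∫⁻ z, a z ∂κ) * ∫⁻ z, a z * b z ^ 2 ∂κ := by
  have h1 := ENNReal.lintegral_mul_norm_pow_le (μ := κ) ha.aemeasurable
    (ha.mul (hb.pow_const 2)).aemeasurable (p := 1 / 2) (q := 1 / 2) (by norm_num) (by norm_num)
    (by norm_num)
  have h2 : ∀ z, a z ^ (1 / 2 : ℝ) * (a * fun z => b z ^ 2) z ^ (1 / 2 : ℝ) = a z * b z := by
    intro z
    rw [Pi.mul_apply, ← ENNReal.mul_rpow_of_nonneg _ _ (by norm_num : (0 : ℝ) ≤ 1 / 2), ← mul_assoc,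
      ← sq, ← mul_pow, ← ENNReal.rpow_natCast, ← ENNReal.rpow_mul]
    norm_num
  simp_rw [h2] at h1
  calc (∫⁻ z, a z * b z ∂κ) ^ 2
      ≤ ((∫⁻ z, a z ∂κ) ^ (1 / 2 : ℝ) * (∫⁻ z, a z * b z ^ 2 ∂κ) ^ (1 / 2 : ℝ)) ^ 2 := by
        gcongr
        exact h1
    _ = (∫⁻ z, a z ∂κ) * ∫⁻ z, a z * b z ^ 2 ∂κ := by
        rw [← ENNReal.mul_rpow_of_nonneg _ _ (by norm_num : (0 : ℝ) ≤ 1 / 2),
          ← ENNReal.rpow_natCast, ← ENNReal.rpow_mul]
        norm_num

section Kop

variable {G Z : Type*} [Group G] [MeasurableSpace Z] [MulAction G Z]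

/-- The operator of a kernel on functions. -/
def kop (κ : Kernel Z Z) (c : Z → Z → ℂ) (F : Z → ℂ) (z : Z) : ℂ := ∫ z', c z z' * F z' ∂κ z

/-- The data of an operator: `κ` is reversible, `c` is invariant and satisfies Schur's bounds. -/
structure KerHyp (G : Type*) {Z : Type*} [Group G] [MeasurableSpace Z] [MulAction G Z]
    (μ : Measure Z) (κ : Kernel Z Z) (c : Z → Z → ℂ) (C : ℝ≥0∞) : Prop where
  rev : RevKer G μ κ
  meas : Measurable (Function.uncurry c)
  inv : ∀ (g : G) z z', c (g • z) (g • z') = c z z'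
  ne_top : C ≠ ∞
  row : ∀ z, ∫⁻ z', ‖c z z'‖ₑ ∂κ z ≤ C
  col : ∀ z, ∫⁻ z', ‖c z' z‖ₑ ∂κ z ≤ C

variable {μ : Measure Z} {κ : Kernel Z Z} {c : Z → Z → ℂ} {C : ℝ≥0∞} {w : Z → ℝ≥0∞}

/-- The adjoint data. -/
theorem KerHyp.adj (h : KerHyp G μ κ c C) : KerHyp G μ κ (fun z z' => conj (c z' z)) C where
  rev := h.rev
  meas := Complex.continuous_conj.measurable.comp (h.meas.comp measurable_swap)
  inv g z z' := by rw [h.inv]
  ne_top := h.ne_top
  row z := by
    refine le_trans (le_of_eq ?_) (h.col z)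
    refine lintegral_congr fun z' => ?_
    rw [← ofReal_norm, RCLike.norm_conj, ofReal_norm]
  col z := by
    refine le_trans (le_of_eq ?_) (h.row z)
    refine lintegral_congr fun z' => ?_
    rw [← ofReal_norm, RCLike.norm_conj, ofReal_norm]

theorem KerHyp.meas_left (h : KerHyp G μ κ c C) (z : Z) : Measurable fun z' => c z z' :=
  h.meas.comp measurable_prodMk_left

theorem KerHyp.meas_right (h : KerHyp G μ κ c C) (z : Z) : Measurable fun z' => c z' z :=
  h.meas.comp measurable_prodMk_right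

theorem measurable_kop [IsSFiniteKernel κ] (hc : Measurable (Function.uncurry c)) {F : Z → ℂ}
    (hF : Measurable F) : Measurable (kop κ c F) := by
  have h1 : StronglyMeasurable (fun p : Z × Z => c p.1 p.2 * F p.2) :=
    (hc.mul (hF.comp measurable_snd)).stronglyMeasurable
  exact h1.integral_kernel_prod_right'.measurable

theorem kop_smul [MeasurableConstSMul G Z] (h : KerHyp G μ κ c C) {F : Z → ℂ}
    (hF : Measurable F) (hi : ∀ (g : G) z, F (g • z) = F z) (g : G) (z : Z) :
    kop κ c F (g • z) = kop κ c F z := by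
  unfold kop
  have hm : AEStronglyMeasurable (fun z' => c (g • z) z' * F z')
      ((κ z).map fun z' => g • z') := ((h.meas_left _).mul hF).aestronglyMeasurable
  rw [← h.rev.inv g z, integral_map (measurable_const_smul g).aemeasurable hm]
  simp only [h.inv, hi]

variable [MeasurableConstSMul G Z] [SMulInvariantMeasure G Z μ] [SFinite μ]
  [IsSFiniteKernel κ] [Countable G]

/-- **Schur's test**, with the absolute values inside. -/
theorem KerHyp.lintegral_sq_le (h : KerHyp G μ κ c C) (hw : IsWeight G w) {F : Z → ℝ≥0∞}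
    (hF : Measurable F) (hi : ∀ (g : G) z, F (g • z) = F z) :
    ∫⁻ z, (∫⁻ z', ‖c z z'‖ₑ * F z' ∂κ z) ^ 2 ∂μ.withDensity w ≤
      C ^ 2 * ∫⁻ z, F z ^ 2 ∂μ.withDensity w := by
  have hm : Measurable fun p : Z × Z => ‖c p.1 p.2‖ₑ * F p.2 ^ 2 :=
    h.meas.enorm.mul ((hF.comp measurable_snd).pow_const 2)
  calc ∫⁻ z, (∫⁻ z', ‖c z z'‖ₑ * F z' ∂κ z) ^ 2 ∂μ.withDensity w
      ≤ ∫⁻ z, C * ∫⁻ z', ‖c z z'‖ₑ * F z' ^ 2 ∂κ z ∂μ.withDensity w := by
        refine lintegral_mono fun z => ?_
        refine (lintegral_mul_sq_le (h.meas_left z).enorm hF).trans ?_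
        gcongr
        exact h.row z
    _ = C * ∫⁻ z, ∫⁻ z', ‖c z z'‖ₑ * F z' ^ 2 ∂κ z ∂μ.withDensity w := by
        rw [lintegral_const_mul]
        exact hm.lintegral_kernel_prod_right'
    _ = C * ∫⁻ p, ‖c p.1 p.2‖ₑ * F p.2 ^ 2 ∂((μ.withDensity w) ⊗ₘ κ) := by
        rw [Measure.lintegral_compProd hm]
    _ = C * ∫⁻ p, ‖c p.2 p.1‖ₑ * F p.1 ^ 2 ∂((μ.withDensity w) ⊗ₘ κ) := by
        rw [h.rev.lintegral_swap hw hm]
        · rfl
        · intro g p
          rw [Prod.smul_fst, Prod.smul_snd, h.inv, hi]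
    _ = C * ∫⁻ z, ∫⁻ z', ‖c z' z‖ₑ * F z ^ 2 ∂κ z ∂μ.withDensity w := by
        rw [Measure.lintegral_compProd]
        exact (h.meas.comp measurable_swap).enorm.mul ((hF.comp measurable_fst).pow_const 2)
    _ ≤ C * ∫⁻ z, C * F z ^ 2 ∂μ.withDensity w := by
        gcongr with z
        rw [lintegral_mul_const _ (h.meas_right z).enorm]
        gcongr
        exact h.col z
    _ = C ^ 2 * ∫⁻ z, F z ^ 2 ∂μ.withDensity w := by
        rw [lintegral_const_mul _ (hF.pow_const 2), ← mul_assoc, sq]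

theorem lintegral_sq_ne_top {ν : Measure Z} {F : Z → ℂ} (hF : MemLp F 2 ν) :
    ∫⁻ z, ‖F z‖ₑ ^ 2 ∂ν ≠ ∞ := by
  have h1 := lintegral_rpow_enorm_lt_top_of_eLpNorm_lt_top (p := 2) (by simp) (by simp) hF.2
  have h2 : ∫⁻ z, ‖F z‖ₑ ^ (2 : ℝ≥0∞).toReal ∂ν = ∫⁻ z, ‖F z‖ₑ ^ 2 ∂ν := by
    refine lintegral_congr fun z => ?_
    rw [ENNReal.toReal_ofNat, ENNReal.rpow_ofNat]
  rw [h2] at h1
  exact h1.ne

theorem memLp_of_lintegral_sq {ν : Measure Z} {F : Z → ℂ} (hF : Measurable F)
    (h : ∫⁻ z, ‖F z‖ₑ ^ 2 ∂ν ≠ ∞) : MemLp F 2 ν := by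
  refine ⟨hF.aestronglyMeasurable, ?_⟩
  rw [eLpNorm_lt_top_iff_lintegral_rpow_enorm_lt_top (by simp) (by simp)]
  refine lt_of_le_of_lt (le_of_eq ?_) (lt_top_iff_ne_top.mpr h)
  refine lintegral_congr fun z => ?_
  rw [ENNReal.toReal_ofNat, ENNReal.rpow_ofNat]

/-- The integral defining `kop` converges absolutely almost everywhere. -/
theorem KerHyp.ae_integrable (h : KerHyp G μ κ c C) (hw : IsWeight G w) {F : Z → ℂ}
    (hF : Measurable F) (hi : ∀ (g : G) z, F (g • z) = F z) (hF2 : MemLp F 2 (μ.withDensity w)) :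
    ∀ᵐ z ∂μ.withDensity w, Integrable (fun z' => c z z' * F z') (κ z) := by
  have h1 := h.lintegral_sq_le hw hF.enorm (fun g z => by rw [hi g z])
  have h2 : ∫⁻ z, (∫⁻ z', ‖c z z'‖ₑ * ‖F z'‖ₑ ∂κ z) ^ 2 ∂μ.withDensity w ≠ ∞ :=
    ne_top_of_le_ne_top (ENNReal.mul_ne_top (ENNReal.pow_ne_top h.ne_top)
      (lintegral_sq_ne_top hF2)) h1
  have hm : Measurable fun p : Z × Z => ‖c p.1 p.2‖ₑ * ‖F p.2‖ₑ :=
    h.meas.enorm.mul (hF.enorm.comp measurable_snd)
  have h3 := ae_lt_top (hm.lintegral_kernel_prod_right'.pow_const 2) h2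
  filter_upwards [h3] with z hz
  refine ⟨((h.meas_left z).mul hF).aestronglyMeasurable, ?_⟩
  rw [HasFiniteIntegral]
  simp_rw [enorm_mul]
  by_contra hcon
  rw [not_lt, top_le_iff] at hcon
  rw [hcon] at hz
  simp at hz

theorem KerHyp.lintegral_kop_sq_le (h : KerHyp G μ κ c C) (hw : IsWeight G w) {F : Z → ℂ}
    (hF : Measurable F) (hi : ∀ (g : G) z, F (g • z) = F z) :
    ∫⁻ z, ‖kop κ c F z‖ₑ ^ 2 ∂μ.withDensity w ≤
      C ^ 2 * ∫⁻ z, ‖F z‖ₑ ^ 2 ∂μ.withDensity w := by
  refine le_trans ?_ (h.lintegral_sq_le hw hF.enorm (fun g z => by rw [hi g z]))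
  refine lintegral_mono fun z => ?_
  gcongr
  refine (enorm_integral_le_lintegral_enorm _).trans (le_of_eq ?_)
  simp_rw [enorm_mul]

theorem KerHyp.memLp_kop (h : KerHyp G μ κ c C) (hw : IsWeight G w) {F : Z → ℂ}
    (hF : Measurable F) (hi : ∀ (g : G) z, F (g • z) = F z) (hF2 : MemLp F 2 (μ.withDensity w)) :
    MemLp (kop κ c F) 2 (μ.withDensity w) :=
  memLp_of_lintegral_sq (measurable_kop h.meas hF)
    (ne_top_of_le_ne_top (ENNReal.mul_ne_top (ENNReal.pow_ne_top h.ne_top)
      (lintegral_sq_ne_top hF2)) (h.lintegral_kop_sq_le hw hF hi))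

omit [MeasurableConstSMul G Z] [SMulInvariantMeasure G Z μ] [Countable G] in
/-- `κ z` does not charge a `μ`-null set, for almost every `z`. -/
theorem RevKer.ae_null (hκ : RevKer G μ κ) {p : Z → Prop} (hp : ∀ᵐ z ∂μ, p z) :
    ∀ᵐ z ∂μ, ∀ᵐ z' ∂κ z, p z' := by
  obtain ⟨N, hN, hNm, hN0⟩ := exists_measurable_superset_of_null (show μ {z | p z}ᶜ = 0 from hp)
  have h1 : (μ ⊗ₘ κ) (Prod.snd ⁻¹' N) = 0 := by
    rw [← hκ.swap, Measure.map_apply measurable_swap (measurable_snd hNm)]
    rw [Measure.compProd_apply (measurable_swap (measurable_snd hNm))]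
    rw [lintegral_eq_zero_iff (Kernel.measurable_kernel_prodMk_left
      (measurable_swap (measurable_snd hNm)))]
    have h2 : ∀ᵐ z ∂μ, z ∉ N := by
      rw [ae_iff]
      simpa using hN0
    filter_upwards [h2] with z hz
    have h3 : (Prod.mk z ⁻¹' (Prod.swap ⁻¹' (Prod.snd ⁻¹' N)) : Set Z) = ∅ := by
      ext z'
      simp only [Set.mem_preimage, Prod.swap_prod_mk, Set.mem_empty_iff_false, iff_false]
      exact hz
    rw [h3]
    simp
  have h2 : ∀ᵐ q ∂(μ ⊗ₘ κ), p q.2 := by
    rw [ae_iff]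
    refine measure_mono_null ?_ h1
    intro q hq
    exact hN hq
  exact Measure.ae_ae_of_ae_compProd h2

omit [MeasurableConstSMul G Z] [SMulInvariantMeasure G Z μ] [Countable G] in
/-- Functions which agree `μ`-a.e. have the same image `μ`-a.e. -/
theorem RevKer.kop_congr (hκ : RevKer G μ κ) {F F' : Z → ℂ} (hF : F =ᵐ[μ] F') :
    kop κ c F =ᵐ[μ] kop κ c F' := by
  filter_upwards [hκ.ae_null hF] with z hz
  apply integral_congr_ae
  filter_upwards [hz] with z' hz'
  rw [hz']

omit [MeasurableConstSMul G Z] [SMulInvariantMeasure G Z μ] [SFinite μ] [Countable G] in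
theorem enorm_sq_autMk {ν : Measure Z} (F : Z → ℂ) (hF : Measurable F)
    (hi : ∀ (g : G) z, F (g • z) = F z) (hm : MemLp F 2 ν) :
    ‖(autMk F hF hi hm : autL2 G ν)‖ₑ ^ 2 = ∫⁻ z, ‖F z‖ₑ ^ 2 ∂ν := by
  have h3 : ‖(autMk F hF hi hm : autL2 G ν)‖ₑ = eLpNorm F 2 ν := by
    change ‖((autMk F hF hi hm : autL2 G ν) : Lp ℂ 2 ν)‖ₑ = _
    rw [Lp.enorm_def]
    exact eLpNorm_congr_ae (coeFn_autMk F hF hi hm)
  rw [h3, eLpNorm_eq_lintegral_rpow_enorm_toReal (by simp) (by simp)]
  simp only [ENNReal.toReal_ofNat, ENNReal.rpow_ofNat]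
  rw [← ENNReal.rpow_natCast, ← ENNReal.rpow_mul]
  norm_num

omit [MeasurableConstSMul G Z] [SMulInvariantMeasure G Z μ] [SFinite μ] [Countable G] in
theorem enorm_sq_autL2 {ν : Measure Z} (f : autL2 G ν) :
    ‖f‖ₑ ^ 2 = ∫⁻ z, ‖arep f z‖ₑ ^ 2 ∂ν := by
  rw [← enorm_sq_autMk (arep f) (measurable_arep f) (arep_smul f) (memLp_arep f)]
  congr 2
  apply autL2_ext
  exact (arep_autMk _ _ _ _).symm

/-- The bounded operator on `L²(G \ Z)`. -/
def KerHyp.opL (h : KerHyp G μ κ c C) (hw : IsWeight G w) :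
    autL2 G (μ.withDensity w) →L[ℂ] autL2 G (μ.withDensity w) :=
  LinearMap.mkContinuous
    { toFun := fun f => autMk (kop κ c (arep f)) (measurable_kop h.meas (measurable_arep f))
        (kop_smul h (measurable_arep f) (arep_smul f))
        (h.memLp_kop hw (measurable_arep f) (arep_smul f) (memLp_arep f))
      map_add' := by
        intro f g
        apply autL2_ext
        refine (arep_autMk _ _ _ _).trans ?_
        refine Filter.EventuallyEq.trans ?_ (arep_add _ _).symm
        have h1 : arep (f + g) =ᵐ[μ] arep f + arep g :=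
          hw.ae_eq_of_inv (measurable_arep _) ((measurable_arep f).add (measurable_arep g))
            (arep_smul _) (fun g' z => by rw [Pi.add_apply, arep_smul, arep_smul]; rfl)
            (arep_add f g)
        have h2 := (withDensity_ac μ w).ae_eq (h.rev.kop_congr (c := c) h1)
        have h3 := h.ae_integrable hw (measurable_arep f) (arep_smul f) (memLp_arep f)
        have h4 := h.ae_integrable hw (measurable_arep g) (arep_smul g) (memLp_arep g)
        filter_upwards [h2, h3, h4,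
          arep_autMk (kop κ c (arep f)) (measurable_kop h.meas (measurable_arep f))
            (kop_smul h (measurable_arep f) (arep_smul f))
            (h.memLp_kop hw (measurable_arep f) (arep_smul f) (memLp_arep f)),
          arep_autMk (kop κ c (arep g)) (measurable_kop h.meas (measurable_arep g))
            (kop_smul h (measurable_arep g) (arep_smul g))
            (h.memLp_kop hw (measurable_arep g) (arep_smul g) (memLp_arep g))]
          with z hz2 hz3 hz4 hz5 hz6
        rw [hz2, Pi.add_apply, hz5, hz6]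
        unfold kop
        rw [← integral_add hz3 hz4]
        refine integral_congr_ae (Filter.Eventually.of_forall fun z' => ?_)
        simp only [Pi.add_apply, mul_add]
      map_smul' := by
        intro a f
        apply autL2_ext
        refine (arep_autMk _ _ _ _).trans ?_
        refine Filter.EventuallyEq.trans ?_ (arep_csmul _ _).symm
        have h1 : arep (a • f) =ᵐ[μ] a • arep f :=
          hw.ae_eq_of_inv (measurable_arep _) ((measurable_arep f).const_smul a)
            (arep_smul _) (fun g' z => by rw [Pi.smul_apply, arep_smul]; rfl)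
            (arep_csmul a f)
        have h2 := (withDensity_ac μ w).ae_eq (h.rev.kop_congr (c := c) h1)
        filter_upwards [h2,
          arep_autMk (kop κ c (arep f)) (measurable_kop h.meas (measurable_arep f))
            (kop_smul h (measurable_arep f) (arep_smul f))
            (h.memLp_kop hw (measurable_arep f) (arep_smul f) (memLp_arep f))]
          with z hz2 hz5
        rw [hz2, Pi.smul_apply, RingHom.id_apply, hz5]
        unfold kop
        rw [smul_eq_mul, ← integral_const_mul]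
        refine integral_congr_ae (Filter.Eventually.of_forall fun z' => ?_)
        simp only [Pi.smul_apply, smul_eq_mul]
        ring }
    C.toReal (by
      intro f
      have h1 := h.lintegral_kop_sq_le hw (measurable_arep f) (arep_smul f)
      rw [← enorm_sq_autMk (kop κ c (arep f)) (measurable_kop h.meas (measurable_arep f))
          (kop_smul h (measurable_arep f) (arep_smul f))
          (h.memLp_kop hw (measurable_arep f) (arep_smul f) (memLp_arep f)),
        ← enorm_sq_autL2 f, ← mul_pow] at h1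
      have h5 := (ENNReal.pow_le_pow_left_iff two_ne_zero).mp h1
      have h6 := ENNReal.toReal_mono (ENNReal.mul_ne_top h.ne_top enorm_ne_top) h5
      rw [ENNReal.toReal_mul, toReal_enorm, toReal_enorm] at h6
      exact h6)

theorem KerHyp.opL_apply_ae (h : KerHyp G μ κ c C) (hw : IsWeight G w)
    (f : autL2 G (μ.withDensity w)) :
    arep (h.opL hw f) =ᵐ[μ.withDensity w] kop κ c (arep f) :=
  arep_autMk (kop κ c (arep f)) (measurable_kop h.meas (measurable_arep f))
    (kop_smul h (measurable_arep f) (arep_smul f))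
    (h.memLp_kop hw (measurable_arep f) (arep_smul f) (memLp_arep f))

/-- The value of the operator may be computed from any invariant representative. -/
theorem KerHyp.opL_ae (h : KerHyp G μ κ c C) (hw : IsWeight G w)
    (f : autL2 G (μ.withDensity w)) {F : Z → ℂ} (hF : Measurable F)
    (hi : ∀ (g : G) z, F (g • z) = F z) (hfF : arep f =ᵐ[μ.withDensity w] F) :
    arep (h.opL hw f) =ᵐ[μ] kop κ c F := by
  have h1 : arep f =ᵐ[μ] F := hw.ae_eq_of_inv (measurable_arep f) hF (arep_smul f) hi hfF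
  have h2 : arep (h.opL hw f) =ᵐ[μ] kop κ c (arep f) :=
    hw.ae_eq_of_inv (measurable_arep _) (measurable_kop h.meas (measurable_arep f))
      (arep_smul _) (kop_smul h (measurable_arep f) (arep_smul f)) (h.opL_apply_ae hw f)
  exact h2.trans (h.rev.kop_congr h1)

theorem KerHyp.norm_opL_le (h : KerHyp G μ κ c C) (hw : IsWeight G w) :
    ‖h.opL hw‖ ≤ C.toReal :=
  LinearMap.mkContinuous_norm_le _ ENNReal.toReal_nonneg _

theorem KerHyp.integrable_pair (h : KerHyp G μ κ c C) (hw : IsWeight G w) {F K : Z → ℂ}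
    (hF : Measurable F) (hi : ∀ (g : G) z, F (g • z) = F z) (hF2 : MemLp F 2 (μ.withDensity w))
    (hK : Measurable K) (hK2 : MemLp K 2 (μ.withDensity w)) :
    Integrable (fun p : Z × Z => conj (c p.1 p.2 * F p.2) * K p.1) ((μ.withDensity w) ⊗ₘ κ) := by
  have hm : Measurable fun p : Z × Z => conj (c p.1 p.2 * F p.2) * K p.1 :=
    (Complex.continuous_conj.measurable.comp (h.meas.mul (hF.comp measurable_snd))).mul
      (hK.comp measurable_fst)
  refine ⟨hm.aestronglyMeasurable, ?_⟩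
  rw [HasFiniteIntegral, Measure.lintegral_compProd hm.enorm]
  have h1 : ∀ z, ∫⁻ z', ‖conj (c z z' * F z') * K z‖ₑ ∂κ z =
      (∫⁻ z', ‖c z z'‖ₑ * ‖F z'‖ₑ ∂κ z) * ‖K z‖ₑ := by
    intro z
    have hm' : Measurable fun z' => ‖c z z'‖ₑ * ‖F z'‖ₑ := (h.meas_left z).enorm.mul hF.enorm
    rw [← lintegral_mul_const _ hm']
    refine lintegral_congr fun z' => ?_
    rw [enorm_mul, ← ofReal_norm (conj (c z z' * F z')), RCLike.norm_conj, ofReal_norm, enorm_mul]
  simp_rw [h1]
  have h2 : ∀ z, (∫⁻ z', ‖c z z'‖ₑ * ‖F z'‖ₑ ∂κ z) * ‖K z‖ₑ ≤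
      (∫⁻ z', ‖c z z'‖ₑ * ‖F z'‖ₑ ∂κ z) ^ 2 + ‖K z‖ₑ ^ 2 := by
    intro z
    generalize (∫⁻ z', ‖c z z'‖ₑ * ‖F z'‖ₑ ∂κ z) = a
    generalize ‖K z‖ₑ = b
    rcases le_total a b with hab | hab
    · calc a * b ≤ b * b := by gcongr
        _ = b ^ 2 := (sq b).symm
        _ ≤ a ^ 2 + b ^ 2 := le_add_self
    · calc a * b ≤ a * a := by gcongr
        _ = a ^ 2 := (sq a).symm
        _ ≤ a ^ 2 + b ^ 2 := le_self_add
  refine lt_of_le_of_lt (lintegral_mono h2) ?_
  rw [lintegral_add_right _ (hK.enorm.pow_const 2)]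
  refine ENNReal.add_lt_top.mpr ⟨?_, lt_top_iff_ne_top.mpr (lintegral_sq_ne_top hK2)⟩
  refine lt_of_le_of_lt (h.lintegral_sq_le hw hF.enorm (fun g z => by rw [hi g z])) ?_
  exact ENNReal.mul_lt_top (ENNReal.pow_lt_top (lt_top_iff_ne_top.mpr h.ne_top))
    (lt_top_iff_ne_top.mpr (lintegral_sq_ne_top hF2))

/-- **The adjoint.** -/
theorem KerHyp.inner_opL (h : KerHyp G μ κ c C) (hw : IsWeight G w)
    (f g : autL2 G (μ.withDensity w)) :
    ⟪h.opL hw f, g⟫_ℂ = ⟪f, h.adj.opL hw g⟫_ℂ := by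
  rw [inner_autL2, inner_autL2]
  have hint := h.integrable_pair hw (measurable_arep f) (arep_smul f) (memLp_arep f)
    (measurable_arep g) (memLp_arep g)
  have hm : Measurable fun p : Z × Z => conj (c p.1 p.2 * arep f p.2) * arep g p.1 :=
    (Complex.continuous_conj.measurable.comp
      (h.meas.mul ((measurable_arep f).comp measurable_snd))).mul
      ((measurable_arep g).comp measurable_fst)
  have hinv : ∀ (γ : G) (p : Z × Z), conj (c (γ • p).1 (γ • p).2 * arep f (γ • p).2) *
      arep g (γ • p).1 = conj (c p.1 p.2 * arep f p.2) * arep g p.1 := by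
    intro γ p
    rw [Prod.smul_fst, Prod.smul_snd, h.inv, arep_smul, arep_smul]
  have hint' := h.rev.integrable_swap hw hm hinv hint
  have h1 : ∫ z, conj (arep (h.opL hw f) z) * arep g z ∂μ.withDensity w =
      ∫ z, ∫ z', conj (c z z' * arep f z') * arep g z ∂κ z ∂μ.withDensity w := by
    apply integral_congr_ae
    filter_upwards [h.opL_apply_ae hw f] with z hz
    rw [hz, integral_mul_const, integral_conj]
    rfl
  have h2 : ∫ z, conj (arep f z) * arep (h.adj.opL hw g) z ∂μ.withDensity w =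
      ∫ z, ∫ z', conj (c z' z * arep f z) * arep g z' ∂κ z ∂μ.withDensity w := by
    apply integral_congr_ae
    filter_upwards [h.adj.opL_apply_ae hw g] with z hz
    rw [hz]
    unfold kop
    rw [← integral_const_mul]
    refine integral_congr_ae (Filter.Eventually.of_forall fun z' => ?_)
    simp only [map_mul]
    ring
  rw [h1, h2, ← Measure.integral_compProd (f := fun p : Z × Z =>
      conj (c p.1 p.2 * arep f p.2) * arep g p.1) hint,
    ← Measure.integral_compProd (f := fun p : Z × Z =>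
      conj (c p.2 p.1 * arep f p.1) * arep g p.2) hint']
  exact h.rev.integral_swap hw hm hinv

theorem KerHyp.adjoint_opL (h : KerHyp G μ κ c C) (hw : IsWeight G w) :
    ContinuousLinearMap.adjoint (h.opL hw) = h.adj.opL hw := by
  symm
  rw [ContinuousLinearMap.eq_adjoint_iff]
  intro x y
  have h1 := h.inner_opL hw y x
  rw [← inner_conj_symm x (h.opL hw y), ← inner_conj_symm (h.adj.opL hw x) y, h1]

/-- A hermitian kernel gives a symmetric operator. -/
theorem KerHyp.isSymmetric (h : KerHyp G μ κ c C) (hw : IsWeight G w)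
    (hc : ∀ z z', conj (c z' z) = c z z') : (h.opL hw).IsSymmetric := by
  intro f g
  have h1 := h.inner_opL hw f g
  have h2 : h.adj.opL hw g = h.opL hw g := by
    apply autL2_ext
    refine Filter.EventuallyEq.trans ?_ (h.opL_apply_ae hw g).symm
    filter_upwards [h.adj.opL_apply_ae hw g] with z hz
    rw [hz]
    unfold kop
    simp_rw [hc]
  rw [h2] at h1
  exact h1

end Kop

end Fermat.Agent.LT
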