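import Mathlib
import Fermat.Agent.LT.Auto.Oper

/-! # Resampling kernels and compositions

`e : Z ≃ᵐ Y × W`; `rs e z y` replaces the `Y`-coordinate of `z` by `y`; `fibKer e lam z` is the law
of `rs e z y`, `y` distributed according to `lam`.

* `revKer_fibKer`, `revKer_const`;
* `opL_comm_fib`: operators attached to independent coordinates commute;
* `opL_comp_fib`: composition of two operators attached to the same coordinate;
* `opL_comp_const`: composition of any operator with a function kernel. -/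

set_option autoImplicit false

noncomputable section

open MeasureTheory ENNReal MulAction ProbabilityTheory
open scoped InnerProductSpace ComplexConjugate

namespace Fermat.Agent.LT

section Fib

variable {Z Y W : Type*} [MeasurableSpace Z] [MeasurableSpace Y] [MeasurableSpace W]

/-- Replace the `Y`-coordinate. -/
def rs (e : Z ≃ᵐ Y × W) (z : Z) (y : Y) : Z := e.symm (y, (e z).2)

theorem measurable_rs (e : Z ≃ᵐ Y × W) : Measurable fun p : Z × Y => rs e p.1 p.2 :=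
  e.symm.measurable.comp (measurable_snd.prodMk (measurable_snd.comp
    (e.measurable.comp measurable_fst)))

theorem measurable_rs_right (e : Z ≃ᵐ Y × W) (z : Z) : Measurable (rs e z) :=
  (measurable_rs e).comp measurable_prodMk_left

theorem rs_rs (e : Z ≃ᵐ Y × W) (z : Z) (y y' : Y) : rs e (rs e z y) y' = rs e z y' := by
  unfold rs
  rw [e.apply_symm_apply]

theorem rs_self (e : Z ≃ᵐ Y × W) (z : Z) : rs e z (e z).1 = z := by
  unfold rs
  rw [Prod.mk.eta, e.symm_apply_apply]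

theorem rs_symm (e : Z ≃ᵐ Y × W) (p : Y × W) (y : Y) : rs e (e.symm p) y = e.symm (y, p.2) := by
  unfold rs
  rw [e.apply_symm_apply]

/-- The resampling kernel. -/
def fibKer (e : Z ≃ᵐ Y × W) (lam : Measure Y) : Kernel Z Z :=
  (Kernel.id ×ₖ Kernel.const Z lam).map fun p : Z × Y => rs e p.1 p.2

variable (e : Z ≃ᵐ Y × W) {lam : Measure Y}

instance [SFinite lam] : IsSFiniteKernel (fibKer e lam) := by
  unfold fibKer; infer_instance

variable [SFinite lam]

theorem fibKer_apply (z : Z) : fibKer e lam z = lam.map (rs e z) := by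
  ext s hs
  rw [fibKer, Kernel.map_apply' _ (measurable_rs e) _ hs,
    Kernel.id_prod_apply' _ _ (measurable_rs e hs), Kernel.const_apply,
    Measure.map_apply (measurable_rs_right e z) hs]
  rfl

theorem lintegral_fibKer (z : Z) {f : Z → ℝ≥0∞} (hf : Measurable f) :
    ∫⁻ z', f z' ∂fibKer e lam z = ∫⁻ y, f (rs e z y) ∂lam := by
  rw [fibKer_apply, lintegral_map hf (measurable_rs_right e z)]

theorem integral_fibKer (z : Z) {f : Z → ℂ} (hf : Measurable f) :
    ∫ z', f z' ∂fibKer e lam z = ∫ y, f (rs e z y) ∂lam := by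
  rw [fibKer_apply, integral_map (measurable_rs_right e z).aemeasurable hf.aestronglyMeasurable]

theorem kop_fibKer {c : Z → Z → ℂ} (hc : Measurable (Function.uncurry c)) {F : Z → ℂ}
    (hF : Measurable F) (z : Z) :
    kop (fibKer e lam) c F z = ∫ y, c z (rs e z y) * F (rs e z y) ∂lam := by
  unfold kop
  exact integral_fibKer e z ((hc.comp measurable_prodMk_left).mul hF)

variable {μ : Measure Z} {nu : Measure W} [SFinite nu]

theorem lintegral_via (he : MeasurePreserving e μ (lam.prod nu)) {f : Z → ℝ≥0∞}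
    (hf : Measurable f) :
    ∫⁻ z, f z ∂μ = ∫⁻ v, ∫⁻ y, f (e.symm (y, v)) ∂lam ∂nu := by
  have hm : AEMeasurable (fun p : Y × W => f (e.symm p)) (lam.prod nu) :=
    (hf.comp e.symm.measurable).aemeasurable
  rw [← he.symm.map_eq, lintegral_map hf e.symm.measurable, lintegral_prod_symm _ hm]

/-- Resampling is reversible. -/
theorem fibKer_swap [SFinite μ] (he : MeasurePreserving e μ (lam.prod nu)) :
    (μ ⊗ₘ fibKer e lam).map Prod.swap = μ ⊗ₘ fibKer e lam := by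
  refine Measure.ext_of_lintegral _ fun f hf => ?_
  have hfs : Measurable fun p : Z × Z => f p.swap := hf.comp measurable_swap
  rw [lintegral_map hf measurable_swap, Measure.lintegral_compProd hfs,
    Measure.lintegral_compProd hf]
  have h1 : ∀ z, ∫⁻ z', f (Prod.swap (z, z')) ∂fibKer e lam z =
      ∫⁻ y, f (rs e z y, z) ∂lam := fun z =>
    lintegral_fibKer e z (hfs.comp measurable_prodMk_left)
  have h2 : ∀ z, ∫⁻ z', f (z, z') ∂fibKer e lam z = ∫⁻ y, f (z, rs e z y) ∂lam := fun z =>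
    lintegral_fibKer e z (hf.comp measurable_prodMk_left)
  simp_rw [h1, h2]
  have hm1 : Measurable fun p : Z × Y => f (rs e p.1 p.2, p.1) :=
    hf.comp ((measurable_rs e).prodMk measurable_fst)
  have hm2 : Measurable fun p : Z × Y => f (p.1, rs e p.1 p.2) :=
    hf.comp (measurable_fst.prodMk (measurable_rs e))
  rw [lintegral_via e he hm1.lintegral_prod_right', lintegral_via e he hm2.lintegral_prod_right']
  refine lintegral_congr fun v => ?_
  simp_rw [rs_symm]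
  rw [lintegral_lintegral_swap]
  exact (hf.comp (((e.symm.measurable.comp (measurable_snd.prodMk measurable_const))).prodMk
    (e.symm.measurable.comp (measurable_fst.prodMk measurable_const)))).aemeasurable

variable {G : Type*} [Group G] [MulAction G Z] [MeasurableConstSMul G Z]

theorem revKer_fibKer [SFinite μ] (he : MeasurePreserving e μ (lam.prod nu))
    (hG : ∀ g : G, ∃ gY : Y → Y, MeasurePreserving gY lam lam ∧
      ∀ z y, g • rs e z y = rs e (g • z) (gY y)) : RevKer G μ (fibKer e lam) where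
  swap := fibKer_swap e he
  inv g z := by
    obtain ⟨gY, hgY, h⟩ := hG g
    rw [fibKer_apply, fibKer_apply, Measure.map_map (measurable_const_smul g)
      (measurable_rs_right e z)]
    have h1 : (fun z' => g • z') ∘ rs e z = rs e (g • z) ∘ gY := funext fun y => h z y
    rw [h1, ← Measure.map_map (measurable_rs_right e _) hgY.measurable, hgY.map_eq]

omit [SFinite nu] in
theorem revKer_const [SFinite μ] [SMulInvariantMeasure G Z μ] :
    RevKer G μ (Kernel.const Z μ) where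
  swap := by
    rw [Measure.compProd_const, Measure.prod_swap]
  inv g z := by
    rw [Kernel.const_apply, Kernel.const_apply]
    exact (measurePreserving_smul g μ).map_eq

end Fib

/-! ### Two steps -/

section Two

variable {G Z : Type*} [Group G] [MeasurableSpace Z] [MulAction G Z]
  {μ : Measure Z} {κ₁ κ₂ : Kernel Z Z} {c₁ c₂ : Z → Z → ℂ} {C₁ C₂ : ℝ≥0∞} {w : Z → ℝ≥0∞}

theorem lop_smul [MeasurableConstSMul G Z] (h : KerHyp G μ κ₁ c₁ C₁) {F : Z → ℝ≥0∞}
    (hF : Measurable F) (hi : ∀ (g : G) z, F (g • z) = F z) (g : G) (z : Z) :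
    ∫⁻ z', ‖c₁ (g • z) z'‖ₑ * F z' ∂κ₁ (g • z) = ∫⁻ z', ‖c₁ z z'‖ₑ * F z' ∂κ₁ z := by
  have hm : Measurable fun z' => ‖c₁ (g • z) z'‖ₑ * F z' := (h.meas_left _).enorm.mul hF
  rw [← h.rev.inv g z, lintegral_map hm (measurable_const_smul g)]
  simp only [h.inv, hi]

variable [MeasurableConstSMul G Z] [SMulInvariantMeasure G Z μ] [SFinite μ]
  [IsSFiniteKernel κ₁] [IsSFiniteKernel κ₂] [Countable G]

theorem KerHyp.ae_lt_top₂ (h₁ : KerHyp G μ κ₁ c₁ C₁) (h₂ : KerHyp G μ κ₂ c₂ C₂)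
    (hw : IsWeight G w) {F : Z → ℂ} (hF : Measurable F) (hi : ∀ (g : G) z, F (g • z) = F z)
    (hF2 : MemLp F 2 (μ.withDensity w)) :
    ∀ᵐ z ∂μ.withDensity w,
      ∫⁻ z', ‖c₁ z z'‖ₑ * ∫⁻ z'', ‖c₂ z' z''‖ₑ * ‖F z''‖ₑ ∂κ₂ z' ∂κ₁ z < ∞ := by
  have hm : Measurable fun p : Z × Z => ‖c₂ p.1 p.2‖ₑ * ‖F p.2‖ₑ :=
    h₂.meas.enorm.mul (hF.enorm.comp measurable_snd)
  have hF1 : Measurable fun z' => ∫⁻ z'', ‖c₂ z' z''‖ₑ * ‖F z''‖ₑ ∂κ₂ z' :=
    hm.lintegral_kernel_prod_right'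
  have e1 := h₁.lintegral_sq_le hw hF1 (fun g z => lop_smul h₂ hF.enorm
    (fun g z => by rw [hi g z]) g z)
  have e2 := h₂.lintegral_sq_le hw hF.enorm (fun g z => by rw [hi g z])
  have hm' : Measurable fun p : Z × Z => ‖c₁ p.1 p.2‖ₑ *
      ∫⁻ z'', ‖c₂ p.2 z''‖ₑ * ‖F z''‖ₑ ∂κ₂ p.2 :=
    h₁.meas.enorm.mul (hF1.comp measurable_snd)
  have h3 : ∫⁻ z, (∫⁻ z', ‖c₁ z z'‖ₑ * ∫⁻ z'', ‖c₂ z' z''‖ₑ * ‖F z''‖ₑ ∂κ₂ z' ∂κ₁ z) ^ 2
      ∂μ.withDensity w ≠ ∞ := by
    refine ne_top_of_le_ne_top ?_ e1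
    refine ENNReal.mul_ne_top (ENNReal.pow_ne_top h₁.ne_top) (ne_top_of_le_ne_top ?_ e2)
    exact ENNReal.mul_ne_top (ENNReal.pow_ne_top h₂.ne_top) (lintegral_sq_ne_top hF2)
  filter_upwards [ae_lt_top (hm'.lintegral_kernel_prod_right'.pow_const 2) h3] with z hz
  by_contra hcon
  rw [not_lt, top_le_iff] at hcon
  rw [hcon] at hz
  simp at hz

/-- Composition of an arbitrary operator with a function kernel. -/
theorem KerHyp.opL_comp_const {K K' : Z → Z → ℂ} {C C' : ℝ≥0∞} (h₁ : KerHyp G μ κ₁ c₁ C₁)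
    (hK : KerHyp G μ (Kernel.const Z μ) K C) (hK' : KerHyp G μ (Kernel.const Z μ) K' C')
    (hw : IsWeight G w) (hKK : ∀ z z'', K' z z'' = ∫ z', c₁ z z' * K z' z'' ∂κ₁ z) :
    h₁.opL hw ∘L hK.opL hw = hK'.opL hw := by
  refine ContinuousLinearMap.ext fun f => autL2_ext ?_
  rw [ContinuousLinearMap.comp_apply]
  have hF := measurable_arep f
  have hi := arep_smul f
  have e1 : arep (h₁.opL hw (hK.opL hw f)) =ᵐ[μ] kop κ₁ c₁ (kop (Kernel.const Z μ) K (arep f)) :=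
    h₁.opL_ae hw _ (measurable_kop hK.meas hF) (kop_smul hK hF hi) (hK.opL_apply_ae hw f)
  refine ((withDensity_ac μ w).ae_eq e1).trans ?_
  refine Filter.EventuallyEq.trans ?_ (hK'.opL_apply_ae hw f).symm
  filter_upwards [h₁.ae_lt_top₂ hK hw hF hi (memLp_arep f)] with z hz
  unfold kop
  simp_rw [Kernel.const_apply]
  have h3 : ∀ z'', K' z z'' * arep f z'' = ∫ z', c₁ z z' * (K z' z'' * arep f z'') ∂κ₁ z := by
    intro z''
    rw [hKK, ← integral_mul_const]
    refine integral_congr_ae (Filter.Eventually.of_forall fun z' => ?_)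
    dsimp only
    ring
  simp_rw [h3, ← integral_const_mul]
  have hm : Measurable fun p : Z × Z => c₁ z p.1 * (K p.1 p.2 * arep f p.2) :=
    ((h₁.meas_left z).comp measurable_fst).mul (hK.meas.mul (hF.comp measurable_snd))
  refine integral_integral_swap (f := fun z' z'' => c₁ z z' * (K z' z'' * arep f z'')) ?_
  refine ⟨hm.aestronglyMeasurable, ?_⟩
  change ∫⁻ p : Z × Z, ‖c₁ z p.1 * (K p.1 p.2 * arep f p.2)‖ₑ ∂((κ₁ z).prod μ) < ∞
  rw [lintegral_prod _ hm.enorm.aemeasurable]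
  refine lt_of_le_of_lt (le_of_eq ?_) hz
  refine lintegral_congr fun z' => ?_
  have hm3 : Measurable fun z'' => ‖K z' z''‖ₑ * ‖arep f z''‖ₑ :=
    (hK.meas_left z').enorm.mul hF.enorm
  rw [Kernel.const_apply, ← lintegral_const_mul _ hm3]
  refine lintegral_congr fun z'' => ?_
  dsimp only
  rw [enorm_mul, enorm_mul]

end Two

/-! ### Resampling independent coordinates -/

section Comm

variable {G Z Y₁ Y₂ W₁ W₂ : Type*} [Group G] [MeasurableSpace Z] [MulAction G Z]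
  [MeasurableSpace Y₁] [MeasurableSpace Y₂] [MeasurableSpace W₁] [MeasurableSpace W₂]
  {e₁ : Z ≃ᵐ Y₁ × W₁} {e₂ : Z ≃ᵐ Y₂ × W₂} {lam₁ : Measure Y₁} {lam₂ : Measure Y₂}
  [SFinite lam₁] [SFinite lam₂]
  {μ : Measure Z} {c₁ c₂ : Z → Z → ℂ} {C₁ C₂ : ℝ≥0∞} {w : Z → ℝ≥0∞}
  [MeasurableConstSMul G Z] [SMulInvariantMeasure G Z μ] [SFinite μ] [Countable G]

/-- A two step composition as an iterated integral, which converges absolutely. -/
theorem kop_kop_fib (h₁ : KerHyp G μ (fibKer e₁ lam₁) c₁ C₁)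
    (h₂ : KerHyp G μ (fibKer e₂ lam₂) c₂ C₂) (hw : IsWeight G w) {F : Z → ℂ} (hF : Measurable F)
    (hi : ∀ (g : G) z, F (g • z) = F z) (hF2 : MemLp F 2 (μ.withDensity w)) :
    ∀ᵐ z ∂μ.withDensity w,
      Integrable (fun p : Y₁ × Y₂ => c₁ z (rs e₁ z p.1) *
        (c₂ (rs e₁ z p.1) (rs e₂ (rs e₁ z p.1) p.2) * F (rs e₂ (rs e₁ z p.1) p.2)))
        (lam₁.prod lam₂) ∧
      kop (fibKer e₁ lam₁) c₁ (kop (fibKer e₂ lam₂) c₂ F) z =
        ∫ y₁, ∫ y₂, c₁ z (rs e₁ z y₁) *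
          (c₂ (rs e₁ z y₁) (rs e₂ (rs e₁ z y₁) y₂) * F (rs e₂ (rs e₁ z y₁) y₂)) ∂lam₂ ∂lam₁ := by
  filter_upwards [h₁.ae_lt_top₂ h₂ hw hF hi hF2] with z hz
  have hr1 : Measurable fun p : Y₁ × Y₂ => rs e₁ z p.1 :=
    (measurable_rs_right e₁ z).comp measurable_fst
  have hr2 : Measurable fun p : Y₁ × Y₂ => rs e₂ (rs e₁ z p.1) p.2 :=
    (measurable_rs e₂).comp (hr1.prodMk measurable_snd)
  have hm : Measurable fun p : Y₁ × Y₂ => c₁ z (rs e₁ z p.1) *
      (c₂ (rs e₁ z p.1) (rs e₂ (rs e₁ z p.1) p.2) * F (rs e₂ (rs e₁ z p.1) p.2)) :=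
    ((h₁.meas_left z).comp hr1).mul ((h₂.meas.comp (hr1.prodMk hr2)).mul (hF.comp hr2))
  constructor
  · refine ⟨hm.aestronglyMeasurable, ?_⟩
    rw [HasFiniteIntegral, lintegral_prod _ hm.enorm.aemeasurable]
    have hF1 : Measurable fun z' => ∫⁻ z'', ‖c₂ z' z''‖ₑ * ‖F z''‖ₑ ∂fibKer e₂ lam₂ z' :=
      (h₂.meas.enorm.mul (hF.enorm.comp measurable_snd)).lintegral_kernel_prod_right'
    have hF2' : Measurable fun z' => ‖c₁ z z'‖ₑ *
        ∫⁻ z'', ‖c₂ z' z''‖ₑ * ‖F z''‖ₑ ∂fibKer e₂ lam₂ z' := (h₁.meas_left z).enorm.mul hF1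
    rw [lintegral_fibKer e₁ z hF2'] at hz
    refine lt_of_le_of_lt (le_of_eq ?_) hz
    refine lintegral_congr fun y₁ => ?_
    have hm2 : Measurable fun z'' => ‖c₂ (rs e₁ z y₁) z''‖ₑ * ‖F z''‖ₑ :=
      (h₂.meas_left _).enorm.mul hF.enorm
    have hm4 : Measurable fun y₂ => ‖c₂ (rs e₁ z y₁) (rs e₂ (rs e₁ z y₁) y₂)‖ₑ *
        ‖F (rs e₂ (rs e₁ z y₁) y₂)‖ₑ := hm2.comp (measurable_rs_right e₂ _)
    rw [lintegral_fibKer e₂ _ hm2, ← lintegral_const_mul _ hm4]
    refine lintegral_congr fun y₂ => ?_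
    rw [enorm_mul, enorm_mul]
  · rw [kop_fibKer e₁ h₁.meas (measurable_kop h₂.meas hF)]
    refine integral_congr_ae (Filter.Eventually.of_forall fun y₁ => ?_)
    dsimp only
    rw [kop_fibKer e₂ h₂.meas hF, ← integral_const_mul]

/-- **Operators attached to independent coordinates commute.** -/
theorem KerHyp.opL_comm_fib (h₁ : KerHyp G μ (fibKer e₁ lam₁) c₁ C₁)
    (h₂ : KerHyp G μ (fibKer e₂ lam₂) c₂ C₂) (hw : IsWeight G w)
    (hrs : ∀ z y₁ y₂, rs e₂ (rs e₁ z y₁) y₂ = rs e₁ (rs e₂ z y₂) y₁)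
    (hcc : ∀ z y₁ y₂, c₁ z (rs e₁ z y₁) * c₂ (rs e₁ z y₁) (rs e₂ (rs e₁ z y₁) y₂) =
      c₂ z (rs e₂ z y₂) * c₁ (rs e₂ z y₂) (rs e₁ (rs e₂ z y₂) y₁)) :
    h₁.opL hw ∘L h₂.opL hw = h₂.opL hw ∘L h₁.opL hw := by
  refine ContinuousLinearMap.ext fun f => autL2_ext ?_
  rw [ContinuousLinearMap.comp_apply, ContinuousLinearMap.comp_apply]
  have hF := measurable_arep f
  have hi := arep_smul f
  have e1 := (withDensity_ac μ w).ae_eq (h₁.opL_ae hw (h₂.opL hw f)
    (measurable_kop h₂.meas hF) (kop_smul h₂ hF hi) (h₂.opL_apply_ae hw f))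
  have e2 := (withDensity_ac μ w).ae_eq (h₂.opL_ae hw (h₁.opL hw f)
    (measurable_kop h₁.meas hF) (kop_smul h₁ hF hi) (h₁.opL_apply_ae hw f))
  filter_upwards [e1, e2, kop_kop_fib h₁ h₂ hw hF hi (memLp_arep f),
    kop_kop_fib h₂ h₁ hw hF hi (memLp_arep f)] with z hz1 hz2 hz3 hz4
  rw [hz1, hz2, hz3.2, hz4.2, integral_integral_swap hz3.1]
  refine integral_congr_ae (Filter.Eventually.of_forall fun y₂ => ?_)
  dsimp only
  refine integral_congr_ae (Filter.Eventually.of_forall fun y₁ => ?_)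
  dsimp only
  rw [← mul_assoc, hcc, hrs, mul_assoc]

/-- **Composition of two operators attached to the same coordinate.** -/
theorem KerHyp.opL_comp_fib {c₂ c₃ : Z → Z → ℂ} {C₃ : ℝ≥0∞}
    (h₁ : KerHyp G μ (fibKer e₁ lam₁) c₁ C₁)
    (h₂ : KerHyp G μ (fibKer e₁ lam₁) c₂ C₂) (h₃ : KerHyp G μ (fibKer e₁ lam₁) c₃ C₃)
    (hw : IsWeight G w)
    (hc : ∀ z y₂, c₃ z (rs e₁ z y₂) = ∫ y₁, c₁ z (rs e₁ z y₁) * c₂ (rs e₁ z y₁) (rs e₁ z y₂) ∂lam₁) :
    h₁.opL hw ∘L h₂.opL hw = h₃.opL hw := by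
  refine ContinuousLinearMap.ext fun f => autL2_ext ?_
  rw [ContinuousLinearMap.comp_apply]
  have hF := measurable_arep f
  have hi := arep_smul f
  have e1 := (withDensity_ac μ w).ae_eq (h₁.opL_ae hw (h₂.opL hw f)
    (measurable_kop h₂.meas hF) (kop_smul h₂ hF hi) (h₂.opL_apply_ae hw f))
  filter_upwards [e1, h₃.opL_apply_ae hw f, kop_kop_fib h₁ h₂ hw hF hi (memLp_arep f)]
    with z hz1 hz2 hz3
  rw [hz1, hz2, hz3.2, integral_integral_swap hz3.1, kop_fibKer e₁ h₃.meas hF]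
  refine integral_congr_ae (Filter.Eventually.of_forall fun y₂ => ?_)
  dsimp only
  rw [hc, ← integral_mul_const]
  refine integral_congr_ae (Filter.Eventually.of_forall fun y₁ => ?_)
  dsimp only
  rw [rs_rs]
  ring

end Comm

end Fermat.Agent.LT
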