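import Mathlib
import Fermat.Agent.LT.Auto.Fib

/-! # Discrete kernels and full kernels on `X × D`

`Z = X × D`, `D` countable, `μ = mX × counting`.  For a `G`-invariant kernel `a : D → D → ℂ` with
bounded row and column sums, `opDisc a f (x, d) = ∑' d', a d d' * f (x, d')`. -/

set_option autoImplicit false

noncomputable section

open MeasureTheory ENNReal MulAction ProbabilityTheory
open scoped InnerProductSpace ComplexConjugate

namespace Fermat.Agent.LT

/-- Bounded invariant discrete kernels. -/
structure DiscHyp (G : Type*) {D : Type*} [Group G] [MulAction G D] (a : D → D → ℂ) (C : ℝ≥0∞) :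
    Prop where
  inv : ∀ (g : G) d d', a (g • d) (g • d') = a d d'
  ne_top : C ≠ ∞
  row : ∀ d, ∑' d', ‖a d d'‖ₑ ≤ C
  col : ∀ d', ∑' d, ‖a d d'‖ₑ ≤ C

section DiscAlg

variable {G D : Type*} [Group G] [MulAction G D] {a b : D → D → ℂ} {C C' : ℝ≥0∞}

/-- composition of discrete kernels -/
def dmul (a b : D → D → ℂ) (d d'' : D) : ℂ := ∑' d', a d d' * b d' d''

/-- adjoint of a discrete kernel -/
def dstar (a : D → D → ℂ) (d d' : D) : ℂ := conj (a d' d)

open Classical in
/-- the identity kernel -/
def done' (D : Type*) (d d' : D) : ℂ := if d = d' then 1 else 0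

theorem DiscHyp.star (h : DiscHyp G a C) : DiscHyp G (dstar a) C where
  inv g d d' := by unfold dstar; rw [h.inv]
  ne_top := h.ne_top
  row d := by
    refine le_trans (le_of_eq ?_) (h.col d)
    refine tsum_congr fun d' => ?_
    unfold dstar
    rw [← ofReal_norm, RCLike.norm_conj, ofReal_norm]
  col d := by
    refine le_trans (le_of_eq ?_) (h.row d)
    refine tsum_congr fun d' => ?_
    unfold dstar
    rw [← ofReal_norm, RCLike.norm_conj, ofReal_norm]

theorem DiscHyp.one : DiscHyp G (done' D) 1 where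
  inv g d d' := by
    unfold done'
    by_cases h : d = d'
    · rw [if_pos h, if_pos (by rw [h])]
    · rw [if_neg h, if_neg fun h' => h (MulAction.injective g h')]
  ne_top := ENNReal.one_ne_top
  row d := by
    classical
    unfold done'
    rw [tsum_eq_single d]
    · simp
    · intro d' hd'
      rw [if_neg (Ne.symm hd')]; simp
  col d := by
    classical
    unfold done'
    rw [tsum_eq_single d]
    · simp
    · intro d' hd'
      rw [if_neg hd']; simp

theorem enorm_tsum_le_tsum_enorm {ι : Type*} (f : ι → ℂ) : ‖∑' i, f i‖ₑ ≤ ∑' i, ‖f i‖ₑ := by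
  by_cases h : Summable fun i => ‖f i‖
  · have h1 := norm_tsum_le_tsum_norm h
    rw [← ofReal_norm]
    refine (ENNReal.ofReal_le_ofReal h1).trans ?_
    rw [ENNReal.ofReal_tsum_of_nonneg (fun _ => norm_nonneg _) h]
    simp_rw [ofReal_norm]
    exact le_rfl
  · have h2 : ¬ Summable f := fun h3 => h h3.norm
    rw [tsum_eq_zero_of_not_summable h2]
    simp

theorem summable_of_tsum_enorm {ι : Type*} {f : ι → ℂ} (h : ∑' i, ‖f i‖ₑ ≠ ∞) : Summable f := by
  have h5 : Summable fun i => ‖f i‖₊ := by
    rw [← ENNReal.tsum_coe_ne_top_iff_summable]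
    exact h
  exact (NNReal.summable_coe.mpr h5 : Summable fun i => ‖f i‖).of_norm

theorem tsum_enorm_dmul_le (h : DiscHyp G a C) (h' : DiscHyp G b C') (d : D) :
    ∑' d'', ∑' d', ‖a d d' * b d' d''‖ₑ ≤ C * C' := by
  rw [ENNReal.tsum_comm]
  calc ∑' d', ∑' d'', ‖a d d' * b d' d''‖ₑ = ∑' d', ‖a d d'‖ₑ * ∑' d'', ‖b d' d''‖ₑ := by
        refine tsum_congr fun d' => ?_
        rw [← ENNReal.tsum_mul_left]
        exact tsum_congr fun d'' => enorm_mul _ _
    _ ≤ ∑' d', ‖a d d'‖ₑ * C' := ENNReal.tsum_le_tsum fun d' => by gcongr; exact h'.row d'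
    _ = (∑' d', ‖a d d'‖ₑ) * C' := ENNReal.tsum_mul_right
    _ ≤ C * C' := by gcongr; exact h.row d

theorem tsum_enorm_dmul_le' (h : DiscHyp G a C) (h' : DiscHyp G b C') (d'' : D) :
    ∑' d, ∑' d', ‖a d d' * b d' d''‖ₑ ≤ C * C' := by
  rw [ENNReal.tsum_comm]
  calc ∑' d', ∑' d, ‖a d d' * b d' d''‖ₑ = ∑' d', (∑' d, ‖a d d'‖ₑ) * ‖b d' d''‖ₑ := by
        refine tsum_congr fun d' => ?_
        rw [← ENNReal.tsum_mul_right]
        exact tsum_congr fun d => enorm_mul _ _
    _ ≤ ∑' d', C * ‖b d' d''‖ₑ := ENNReal.tsum_le_tsum fun d' => by gcongr; exact h.col d'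
    _ = C * ∑' d', ‖b d' d''‖ₑ := ENNReal.tsum_mul_left
    _ ≤ C * C' := by gcongr; exact h'.col d''

theorem DiscHyp.summable_mul (h : DiscHyp G a C) (h' : DiscHyp G b C') (d d'' : D) :
    Summable fun d' => a d d' * b d' d'' := by
  refine summable_of_tsum_enorm ?_
  refine ne_top_of_le_ne_top (ENNReal.mul_ne_top h.ne_top h'.ne_top) ?_
  exact (ENNReal.le_tsum d'').trans (tsum_enorm_dmul_le h h' d)

theorem DiscHyp.mul (h : DiscHyp G a C) (h' : DiscHyp G b C') :
    DiscHyp G (dmul a b) (C * C') where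
  inv g d d'' := by
    unfold dmul
    rw [← (MulAction.toPerm g).tsum_eq]
    refine tsum_congr fun d' => ?_
    rw [MulAction.toPerm_apply, h.inv, h'.inv]
  ne_top := ENNReal.mul_ne_top h.ne_top h'.ne_top
  row d := (ENNReal.tsum_le_tsum fun d'' => enorm_tsum_le_tsum_enorm _).trans
    (tsum_enorm_dmul_le h h' d)
  col d'' := (ENNReal.tsum_le_tsum fun d => enorm_tsum_le_tsum_enorm _).trans
    (tsum_enorm_dmul_le' h h' d'')

/-- A row and column finite invariant kernel on a `G`-set with finitely many orbits is bounded. -/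
theorem exists_discHyp {T : Finset D} (hT : ∀ d, ∃ g : G, g • d ∈ T)
    (hinv : ∀ (g : G) d d', a (g • d) (g • d') = a d d')
    (hr : ∀ d, {d' | a d d' ≠ 0}.Finite) (hc : ∀ d', {d | a d d' ≠ 0}.Finite) :
    ∃ C, DiscHyp G a C := by
  have hrow : ∀ d, ∑' d', ‖a d d'‖ₑ ≠ ∞ := by
    intro d
    rw [tsum_eq_sum (s := (hr d).toFinset)]
    · exact ENNReal.sum_ne_top.mpr fun _ _ => enorm_ne_top
    · intro d' hd'
      have : a d d' = 0 := by
        by_contra h
        exact hd' ((hr d).mem_toFinset.mpr h)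
      rw [this, enorm_zero]
  have hcol : ∀ d', ∑' d, ‖a d d'‖ₑ ≠ ∞ := by
    intro d'
    rw [tsum_eq_sum (s := (hc d').toFinset)]
    · exact ENNReal.sum_ne_top.mpr fun _ _ => enorm_ne_top
    · intro d hd
      have : a d d' = 0 := by
        by_contra h
        exact hd ((hc d').mem_toFinset.mpr h)
      rw [this, enorm_zero]
  have hrg : ∀ (g : G) d, ∑' d', ‖a (g • d) d'‖ₑ = ∑' d', ‖a d d'‖ₑ := by
    intro g d
    rw [← (MulAction.toPerm g).tsum_eq]
    exact tsum_congr fun d' => by rw [MulAction.toPerm_apply, hinv]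
  have hcg : ∀ (g : G) d', ∑' d, ‖a d (g • d')‖ₑ = ∑' d, ‖a d d'‖ₑ := by
    intro g d'
    rw [← (MulAction.toPerm g).tsum_eq]
    exact tsum_congr fun d => by rw [MulAction.toPerm_apply, hinv]
  refine ⟨∑ d ∈ T, (∑' d', ‖a d d'‖ₑ + ∑' d', ‖a d' d‖ₑ), hinv, ?_, ?_, ?_⟩
  · exact ENNReal.sum_ne_top.mpr fun d _ => ENNReal.add_ne_top.mpr ⟨hrow d, hcol d⟩
  · intro d
    obtain ⟨g, hg⟩ := hT d
    rw [← hrg g d]
    exact le_self_add.trans (Finset.single_le_sum
      (f := fun d => ∑' d', ‖a d d'‖ₑ + ∑' d', ‖a d' d‖ₑ) (fun _ _ => bot_le) hg)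
  · intro d
    obtain ⟨g, hg⟩ := hT d
    rw [← hcg g d]
    exact le_add_self.trans (Finset.single_le_sum
      (f := fun d => ∑' d', ‖a d d'‖ₑ + ∑' d', ‖a d' d‖ₑ) (fun _ _ => bot_le) hg)

end DiscAlg

/-! ### The operators -/

section DiscOp

variable {G X D : Type*} [Group G] [MulAction G X] [MulAction G D] [MeasurableSpace X]
  [MeasurableSpace D] [MeasurableSingletonClass D] [Countable D] {mX : Measure X} [SFinite mX]

/-- The measure on `X × D`. -/
abbrev muXD (mX : Measure X) (D : Type*) [MeasurableSpace D] : Measure (X × D) :=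
  mX.prod Measure.count

variable (X D) in
/-- The resampling kernel of the discrete coordinate. -/
abbrev kapD : Kernel (X × D) (X × D) :=
  fibKer (MeasurableEquiv.prodComm : X × D ≃ᵐ D × X) (Measure.count : Measure D)

omit [MeasurableSingletonClass D] [Countable D] in
theorem rs_prodComm (z : X × D) (d : D) :
    rs (MeasurableEquiv.prodComm : X × D ≃ᵐ D × X) z d = (z.1, d) := rfl

theorem measurePreserving_smul_count' (g : G) :
    MeasurePreserving (fun d : D => g • d) Measure.count Measure.count := by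
  refine ⟨Measurable.of_discrete, ?_⟩
  ext s hs
  rw [Measure.map_apply Measurable.of_discrete hs, Measure.count_apply MeasurableSet.of_discrete,
    Measure.count_apply hs]
  exact congrArg _ (Set.encard_preimage_of_bijective (MulAction.bijective g) s)

variable [MeasurableConstSMul G (X × D)]

theorem revKer_kapD : RevKer G (muXD mX D) (kapD X D) := by
  refine revKer_fibKer _ (nu := mX) Measure.measurePreserving_swap fun g => ?_
  exact ⟨fun d => g • d, measurePreserving_smul_count' g, fun z d => rfl⟩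

variable {a b : D → D → ℂ} {C C' : ℝ≥0∞}

theorem measurable_disc (a : D → D → ℂ) :
    Measurable (Function.uncurry fun (z z' : X × D) => a z.2 z'.2) := by
  have h1 : Measurable fun p : D × D => a p.1 p.2 := Measurable.of_discrete
  exact h1.comp ((measurable_snd.comp measurable_fst).prodMk (measurable_snd.comp measurable_snd))

theorem kerHyp_disc (h : DiscHyp G a C) :
    KerHyp G (muXD mX D) (kapD X D) (fun z z' => a z.2 z'.2) C where
  rev := revKer_kapD
  meas := measurable_disc a
  inv g z z' := h.inv g z.2 z'.2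
  ne_top := h.ne_top
  row z := by
    have hm : Measurable fun z' : X × D => ‖a z.2 z'.2‖ₑ :=
      ((measurable_disc (X := X) a).comp (measurable_prodMk_left (x := z))).enorm
    rw [lintegral_fibKer _ _ hm]
    simp_rw [rs_prodComm]
    rw [lintegral_count]
    exact h.row z.2
  col z := by
    have hm : Measurable fun z' : X × D => ‖a z'.2 z.2‖ₑ :=
      ((measurable_disc (X := X) a).comp (measurable_prodMk_right (y := z))).enorm
    rw [lintegral_fibKer _ _ hm]
    simp_rw [rs_prodComm]
    rw [lintegral_count]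
    exact h.col z.2

variable {w : X × D → ℝ≥0∞} [SMulInvariantMeasure G (X × D) (muXD mX D)] [Countable G]

/-- The operator of a discrete kernel. -/
def DiscHyp.op (h : DiscHyp G a C) (hw : IsWeight G w) :
    autL2 G ((muXD mX D).withDensity w) →L[ℂ] autL2 G ((muXD mX D).withDensity w) :=
  (kerHyp_disc (mX := mX) h).opL hw

omit [MeasurableConstSMul G (X × D)] [SMulInvariantMeasure G (X × D) (muXD mX D)] [Countable G]
  [MulAction G X] in
/-- The operator on functions. -/
theorem kop_disc {F : X × D → ℂ} (hF : Measurable F) (z : X × D)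
    (hs : Summable fun d' => a z.2 d' * F (z.1, d')) :
    kop (kapD X D) (fun z z' => a z.2 z'.2) F z = ∑' d', a z.2 d' * F (z.1, d') := by
  rw [kop_fibKer _ (measurable_disc a) hF]
  simp_rw [rs_prodComm]
  have hi : Integrable (fun d' => a z.2 d' * F (z.1, d')) Measure.count := by
    rw [integrable_count_iff]
    exact hs.norm
  rw [integral_countable hi]
  refine tsum_congr fun d' => ?_
  rw [measureReal_def, Measure.count_singleton]
  simp

theorem DiscHyp.op_ae (h : DiscHyp G a C) (hw : IsWeight G w)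
    (f : autL2 G ((muXD mX D).withDensity w)) {F : X × D → ℂ} (hF : Measurable F)
    (hi : ∀ (g : G) z, F (g • z) = F z) (hfF : arep f =ᵐ[(muXD mX D).withDensity w] F)
    (hs : ∀ z : X × D, Summable fun d' => a z.2 d' * F (z.1, d')) :
    arep (h.op hw f) =ᵐ[muXD mX D] fun z => ∑' d', a z.2 d' * F (z.1, d') := by
  refine ((kerHyp_disc (mX := mX) h).opL_ae hw f hF hi hfF).trans ?_
  exact Filter.Eventually.of_forall fun z => kop_disc hF z (hs z)

/-- The adjoint. -/
theorem DiscHyp.adjoint_op (h : DiscHyp G a C) (hw : IsWeight G w) :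
    ContinuousLinearMap.adjoint (h.op (mX := mX) hw) = h.star.op hw :=
  (kerHyp_disc (mX := mX) h).adjoint_opL hw

theorem DiscHyp.inner_op (h : DiscHyp G a C) (hw : IsWeight G w)
    (f g : autL2 G ((muXD mX D).withDensity w)) :
    ⟪h.op hw f, g⟫_ℂ = ⟪f, h.star.op hw g⟫_ℂ :=
  (kerHyp_disc (mX := mX) h).inner_opL hw f g

/-- The operator depends only on the kernel. -/
theorem DiscHyp.op_congr (h : DiscHyp G a C) (h' : DiscHyp G b C') (hw : IsWeight G w)
    (hab : a = b) : h.op (mX := mX) hw = h'.op hw := by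
  subst hab
  refine ContinuousLinearMap.ext fun f => autL2_ext ?_
  exact ((kerHyp_disc (mX := mX) h).opL_apply_ae hw f).trans
    ((kerHyp_disc (mX := mX) h').opL_apply_ae hw f).symm

/-- **Products.** -/
theorem DiscHyp.op_mul (h : DiscHyp G a C) (h' : DiscHyp G b C') (hw : IsWeight G w) :
    h.op (mX := mX) hw ∘L h'.op hw = (h.mul h').op hw := by
  refine (kerHyp_disc (mX := mX) h).opL_comp_fib (kerHyp_disc (mX := mX) h')
    (kerHyp_disc (mX := mX) (h.mul h')) hw fun z d'' => ?_
  simp_rw [rs_prodComm]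
  have hi : Integrable (fun d' => a z.2 d' * b d' d'') Measure.count := by
    rw [integrable_count_iff]
    exact (h.summable_mul h' z.2 d'').norm
  rw [integral_countable hi]
  unfold dmul
  refine tsum_congr fun d' => ?_
  rw [measureReal_def, Measure.count_singleton]
  simp

theorem DiscHyp.op_one (hw : IsWeight G w) :
    (DiscHyp.one (G := G) (D := D)).op (mX := mX) hw = ContinuousLinearMap.id ℂ _ := by
  refine ContinuousLinearMap.ext fun f => autL2_ext ?_
  rw [ContinuousLinearMap.id_apply]
  refine ((kerHyp_disc (mX := mX) DiscHyp.one).opL_apply_ae hw f).trans ?_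
  refine Filter.Eventually.of_forall fun z => ?_
  classical
  have hsingle : ∀ d' ≠ z.2, done' D z.2 d' * arep f (z.1, d') = 0 := by
    intro d' hd'
    unfold done'
    rw [if_neg (Ne.symm hd'), zero_mul]
  rw [kop_disc (measurable_arep f) z, tsum_eq_single z.2 hsingle]
  · unfold done'
    simp
  · exact summable_of_ne_finset_zero (s := {z.2}) fun d' hd' =>
      hsingle d' (by simpa using hd')

end DiscOp

/-! ### Full kernels `k ⊗ b` -/

section Full

variable {G X D : Type*} [Group G] [MulAction G X] [MulAction G D] [MeasurableSpace X]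
  [MeasurableSpace D] [MeasurableSingletonClass D] [Countable D] {mX : Measure X} [SFinite mX]

/-- Bounded invariant function kernels on `X`. -/
structure FullHyp (G : Type*) {X : Type*} [Group G] [MulAction G X] [MeasurableSpace X]
    (mX : Measure X) (k : X → X → ℂ) (C : ℝ≥0∞) : Prop where
  meas : Measurable (Function.uncurry k)
  inv : ∀ (g : G) x x', k (g • x) (g • x') = k x x'
  ne_top : C ≠ ∞
  row : ∀ x, ∫⁻ x', ‖k x x'‖ₑ ∂mX ≤ C
  col : ∀ x, ∫⁻ x', ‖k x' x‖ₑ ∂mX ≤ C

/-- The full kernel `k ⊗ b` on `X × D`. -/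
def tens (k : X → X → ℂ) (b : D → D → ℂ) (z z' : X × D) : ℂ := k z.1 z'.1 * b z.2 z'.2

variable {k : X → X → ℂ} {a b : D → D → ℂ} {C C' C'' : ℝ≥0∞}

theorem FullHyp.star (h : FullHyp G mX k C) : FullHyp G mX (fun x x' => conj (k x' x)) C where
  meas := Complex.continuous_conj.measurable.comp (h.meas.comp measurable_swap)
  inv g x x' := by rw [h.inv]
  ne_top := h.ne_top
  row x := by
    refine le_trans (le_of_eq ?_) (h.col x)
    refine lintegral_congr fun z' => ?_
    rw [← ofReal_norm, RCLike.norm_conj, ofReal_norm]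
  col x := by
    refine le_trans (le_of_eq ?_) (h.row x)
    refine lintegral_congr fun z' => ?_
    rw [← ofReal_norm, RCLike.norm_conj, ofReal_norm]

theorem measurable_tens (hk : Measurable (Function.uncurry k)) (b : D → D → ℂ) :
    Measurable (Function.uncurry (tens k b)) :=
  (hk.comp ((measurable_fst.comp measurable_fst).prodMk (measurable_fst.comp measurable_snd))).mul
    (measurable_disc b)

variable [MeasurableConstSMul G (X × D)] [SMulInvariantMeasure G (X × D) (muXD mX D)]

theorem kerHyp_full (hk : FullHyp G mX k C) (hb : DiscHyp G b C') :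
    KerHyp G (muXD mX D) (Kernel.const (X × D) (muXD mX D)) (tens k b) (C * C') where
  rev := revKer_const
  meas := measurable_tens hk.meas b
  inv g z z' := by
    unfold tens
    rw [Prod.smul_fst, Prod.smul_fst, Prod.smul_snd, Prod.smul_snd, hk.inv, hb.inv]
  ne_top := ENNReal.mul_ne_top hk.ne_top hb.ne_top
  row z := by
    have hm : Measurable fun z' : X × D => ‖tens k b z z'‖ₑ :=
      ((measurable_tens hk.meas b).comp measurable_prodMk_left).enorm
    rw [Kernel.const_apply, muXD, lintegral_prod _ hm.aemeasurable]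
    have h1 : ∀ x', ∫⁻ d', ‖tens k b z (x', d')‖ₑ ∂Measure.count ≤ ‖k z.1 x'‖ₑ * C' := by
      intro x'
      rw [lintegral_count]
      unfold tens
      simp_rw [enorm_mul]
      rw [ENNReal.tsum_mul_left]
      gcongr
      exact hb.row z.2
    refine (lintegral_mono h1).trans ?_
    have hm2 : Measurable fun x' => ‖k z.1 x'‖ₑ := (hk.meas.comp measurable_prodMk_left).enorm
    rw [lintegral_mul_const _ hm2]
    gcongr
    exact hk.row z.1
  col z := by
    have hm : Measurable fun z' : X × D => ‖tens k b z' z‖ₑ :=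
      ((measurable_tens hk.meas b).comp measurable_prodMk_right).enorm
    rw [Kernel.const_apply, muXD, lintegral_prod _ hm.aemeasurable]
    have h1 : ∀ x', ∫⁻ d', ‖tens k b (x', d') z‖ₑ ∂Measure.count ≤ ‖k x' z.1‖ₑ * C' := by
      intro x'
      rw [lintegral_count]
      unfold tens
      simp_rw [enorm_mul]
      rw [ENNReal.tsum_mul_left]
      gcongr
      exact hb.col z.2
    refine (lintegral_mono h1).trans ?_
    have hm2 : Measurable fun x' => ‖k x' z.1‖ₑ := (hk.meas.comp measurable_prodMk_right).enorm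
    rw [lintegral_mul_const _ hm2]
    gcongr
    exact hk.col z.1

variable {w : X × D → ℝ≥0∞} [Countable G]

/-- The operator `R(k ⊗ b)`. -/
def FullHyp.op (hk : FullHyp G mX k C) (hb : DiscHyp G b C') (hw : IsWeight G w) :
    autL2 G ((muXD mX D).withDensity w) →L[ℂ] autL2 G ((muXD mX D).withDensity w) :=
  (kerHyp_full hk hb).opL hw

theorem FullHyp.adjoint_op (hk : FullHyp G mX k C) (hb : DiscHyp G b C') (hw : IsWeight G w) :
    ContinuousLinearMap.adjoint (hk.op hb hw) = hk.star.op hb.star hw := by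
  unfold FullHyp.op
  rw [(kerHyp_full hk hb).adjoint_opL hw]
  refine ContinuousLinearMap.ext fun f => autL2_ext ?_
  refine ((kerHyp_full hk hb).adj.opL_apply_ae hw f).trans
    (Filter.EventuallyEq.trans ?_ ((kerHyp_full hk.star hb.star).opL_apply_ae hw f).symm)
  refine Filter.Eventually.of_forall fun z => ?_
  unfold kop tens dstar
  simp only [map_mul]

/-- discrete times full -/
theorem DiscHyp.op_comp_full (ha : DiscHyp G a C'') (hk : FullHyp G mX k C) (hb : DiscHyp G b C')
    (hw : IsWeight G w) :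
    ha.op hw ∘L hk.op hb hw = hk.op (ha.mul hb) hw := by
  refine (kerHyp_disc (mX := mX) ha).opL_comp_const (kerHyp_full hk hb)
    (kerHyp_full hk (ha.mul hb)) hw fun z z'' => ?_
  have hm : Measurable fun z' : X × D => a z.2 z'.2 * tens k b z' z'' :=
    ((measurable_disc (X := X) a).comp (measurable_prodMk_left (x := z))).mul
      ((measurable_tens hk.meas b).comp measurable_prodMk_right)
  rw [integral_fibKer _ _ hm]
  simp_rw [rs_prodComm]
  unfold tens dmul
  have hs := ha.summable_mul hb z.2 z''.2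
  have hs' : Summable fun d' => a z.2 d' * (k z.1 z''.1 * b d' z''.2) := by
    refine (hs.mul_left (k z.1 z''.1)).congr fun d' => ?_
    ring
  have hi : Integrable (fun d' => a z.2 d' * (k z.1 z''.1 * b d' z''.2)) Measure.count := by
    rw [integrable_count_iff]
    exact hs'.norm
  rw [integral_countable hi, ← tsum_mul_left]
  refine tsum_congr fun d' => ?_
  rw [measureReal_def, Measure.count_singleton]
  simp
  ring

theorem FullHyp.op_congr {k' : X → X → ℂ} {C₁ C₁' : ℝ≥0∞} (hk : FullHyp G mX k C)
    (hb : DiscHyp G b C') (hk' : FullHyp G mX k' C₁) (ha : DiscHyp G a C₁')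
    (hw : IsWeight G w) (h1 : k = k') (h2 : b = a) : hk.op hb hw = hk'.op ha hw := by
  subst h1
  subst h2
  refine ContinuousLinearMap.ext fun f => autL2_ext ?_
  exact ((kerHyp_full hk hb).opL_apply_ae hw f).trans
    ((kerHyp_full hk' ha).opL_apply_ae hw f).symm

theorem dstar_dmul (a b : D → D → ℂ) : dstar (dmul a b) = dmul (dstar b) (dstar a) := by
  funext d d''
  unfold dstar dmul
  rw [Complex.conj_tsum]
  refine tsum_congr fun d' => ?_
  rw [map_mul, mul_comm]

theorem dstar_dstar (a : D → D → ℂ) : dstar (dstar a) = a := by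
  funext d d'
  unfold dstar
  rw [Complex.conj_conj]

/-- full times discrete -/
theorem FullHyp.op_comp_disc (hk : FullHyp G mX k C) (hb : DiscHyp G b C')
    (ha : DiscHyp G a C'') (hw : IsWeight G w) :
    hk.op hb hw ∘L ha.op hw = hk.op (hb.mul ha) hw := by
  have h1 := ha.star.op_comp_full hk.star hb.star hw
  have h2 := congrArg ContinuousLinearMap.adjoint h1
  rw [ContinuousLinearMap.adjoint_comp, FullHyp.adjoint_op, FullHyp.adjoint_op,
    DiscHyp.adjoint_op] at h2
  rw [← FullHyp.op_congr hk.star.star hb.star.star hk hb hw (by funext x x'; simp)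
      (dstar_dstar b), ← DiscHyp.op_congr ha.star.star ha hw (dstar_dstar a), h2]
  refine FullHyp.op_congr _ _ _ _ hw (by funext x x'; simp) ?_
  rw [dstar_dmul, dstar_dstar, dstar_dstar]

end Full

end Fermat.Agent.LT
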