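import Mathlib
import Fermat.Agent.LT.Auto.Disc
import Fermat.Agent.LT.HK.Basic

/-! # The operator of a symbol

A symbol is an element of `WithOne 𝒦 × HK G D`, where `𝒦` is a semigroup of full kernels on `X`.
`symOp` is the operator on `L²(G \ (X × D))`. -/

set_option autoImplicit false
set_option linter.unusedSectionVars false

noncomputable section

open MeasureTheory ENNReal MulAction ProbabilityTheory
open scoped InnerProductSpace ComplexConjugate

namespace Fermat.Agent.LT

/-! ### Discrete kernels -/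

section Alg

variable {G D : Type*} [Group G] [MulAction G D]

theorem HK.exists_discHyp (hT : ∃ T : Finset D, ∀ d, ∃ g : G, g • d ∈ T) (a : HK G D) :
    ∃ C, DiscHyp G a.ker C := by
  obtain ⟨T, hT⟩ := hT
  exact Fermat.Agent.LT.exists_discHyp hT a.ker_smul_smul a.finite_row a.finite_col

theorem HK.ker_mul_dmul (a b : HK G D) : (a * b).ker = dmul a.ker b.ker := by
  funext d d''
  rw [HK.ker_mul_tsum]
  rfl

theorem HK.ker_one_done : (1 : HK G D).ker = done' D := by
  classical
  funext d d'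
  rw [HK.ker_one]
  unfold done'
  by_cases h : d = d'
  · rw [if_pos h]
  · rw [if_neg h]

theorem HK.ker_star_dstar (a : HK G D) : (star a).ker = dstar a.ker := by
  funext d d'
  rw [HK.ker_star]
  rfl

theorem HK.summable_row (a : HK G D) (d : D) (F : D → ℂ) :
    Summable fun d' => a.ker d d' * F d' :=
  summable_of_hasFiniteSupport ((a.finite_row d).subset fun d' h h1 => h (by
    simp only [h1, zero_mul]))

end Alg

section OpD

variable {G X D : Type*} [Group G] [MulAction G X] [MulAction G D] [MeasurableSpace X]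
  [MeasurableSpace D] [MeasurableSingletonClass D] [Countable D] {mX : Measure X} [SFinite mX]
  [MeasurableConstSMul G (X × D)] [SMulInvariantMeasure G (X × D) (muXD mX D)] [Countable G]
  {w : X × D → ℝ≥0∞}

/-- The operator of a Hecke kernel. -/
def opD (hT : ∃ T : Finset D, ∀ d, ∃ g : G, g • d ∈ T) (hw : IsWeight G w) (a : HK G D) :
    autL2 G ((muXD mX D).withDensity w) →L[ℂ] autL2 G ((muXD mX D).withDensity w) :=
  (HK.exists_discHyp hT a).choose_spec.op hw

variable (hT : ∃ T : Finset D, ∀ d, ∃ g : G, g • d ∈ T) (hw : IsWeight G w)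

theorem opD_eq {a : HK G D} {b : D → D → ℂ} {C : ℝ≥0∞} (hb : DiscHyp G b C) (h : a.ker = b) :
    opD (mX := mX) hT hw a = hb.op hw :=
  DiscHyp.op_congr _ _ hw h

/-- The operator may be computed from any invariant representative. -/
theorem opD_ae (a : HK G D) (f : autL2 G ((muXD mX D).withDensity w)) {F : X × D → ℂ}
    (hF : Measurable F) (hi : ∀ (g : G) z, F (g • z) = F z)
    (hfF : arep f =ᵐ[(muXD mX D).withDensity w] F) :
    arep (opD hT hw a f) =ᵐ[muXD mX D] fun z => ∑' d', a.ker z.2 d' * F (z.1, d') :=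
  (HK.exists_discHyp hT a).choose_spec.op_ae hw f hF hi hfF fun z => a.summable_row z.2 _

theorem opD_ae' (a : HK G D) (f : autL2 G ((muXD mX D).withDensity w)) :
    arep (opD hT hw a f) =ᵐ[(muXD mX D).withDensity w]
      fun z => ∑' d', a.ker z.2 d' * arep f (z.1, d') :=
  (withDensity_ac (muXD mX D) w).ae_eq
    (opD_ae hT hw a f (measurable_arep f) (arep_smul f) Filter.EventuallyEq.rfl)

theorem opD_mul (a b : HK G D) :
    opD (mX := mX) hT hw (a * b) = opD hT hw a * opD hT hw b := by
  rw [opD_eq hT hw ((HK.exists_discHyp hT a).choose_spec.mul (HK.exists_discHyp hT b).choose_spec)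
    (HK.ker_mul_dmul a b)]
  exact (DiscHyp.op_mul _ _ hw).symm

theorem opD_one : opD (mX := mX) hT hw (1 : HK G D) = 1 := by
  rw [opD_eq hT hw DiscHyp.one HK.ker_one_done]
  exact DiscHyp.op_one hw

theorem opD_add (a b : HK G D) :
    opD (mX := mX) hT hw (a + b) = opD hT hw a + opD hT hw b := by
  refine ContinuousLinearMap.ext fun f => autL2_ext ?_
  rw [add_apply]
  filter_upwards [opD_ae' hT hw (a + b) f, opD_ae' hT hw a f, opD_ae' hT hw b f,
    arep_add (opD hT hw a f) (opD hT hw b f)] with z h1 h2 h3 h4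
  rw [h1, h4, Pi.add_apply, h2, h3, ← (a.summable_row z.2 _).tsum_add (b.summable_row z.2 _)]
  exact tsum_congr fun d' => by rw [HK.ker_add, add_mul]

theorem opD_smul (c : ℂ) (a : HK G D) :
    opD (mX := mX) hT hw (c • a) = c • opD (mX := mX) hT hw a := by
  refine ContinuousLinearMap.ext fun f => autL2_ext ?_
  rw [smul_apply]
  filter_upwards [opD_ae' hT hw (c • a) f, opD_ae' hT hw a f,
    arep_csmul c (opD hT hw a f)] with z h1 h2 h3
  rw [h1, h3, Pi.smul_apply, h2, smul_eq_mul, ← tsum_mul_left]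
  exact tsum_congr fun d' => by rw [HK.ker_smul, mul_assoc]

theorem opD_star (a : HK G D) :
    opD (mX := mX) hT hw (star a) = ContinuousLinearMap.adjoint (opD hT hw a) := by
  rw [opD_eq hT hw (HK.exists_discHyp hT a).choose_spec.star (HK.ker_star_dstar a)]
  exact (DiscHyp.adjoint_op _ hw).symm

/-- The representation of the Hecke algebra. -/
def opHK : HK G D →⋆ₐ[ℂ]
    (autL2 G ((muXD mX D).withDensity w) →L[ℂ] autL2 G ((muXD mX D).withDensity w)) :=
  { AlgHom.ofLinearMap
      { toFun := opD (mX := mX) hT hw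
        map_add' := opD_add (mX := mX) hT hw
        map_smul' := opD_smul (mX := mX) hT hw } (opD_one hT hw) (opD_mul hT hw) with
    map_star' := opD_star (mX := mX) hT hw }

@[simp] theorem opHK_apply (a : HK G D) : opHK (mX := mX) hT hw a = opD hT hw a := rfl

end OpD

/-! ### Full kernels -/

section Sym

variable {G X D : Type*} [Group G] [MulAction G X] [MulAction G D] [MeasurableSpace X]
  [MeasurableSpace D] [MeasurableSingletonClass D] [Countable D] {mX : Measure X} [SFinite mX]

/-- A semigroup of full kernels on `X`. -/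
structure KerSg (G : Type*) {X : Type*} [Group G] [MulAction G X] [MeasurableSpace X]
    (mX : Measure X) (𝒦 : Type*) [Mul 𝒦] where
  kap : 𝒦 → X → X → ℂ
  hyp : ∀ k, ∃ C, FullHyp G mX (kap k) C
  mul : ∀ k l x x'', ∫ x', kap k x x' * kap l x' x'' ∂mX = kap (k * l) x x''

variable {𝒦 : Type*} [Mul 𝒦] (κ : KerSg G mX 𝒦) {w : X × D → ℝ≥0∞}

section

variable [MeasurableConstSMul G (X × D)] [SMulInvariantMeasure G (X × D) (muXD mX D)] [Countable G]

/-- The operator of the full kernel `κ k ⊗ a`. -/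
def opF (hT : ∃ T : Finset D, ∀ d, ∃ g : G, g • d ∈ T) (hw : IsWeight G w) (k : 𝒦)
    (a : HK G D) :
    autL2 G ((muXD mX D).withDensity w) →L[ℂ] autL2 G ((muXD mX D).withDensity w) :=
  (κ.hyp k).choose_spec.op (HK.exists_discHyp hT a).choose_spec hw

variable (hT : ∃ T : Finset D, ∀ d, ∃ g : G, g • d ∈ T) (hw : IsWeight G w)

/-- The kernel of the symbol `(k, a)`. -/
def sker (k : 𝒦) (a : HK G D) (z z' : X × D) : ℂ := κ.kap k z.1 z'.1 * a.ker z.2 z'.2

omit [MeasurableSpace D] [MeasurableSingletonClass D] [Countable D] [SFinite mX] in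
theorem tens_eq_sker (k : 𝒦) (a : HK G D) : tens (κ.kap k) a.ker = sker κ k a := rfl

omit [MeasurableConstSMul G (X × D)] [SMulInvariantMeasure G (X × D) (muXD mX D)] [Countable G] in
/-- The kernel of a symbol satisfies the hypotheses. -/
theorem kerHyp_sker [MeasurableConstSMul G (X × D)]
    [SMulInvariantMeasure G (X × D) (muXD mX D)] (hT : ∃ T : Finset D, ∀ d, ∃ g : G, g • d ∈ T)
    (k : 𝒦) (a : HK G D) :
    ∃ C, KerHyp G (muXD mX D) (Kernel.const (X × D) (muXD mX D)) (sker κ k a) C :=
  ⟨_, kerHyp_full (κ.hyp k).choose_spec (HK.exists_discHyp hT a).choose_spec⟩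

theorem opF_eq {k : 𝒦} {a : HK G D} {k' : X → X → ℂ} {b : D → D → ℂ} {C C' : ℝ≥0∞}
    (hk : FullHyp G mX k' C) (hb : DiscHyp G b C') (h1 : κ.kap k = k') (h2 : a.ker = b) :
    opF κ hT hw k a = hk.op hb hw :=
  FullHyp.op_congr _ _ _ _ hw h1 h2

/-- The operator is the operator of the kernel. -/
theorem opF_eq_opL {k : 𝒦} {a : HK G D} {C : ℝ≥0∞}
    (h : KerHyp G (muXD mX D) (Kernel.const (X × D) (muXD mX D)) (sker κ k a) C) :
    opF κ hT hw k a = h.opL hw := by
  refine ContinuousLinearMap.ext fun f => autL2_ext ?_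
  exact ((kerHyp_full (κ.hyp k).choose_spec
    (HK.exists_discHyp hT a).choose_spec).opL_apply_ae hw f).trans (h.opL_apply_ae hw f).symm

theorem opF_ae (k : 𝒦) (a : HK G D) (f : autL2 G ((muXD mX D).withDensity w)) {F : X × D → ℂ}
    (hF : Measurable F) (hi : ∀ (g : G) z, F (g • z) = F z)
    (hfF : arep f =ᵐ[(muXD mX D).withDensity w] F) :
    arep (opF κ hT hw k a f) =ᵐ[muXD mX D] fun z => ∫ z', sker κ k a z z' * F z' ∂muXD mX D := by
  refine ((kerHyp_full (κ.hyp k).choose_spec
    (HK.exists_discHyp hT a).choose_spec).opL_ae hw f hF hi hfF).trans ?_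
  exact Filter.Eventually.of_forall fun z => by unfold kop; rw [Kernel.const_apply]; rfl

omit [MeasurableConstSMul G (X × D)] [SMulInvariantMeasure G (X × D) (muXD mX D)] [Countable G]
  in
/-- with the trivial Hecke kernel. -/
theorem integral_sker_one (k : 𝒦) (F : X × D → ℂ) (z : X × D) :
    ∫ z', sker κ k (1 : HK G D) z z' * F z' ∂muXD mX D =
      ∫ x', κ.kap k z.1 x' * F (x', z.2) ∂mX := by
  classical
  have h1 : ∀ z' : X × D, sker κ k (1 : HK G D) z z' * F z' =
      (κ.kap k z.1 z'.1 * F (z'.1, z.2)) * (if z.2 = z'.2 then (1 : ℂ) else 0) := by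
    rintro ⟨x', d'⟩
    unfold sker
    rw [HK.ker_one]
    dsimp only
    by_cases h : z.2 = d'
    · rw [if_pos h, ← h]; ring
    · rw [if_neg h]; ring
  simp_rw [h1]
  rw [muXD, integral_prod_mul (f := fun x' => κ.kap k z.1 x' * F (x', z.2))
    (g := fun d' => if z.2 = d' then (1 : ℂ) else 0)]
  have h2 : ∫ d' : D, (if z.2 = d' then (1 : ℂ) else 0) ∂Measure.count = 1 := by
    have h3 : (fun d' : D => if z.2 = d' then (1 : ℂ) else 0) =
        Set.indicator {z.2} fun _ => (1 : ℂ) := by
      funext d'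
      by_cases h : z.2 = d'
      · rw [if_pos h, Set.indicator_of_mem (by simp [h])]
      · rw [if_neg h, Set.indicator_of_notMem (by simpa using Ne.symm h)]
    rw [h3, integral_indicator_const _ (measurableSet_singleton _), measureReal_def,
      Measure.count_singleton]
    simp
  rw [h2, mul_one]

theorem opF_one_ae (k : 𝒦) (f : autL2 G ((muXD mX D).withDensity w)) {F : X × D → ℂ}
    (hF : Measurable F) (hi : ∀ (g : G) z, F (g • z) = F z)
    (hfF : arep f =ᵐ[(muXD mX D).withDensity w] F) :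
    arep (opF κ hT hw k (1 : HK G D) f) =ᵐ[muXD mX D]
      fun z => ∫ x', κ.kap k z.1 x' * F (x', z.2) ∂mX := by
  refine (opF_ae κ hT hw k 1 f hF hi hfF).trans ?_
  exact Filter.Eventually.of_forall fun z => integral_sker_one κ k F z

/-- discrete times full -/
theorem opD_mul_opF (a b : HK G D) (k : 𝒦) :
    opD hT hw a * opF κ hT hw k b = opF κ hT hw k (a * b) := by
  rw [opF_eq κ hT hw (κ.hyp k).choose_spec
    ((HK.exists_discHyp hT a).choose_spec.mul (HK.exists_discHyp hT b).choose_spec) rfl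
    (HK.ker_mul_dmul a b)]
  exact DiscHyp.op_comp_full _ _ _ hw

/-- full times discrete -/
theorem opF_mul_opD (a b : HK G D) (k : 𝒦) :
    opF κ hT hw k a * opD hT hw b = opF κ hT hw k (a * b) := by
  rw [opF_eq κ hT hw (κ.hyp k).choose_spec
    ((HK.exists_discHyp hT a).choose_spec.mul (HK.exists_discHyp hT b).choose_spec) rfl
    (HK.ker_mul_dmul a b)]
  exact FullHyp.op_comp_disc _ _ _ hw

omit [MeasurableConstSMul G (X × D)] [SMulInvariantMeasure G (X × D) (muXD mX D)] [Countable G]
  in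
/-- The composition of the kernels. -/
theorem sker_mul (k l : 𝒦) (a b : HK G D) (z z'' : X × D) :
    ∫ z', sker κ k a z z' * sker κ l b z' z'' ∂muXD mX D = sker κ (k * l) (a * b) z z'' := by
  have h1 : ∀ z' : X × D, sker κ k a z z' * sker κ l b z' z'' =
      (κ.kap k z.1 z'.1 * κ.kap l z'.1 z''.1) * (a.ker z.2 z'.2 * b.ker z'.2 z''.2) := by
    intro z'
    unfold sker
    ring
  simp_rw [h1]
  rw [muXD, integral_prod_mul (f := fun x' => κ.kap k z.1 x' * κ.kap l x' z''.1)
    (g := fun d' => a.ker z.2 d' * b.ker d' z''.2), κ.mul]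
  unfold sker
  congr 1
  have hs : Summable fun d' => a.ker z.2 d' * b.ker d' z''.2 := a.summable_row z.2 _
  have hi : Integrable (fun d' => a.ker z.2 d' * b.ker d' z''.2) Measure.count := by
    rw [integrable_count_iff]
    exact hs.norm
  rw [integral_countable hi, HK.ker_mul_tsum]
  refine tsum_congr fun d' => ?_
  rw [measureReal_def, Measure.count_singleton]
  simp

/-- full times full -/
theorem opF_mul_opF (a b : HK G D) (k l : 𝒦) :
    opF κ hT hw k a * opF κ hT hw l b = opF κ hT hw (k * l) (a * b) := by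
  obtain ⟨C₁, h₁⟩ := kerHyp_sker κ hT k a
  obtain ⟨C₂, h₂⟩ := kerHyp_sker κ hT l b
  obtain ⟨C₃, h₃⟩ := kerHyp_sker κ hT (k * l) (a * b)
  rw [opF_eq_opL κ hT hw h₁, opF_eq_opL κ hT hw h₂, opF_eq_opL κ hT hw h₃]
  refine h₁.opL_comp_const h₂ h₃ hw fun z z'' => ?_
  simp_rw [Kernel.const_apply]
  exact (sker_mul κ k l a b z z'').symm

theorem opF_eq_opD_mul (k : 𝒦) (a : HK G D) :
    opF κ hT hw k a = opD hT hw a * opF κ hT hw k 1 := by
  rw [opD_mul_opF, mul_one]

theorem opF_eq_mul_opD (k : 𝒦) (a : HK G D) :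
    opF κ hT hw k a = opF κ hT hw k 1 * opD hT hw a := by
  rw [opF_mul_opD, one_mul]

theorem opF_add (k : 𝒦) (a b : HK G D) :
    opF κ hT hw k (a + b) = opF κ hT hw k a + opF κ hT hw k b := by
  rw [opF_eq_opD_mul, opD_add, add_mul, ← opF_eq_opD_mul, ← opF_eq_opD_mul]

theorem opF_smul (k : 𝒦) (c : ℂ) (a : HK G D) :
    opF κ hT hw k (c • a) = c • opF κ hT hw k a := by
  rw [opF_eq_opD_mul, opD_smul, opF_eq_opD_mul κ hT hw k a]
  exact ContinuousLinearMap.smul_comp _ _ _

theorem opF_star {k k' : 𝒦} (a : HK G D) (hk : ∀ x x', κ.kap k' x x' = conj (κ.kap k x' x)) :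
    opF κ hT hw k' (star a) = ContinuousLinearMap.adjoint (opF κ hT hw k a) := by
  rw [opF_eq κ hT hw (κ.hyp k).choose_spec.star (HK.exists_discHyp hT a).choose_spec.star
    (by funext x x'; exact hk x x') (HK.ker_star_dstar a)]
  exact (FullHyp.adjoint_op _ _ hw).symm

/-! ### Symbols -/

variable (𝒦 G D) in
/-- Symbols. -/
abbrev Symb : Type _ := WithOne 𝒦 × HK G D

/-- The operator of a symbol. -/
def symFun (s : Symb G D 𝒦) :
    autL2 G ((muXD mX D).withDensity w) →L[ℂ] autL2 G ((muXD mX D).withDensity w) :=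
  Option.elim s.1 (opD hT hw s.2) fun k => opF κ hT hw k s.2

theorem symFun_one (a : HK G D) : symFun κ hT hw (1, a) = opD hT hw a := rfl

theorem symFun_coe (k : 𝒦) (a : HK G D) : symFun κ hT hw ((k : WithOne 𝒦), a) =
    opF κ hT hw k a := rfl

end

end Sym

section Hom

variable {G X D : Type*} [Group G] [MulAction G X] [MulAction G D] [MeasurableSpace X]
  [MeasurableSpace D] [MeasurableSingletonClass D] [Countable D] {mX : Measure X} [SFinite mX]
  {𝒦 : Type*} [Semigroup 𝒦] (κ : KerSg G mX 𝒦) {w : X × D → ℝ≥0∞}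
  [MeasurableConstSMul G (X × D)] [SMulInvariantMeasure G (X × D) (muXD mX D)] [Countable G]
  (hT : ∃ T : Finset D, ∀ d, ∃ g : G, g • d ∈ T) (hw : IsWeight G w)

/-- **The operator of a symbol**, as a homomorphism of monoids. -/
def symOp : Symb G D 𝒦 →*
    (autL2 G ((muXD mX D).withDensity w) →L[ℂ] autL2 G ((muXD mX D).withDensity w)) where
  toFun := symFun κ hT hw
  map_one' := opD_one hT hw
  map_mul' := by
    rintro ⟨x, a⟩ ⟨y, b⟩
    induction x using WithOne.recOneCoe with
    | one =>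
      induction y using WithOne.recOneCoe with
      | one =>
        rw [Prod.mk_mul_mk, one_mul]
        exact opD_mul hT hw a b
      | coe l =>
        rw [Prod.mk_mul_mk, one_mul]
        exact (opD_mul_opF κ hT hw a b l).symm
    | coe k =>
      induction y using WithOne.recOneCoe with
      | one =>
        rw [Prod.mk_mul_mk, mul_one]
        exact (opF_mul_opD κ hT hw a b k).symm
      | coe l =>
        rw [Prod.mk_mul_mk, ← WithOne.coe_mul]
        exact (opF_mul_opF κ hT hw a b k l).symm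

theorem symOp_one_left (a : HK G D) : symOp κ hT hw (1, a) = opD hT hw a := rfl

theorem symOp_coe (k : 𝒦) (a : HK G D) : symOp κ hT hw ((k : WithOne 𝒦), a) =
    opF κ hT hw k a := rfl

theorem symOp_add (x : WithOne 𝒦) (a b : HK G D) :
    symOp κ hT hw (x, a + b) = symOp κ hT hw (x, a) + symOp κ hT hw (x, b) := by
  induction x using WithOne.recOneCoe with
  | one => exact opD_add hT hw a b
  | coe k => exact opF_add κ hT hw k a b

theorem symOp_smul (x : WithOne 𝒦) (c : ℂ) (a : HK G D) :
    symOp κ hT hw (x, c • a) = c • symOp κ hT hw (x, a) := by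
  induction x using WithOne.recOneCoe with
  | one => exact opD_smul hT hw c a
  | coe k => exact opF_smul κ hT hw k c a

/-- The adjoint symbol, for a semigroup with an involution. -/
def sstar [Star 𝒦] (s : Symb G D 𝒦) : Symb G D 𝒦 := (Option.map star s.1, star s.2)

theorem sstar_one [Star 𝒦] (a : HK G D) : sstar ((1, a) : Symb G D 𝒦) = (1, star a) := rfl

theorem sstar_coe [Star 𝒦] (k : 𝒦) (a : HK G D) :
    sstar (((k : WithOne 𝒦), a) : Symb G D 𝒦) = (((star k : 𝒦) : WithOne 𝒦), star a) := rfl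

theorem adjoint_symOp [Star 𝒦]
    (hstar : ∀ k x x', κ.kap (star k) x x' = conj (κ.kap k x' x)) (s : Symb G D 𝒦) :
    ContinuousLinearMap.adjoint (symOp κ hT hw s) = symOp κ hT hw (sstar s) := by
  obtain ⟨x, a⟩ := s
  induction x using WithOne.recOneCoe with
  | one => exact (opD_star hT hw a).symm
  | coe k => exact (opF_star κ hT hw a (hstar k)).symm

theorem isSymmetric_symOp [Star 𝒦]
    (hstar : ∀ k x x', κ.kap (star k) x x' = conj (κ.kap k x' x)) {s : Symb G D 𝒦}
    (hs : sstar s = s) : (symOp κ hT hw s).IsSymmetric := by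
  intro f g
  change ⟪symOp κ hT hw s f, g⟫_ℂ = ⟪f, symOp κ hT hw s g⟫_ℂ
  conv_rhs => rw [← hs, ← adjoint_symOp κ hT hw hstar]
  rw [ContinuousLinearMap.adjoint_inner_right]

end Hom

end Fermat.Agent.LT
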