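import Mathlib
import Fermat.Agent.LT.Auto.Sym
import Fermat.Agent.LT.Auto.Rep
import Fermat.Agent.LT.Spec.Trace

/-! # Diagonalisation of the operators of symbols

`𝒞 ≤ L²(G \ (X × D))` a closed subspace stable under all the symbols such that every product of
`m` full kernels is a Hilbert-Schmidt operator on `𝒞`.  On `V = mainPart` every commuting family
of self-adjoint symbols which contains all the self-adjoint full kernels `(k, 1)` is
diagonalisable with finite dimensional joint eigenspaces. -/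

set_option autoImplicit false
set_option linter.unusedSectionVars false

noncomputable section

open MeasureTheory ENNReal MulAction ProbabilityTheory
open scoped InnerProductSpace ComplexConjugate

namespace Fermat.Agent.LT

theorem adjoint_sum_smul {H : Type*} [NormedAddCommGroup H] [InnerProductSpace ℂ H]
    [CompleteSpace H] {ι : Type*} (t : Finset ι) (c : ι → ℂ) (T : ι → H →L[ℂ] H) :
    ContinuousLinearMap.adjoint (∑ i ∈ t, c i • T i) =
      ∑ i ∈ t, conj (c i) • ContinuousLinearMap.adjoint (T i) := by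
  rw [map_sum]
  exact Finset.sum_congr rfl fun i _ => by rw [map_smulₛₗ]

theorem sum_smul_apply' {H : Type*} [NormedAddCommGroup H] [InnerProductSpace ℂ H]
    {ι : Type*} (t : Finset ι) (c : ι → ℂ) (T : ι → H →L[ℂ] H) (v : H) :
    (∑ i ∈ t, c i • T i) v = ∑ i ∈ t, c i • T i v := by
  rw [sum_apply]
  rfl

/-! ### Powers in a semigroup -/

section Pow

variable {𝒦 : Type*} [Semigroup 𝒦]

/-- `spow k n = k ^ (n + 1)`. -/
def spow (k : 𝒦) : ℕ → 𝒦
  | 0 => k
  | n + 1 => spow k n * k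

theorem coe_spow (k : 𝒦) (n : ℕ) : ((spow k n : 𝒦) : WithOne 𝒦) = (k : WithOne 𝒦) ^ (n + 1) := by
  induction n with
  | zero => rw [zero_add, pow_one]; rfl
  | succ n ih =>
    rw [pow_succ, ← ih, ← WithOne.coe_mul]
    rfl

theorem mul_spow (k : 𝒦) (n : ℕ) : k * spow k n = spow k n * k := by
  apply WithOne.coe_injective
  rw [WithOne.coe_mul, WithOne.coe_mul, coe_spow, ← pow_succ, ← pow_succ']

theorem star_spow [StarMul 𝒦] {k : 𝒦} (hk : star k = k) (n : ℕ) : star (spow k n) = spow k n := by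
  induction n with
  | zero => exact hk
  | succ n ih =>
    change star (spow k n * k) = spow k n * k
    rw [star_mul, ih, hk, mul_spow]

end Pow

/-! ### The ideal of full kernels -/

section Ideal

variable {G D : Type*} [Group G] [MulAction G D] {𝒦 : Type*} [Semigroup 𝒦]

variable (𝒦 G D) in
/-- The symbols of full kernels. -/
def fullS : Set (Symb G D 𝒦) := {s | s.1 ≠ 1}

variable (G D) in
/-- The symbol `(k, 1)`. -/
abbrev fsym (k : 𝒦) : Symb G D 𝒦 := ((k : WithOne 𝒦), (1 : HK G D))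

theorem coe_mem_fullS (k : 𝒦) (a : HK G D) : (((k : WithOne 𝒦), a) : Symb G D 𝒦) ∈ fullS G D 𝒦 :=
  WithOne.coe_ne_one

theorem exists_of_mem_fullS {s : Symb G D 𝒦} (hs : s ∈ fullS G D 𝒦) :
    ∃ (k : 𝒦) (a : HK G D), s = ((k : WithOne 𝒦), a) := by
  obtain ⟨x, a⟩ := s
  obtain ⟨k, hk⟩ := WithOne.ne_one_iff_exists.mp hs
  exact ⟨k, a, Prod.ext hk.symm rfl⟩

theorem mul_mem_fullS (m : Symb G D 𝒦) {j : Symb G D 𝒦} (hj : j ∈ fullS G D 𝒦) :
    j * m ∈ fullS G D 𝒦 := by
  obtain ⟨k, a, rfl⟩ := exists_of_mem_fullS hj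
  obtain ⟨y, b⟩ := m
  induction y using WithOne.recOneCoe with
  | one => rw [Prod.mk_mul_mk, mul_one]; exact coe_mem_fullS _ _
  | coe l => rw [Prod.mk_mul_mk, ← WithOne.coe_mul]; exact coe_mem_fullS _ _

theorem sstar_mem_fullS [Star 𝒦] {j : Symb G D 𝒦} (hj : j ∈ fullS G D 𝒦) :
    sstar j ∈ fullS G D 𝒦 := by
  obtain ⟨k, a, rfl⟩ := exists_of_mem_fullS hj
  exact coe_mem_fullS _ _

end Ideal

section Main

variable {G X D : Type*} [Group G] [MulAction G X] [MulAction G D] [MeasurableSpace X]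
  [MeasurableSpace D] [MeasurableSingletonClass D] [Countable D] {mX : Measure X} [SFinite mX]
  {𝒦 : Type*} [Semigroup 𝒦] {κ : KerSg G mX 𝒦} {w : X × D → ℝ≥0∞}
  [MeasurableConstSMul G (X × D)] [SMulInvariantMeasure G (X × D) (muXD mX D)] [Countable G]
  {hT : ∃ T : Finset D, ∀ d, ∃ g : G, g • d ∈ T} {hw : IsWeight G w}
  {𝒞 : Submodule ℂ (Lp ℂ 2 ((muXD mX D).withDensity w))}

/-- There is no common kernel on the main part. -/
theorem eq_zero_of_opF (h : StabRep (symOp κ hT hw) 𝒞) {v : Lp ℂ 2 ((muXD mX D).withDensity w)}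
    (hv : v ∈ h.mainPart (fullS G D 𝒦))
    (h0 : ∀ k : 𝒦, opF κ hT hw k (1 : HK G D) ⟨v, h.le (h.mainPart_le _ hv)⟩ = 0) : v = 0 := by
  refine h.eq_zero_of_main hv fun j hj => ?_
  obtain ⟨k, a, rfl⟩ := exists_of_mem_fullS hj
  rw [symOp_coe, opF_eq_opD_mul]
  change opD hT hw a (opF κ hT hw k 1 _) = 0
  rw [h0 k, map_zero]

variable [StarMul 𝒦]

section Compact

variable (h : StabRep (symOp κ hT hw) 𝒞) {m : ℕ}

/-- A product of `m` full kernels is a Hilbert-Schmidt operator on the main part. -/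
theorem isHS_of_le {𝒱 : Submodule ℂ (Lp ℂ 2 ((muXD mX D).withDensity w))}
    (h : StabRep (symOp κ hT hw) 𝒞) (h' : StabRep (symOp κ hT hw) 𝒱) (hle : 𝒱 ≤ 𝒞)
    {s : Symb G D 𝒦} (hs : IsHS (h.hom s)) : IsHS (h'.hom s) := by
  obtain ⟨B, hB⟩ := hs
  refine ⟨B, ?_⟩
  let ι : 𝒱 →ₗᵢ[ℂ] 𝒞 := ⟨Submodule.inclusion hle, fun v => rfl⟩
  exact (hB.comp_isometry ι).of_norm_le _ fun v => le_of_eq rfl

/-- **Joint kernel.** -/
theorem eq_zero_of_family [CompleteSpace 𝒞]
    (hstar : ∀ (k : 𝒦) x x', κ.kap (star k) x x' = conj (κ.kap k x' x))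
    (h : StabRep (symOp κ hT hw) 𝒞) (hm : m ≠ 0)
    (hHS : ∀ l : List 𝒦, l.length = m →
      IsHS (h.hom ((l.map (fsym G D)).prod)))
    {I : Type*} {A : I → Symb G D 𝒦}
    (hfull : ∀ k : 𝒦, star k = k → ∃ i, A i = fsym G D k)
    (h' : StabRep (symOp κ hT hw) (h.mainPart (fullS G D 𝒦)))
    (v : h.mainPart (fullS G D 𝒦))
    (hv : ∀ i, IsCompactOperator (h'.hom (A i)) → h'.hom (A i) v = 0) : v = 0 := by
  have hst := adjoint_symOp κ hT hw hstar (D := D)
  have hcl : IsClosed (𝒞 : Set (Lp ℂ 2 ((muXD mX D).withDensity w))) :=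
    IsComplete.isClosed (completeSpace_coe_iff_isComplete.mp inferInstance)
  have : CompleteSpace (h.mainPart (fullS G D 𝒦)) :=
    (h.isClosed_mainPart _ hcl).completeSpace_coe
  obtain ⟨n, rfl⟩ : ∃ n, m = n + 1 := Nat.exists_eq_succ_of_ne_zero hm
  apply Subtype.ext
  refine eq_zero_of_opF h v.2 fun k => ?_
  -- the self-adjoint element
  set a : 𝒦 := star k * k with ha
  have hastar : star a = a := by rw [ha, star_mul, star_star]
  obtain ⟨i, hi⟩ := hfull (spow a n) (star_spow hastar n)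
  have hpow : fsym G D (spow a n) = fsym G D a ^ (n + 1) := by
    rw [fsym, fsym, Prod.pow_mk, one_pow, coe_spow]
  have hcomp : IsCompactOperator (h'.hom (A i)) := by
    refine IsHS.isCompactOperator (isHS_of_le h h' (h.mainPart_le _) ?_)
    have h1 := hHS (List.replicate (n + 1) a) (List.length_replicate ..)
    rw [List.map_replicate, List.prod_replicate] at h1
    rw [hi, hpow]
    exact h1
  have h1 := hv i hcomp
  rw [hi, hpow, map_pow] at h1
  have hsym : (h'.hom (fsym G D a)).IsSymmetric := by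
    refine h'.isSymmetric hst ?_
    rw [sstar_coe, hastar, star_one]
  have h2 := IsSymmetric.eq_zero_of_pow hsym h1
  -- `T† T v = 0`
  have h3 : fsym G D a = sstar (fsym G D k) * fsym G D k := by
    rw [sstar_coe, Prod.mk_mul_mk, star_one, one_mul, ← WithOne.coe_mul]
  rw [h3, map_mul] at h2
  have h4 : ContinuousLinearMap.adjoint (h'.hom (fsym G D k)) =
      h'.hom (sstar (fsym G D k)) := h'.adjoint_hom hst _
  rw [← h4] at h2
  have h5 : ⟪h'.hom (fsym G D k) v, h'.hom (fsym G D k) v⟫_ℂ = 0 := by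
    rw [← ContinuousLinearMap.adjoint_inner_right]
    have h6 : (ContinuousLinearMap.adjoint (h'.hom (fsym G D k)))
        ((h'.hom (fsym G D k)) v) = 0 := h2
    rw [h6, inner_zero_right]
  rw [inner_self_eq_zero] at h5
  have h7 := congrArg (fun y : h.mainPart (fullS G D 𝒦) =>
    (y : Lp ℂ 2 ((muXD mX D).withDensity w))) h5
  exact Subtype.ext h7

/-- **Diagonalisation**: the joint eigenspaces are finite dimensional. -/
theorem finite_jointEig_symb [CompleteSpace 𝒞]
    (hstar : ∀ (k : 𝒦) x x', κ.kap (star k) x x' = conj (κ.kap k x' x))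
    (h : StabRep (symOp κ hT hw) 𝒞) (hm : m ≠ 0)
    (hHS : ∀ l : List 𝒦, l.length = m →
      IsHS (h.hom ((l.map (fsym G D)).prod)))
    {I : Type*} {A : I → Symb G D 𝒦}
    (hfull : ∀ k : 𝒦, star k = k → ∃ i, A i = fsym G D k)
    (h' : StabRep (symOp κ hT hw) (h.mainPart (fullS G D 𝒦))) (χ : I → ℝ) :
    FiniteDimensional ℂ (jointEig (fun i => h'.hom (A i)) χ) := by
  have hcl : IsClosed (𝒞 : Set (Lp ℂ 2 ((muXD mX D).withDensity w))) :=
    IsComplete.isClosed (completeSpace_coe_iff_isComplete.mp inferInstance)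
  have : CompleteSpace (h.mainPart (fullS G D 𝒦)) :=
    (h.isClosed_mainPart _ hcl).completeSpace_coe
  exact finiteDimensional_jointEig (A := fun i => h'.hom (A i))
    (c := {i | IsCompactOperator (h'.hom (A i))}) (fun _ hi => hi)
    (fun v hv => eq_zero_of_family hstar h hm hHS hfull h' v hv) χ

/-- **Diagonalisation**: the joint eigenspaces span a dense subspace. -/
theorem dense_jointEig_symb [CompleteSpace 𝒞]
    (hstar : ∀ (k : 𝒦) x x', κ.kap (star k) x x' = conj (κ.kap k x' x))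
    (h : StabRep (symOp κ hT hw) 𝒞) (hm : m ≠ 0)
    (hHS : ∀ l : List 𝒦, l.length = m →
      IsHS (h.hom ((l.map (fsym G D)).prod)))
    {I : Type*} {A : I → Symb G D 𝒦} (hA : ∀ i, sstar (A i) = A i)
    (hcomm : ∀ i j, A i * A j = A j * A i)
    (hfull : ∀ k : 𝒦, star k = k → ∃ i, A i = fsym G D k)
    (h' : StabRep (symOp κ hT hw) (h.mainPart (fullS G D 𝒦))) :
    (⨆ χ : I → ℝ, jointEig (fun i => h'.hom (A i)) χ).topologicalClosure = ⊤ := by
  have hcl : IsClosed (𝒞 : Set (Lp ℂ 2 ((muXD mX D).withDensity w))) :=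
    IsComplete.isClosed (completeSpace_coe_iff_isComplete.mp inferInstance)
  have : CompleteSpace (h.mainPart (fullS G D 𝒦)) :=
    (h.isClosed_mainPart _ hcl).completeSpace_coe
  exact h'.dense_jointEig (adjoint_symOp κ hT hw hstar (D := D)) hA hcomm
    (c := {i | IsCompactOperator (h'.hom (A i))}) (fun _ hi => hi)
    (fun v hv => eq_zero_of_family hstar h hm hHS hfull h' v hv)

/-! ### The main part -/

omit h in
/-- The main part is stable. -/
theorem StabRep.mainS (h : StabRep (symOp κ hT hw) 𝒞)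
    (hstar : ∀ (k : 𝒦) x x', κ.kap (star k) x x' = conj (κ.kap k x' x)) :
    StabRep (symOp κ hT hw) (h.mainPart (fullS G D 𝒦)) :=
  h.main (adjoint_symOp κ hT hw hstar (D := D)) fun m _ hj => mul_mem_fullS m hj

omit h in
/-- The full kernels map `𝒞` to the main part. -/
theorem StabRep.mem_mainS (h : StabRep (symOp κ hT hw) 𝒞)
    (hstar : ∀ (k : 𝒦) x x', κ.kap (star k) x x' = conj (κ.kap k x' x)) {s : Symb G D 𝒦}
    (hs : s ∈ fullS G D 𝒦) {v : Lp ℂ 2 ((muXD mX D).withDensity w)} (hv : v ∈ 𝒞) :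
    (symOp κ hT hw s ⟨v, h.le hv⟩ : Lp ℂ 2 ((muXD mX D).withDensity w)) ∈
      h.mainPart (fullS G D 𝒦) :=
  h.mem_main (adjoint_symOp κ hT hw hstar (D := D)) (fun _ hj => sstar_mem_fullS hj) hs hv

omit h in
/-- An eigenvector in `𝒞` of a full kernel with a non-zero eigenvalue lies in the main part. -/
theorem StabRep.mem_mainS_of_eig (h : StabRep (symOp κ hT hw) 𝒞)
    (hstar : ∀ (k : 𝒦) x x', κ.kap (star k) x x' = conj (κ.kap k x' x)) {s : Symb G D 𝒦}
    (hs : s ∈ fullS G D 𝒦) {v : autL2 G ((muXD mX D).withDensity w)}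
    (hv : (v : Lp ℂ 2 ((muXD mX D).withDensity w)) ∈ 𝒞) {c : ℂ} (hc : c ≠ 0)
    (he : symOp κ hT hw s v = c • v) :
    (v : Lp ℂ 2 ((muXD mX D).withDensity w)) ∈ h.mainPart (fullS G D 𝒦) :=
  h.mem_main_of_eig (adjoint_symOp κ hT hw hstar (D := D)) (fun _ hj => sstar_mem_fullS hj) hs hv
    hc (congrArg (fun y : autL2 G ((muXD mX D).withDensity w) =>
      (y : Lp ℂ 2 ((muXD mX D).withDensity w))) he)

/-- A linear combination of symbols. -/
def linS {ι : Type*} (κ : KerSg G mX 𝒦) (hT : ∃ T : Finset D, ∀ d, ∃ g : G, g • d ∈ T)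
    (hw : IsWeight G w) (t : Finset ι) (c : ι → ℂ) (s : ι → Symb G D 𝒦) :
    autL2 G ((muXD mX D).withDensity w) →L[ℂ] autL2 G ((muXD mX D).withDensity w) :=
  ∑ i ∈ t, c i • symOp κ hT hw (s i)

theorem linS_apply {ι : Type*} (t : Finset ι) (c : ι → ℂ) (s : ι → Symb G D 𝒦)
    (f : autL2 G ((muXD mX D).withDensity w)) :
    linS κ hT hw t c s f = ∑ i ∈ t, c i • symOp κ hT hw (s i) f := by
  exact sum_smul_apply' t c (fun i => symOp κ hT hw (s i)) f

theorem adjoint_linS (hstar : ∀ (k : 𝒦) x x', κ.kap (star k) x x' = conj (κ.kap k x' x))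
    {ι : Type*} (t : Finset ι) (c : ι → ℂ) (s : ι → Symb G D 𝒦) :
    ContinuousLinearMap.adjoint (linS κ hT hw t c s) =
      linS κ hT hw t (fun i => conj (c i)) fun i => sstar (s i) := by
  refine (adjoint_sum_smul t c (fun i => symOp κ hT hw (s i))).trans ?_
  exact Finset.sum_congr rfl fun i _ => congrArg _ (adjoint_symOp κ hT hw hstar (s i))

omit h in
/-- If a linear combination of full kernels maps `f` to `𝒞`, then it maps `f` to the main part. -/
theorem StabRep.linS_mem (h : StabRep (symOp κ hT hw) 𝒞)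
    (hstar : ∀ (k : 𝒦) x x', κ.kap (star k) x x' = conj (κ.kap k x' x))
    {ι : Type*} {t : Finset ι} {c : ι → ℂ} {s : ι → Symb G D 𝒦}
    (hs : ∀ i ∈ t, s i ∈ fullS G D 𝒦) {f : autL2 G ((muXD mX D).withDensity w)}
    (hf : (linS κ hT hw t c s f : Lp ℂ 2 ((muXD mX D).withDensity w)) ∈ 𝒞) :
    (linS κ hT hw t c s f : Lp ℂ 2 ((muXD mX D).withDensity w)) ∈
      h.mainPart (fullS G D 𝒦) := by
  refine h.mem_main_of hf fun u hu h0 => ?_
  rw [adjoint_linS hstar, linS_apply]
  refine Finset.sum_eq_zero fun i hi => ?_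
  rw [h0 _ (sstar_mem_fullS (hs i hi)), smul_zero]

omit h in
/-- If the adjoint of a linear combination of full kernels maps everything to `𝒞`, then it kills
the orthogonal complement of the main part. -/
theorem StabRep.linS_eq_zero (h : StabRep (symOp κ hT hw) 𝒞)
    (hstar : ∀ (k : 𝒦) x x', κ.kap (star k) x x' = conj (κ.kap k x' x))
    {ι : Type*} {t : Finset ι} {c : ι → ℂ} {s : ι → Symb G D 𝒦}
    (hs : ∀ i ∈ t, s i ∈ fullS G D 𝒦)
    (hf : ∀ g : autL2 G ((muXD mX D).withDensity w),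
      (linS κ hT hw t (fun i => conj (c i)) (fun i => sstar (s i)) g :
        Lp ℂ 2 ((muXD mX D).withDensity w)) ∈ 𝒞)
    {f : autL2 G ((muXD mX D).withDensity w)}
    (hfo : (f : Lp ℂ 2 ((muXD mX D).withDensity w)) ∈ (h.mainPart (fullS G D 𝒦))ᗮ) :
    linS κ hT hw t c s f = 0 := by
  refine eq_zero_of_orth (V' := h.mainPart (fullS G D 𝒦)) (fun g => ?_) hfo
  rw [adjoint_linS hstar]
  exact h.linS_mem hstar (fun i hi => sstar_mem_fullS (hs i hi)) (hf g)

end Compact

end Main

/-! ### Hilbert-Schmidt operators from a pointwise bound -/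

section Bound

variable {Z : Type*} [MeasurableSpace Z] {ν : Measure Z} [IsFiniteMeasure ν]

/-- A bounded operator into `L^∞` is Hilbert-Schmidt. -/
theorem isHS_of_ae {H : Type*} [NormedAddCommGroup H] [InnerProductSpace ℂ H]
    {𝒞 : Submodule ℂ (Lp ℂ 2 ν)} {T : H →L[ℂ] 𝒞} {B : ℝ}
    (hT : ∀ v : H, ∀ᵐ x ∂ν, ‖(T v : Lp ℂ 2 ν) x‖ ≤ B * ‖v‖) : IsHS T := by
  have h1 : HSBound (𝒞.subtypeL ∘L T) (B ^ 2 * ν.real Set.univ) := hsBound_of_ae hT
  exact ⟨_, h1.of_norm_le T fun v => le_of_eq rfl⟩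

end Bound

/-! ### Products of full kernels on functions -/

section Fold

variable {G X D : Type*} [Group G] [MulAction G X] [MulAction G D] [MeasurableSpace X]
  [MeasurableSpace D] [MeasurableSingletonClass D] [Countable D] {mX : Measure X} [SFinite mX]

/-- The operator of a full kernel on functions. -/
def kopX (mX : Measure X) (k : X → X → ℂ) (F : X × D → ℂ) (z : X × D) : ℂ :=
  ∫ x', k z.1 x' * F (x', z.2) ∂mX

/-- products -/
def foldX (mX : Measure X) (l : List (X → X → ℂ)) (F : X × D → ℂ) : X × D → ℂ :=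
  l.foldr (kopX mX) F

theorem measurable_kopX {k : X → X → ℂ} (hk : Measurable (Function.uncurry k)) {F : X × D → ℂ}
    (hF : Measurable F) : Measurable (kopX mX k F) := by
  have h1 : Measurable fun p : (X × D) × X => k p.1.1 p.2 * F (p.2, p.1.2) :=
    (hk.comp ((measurable_fst.comp measurable_fst).prodMk measurable_snd)).mul
      (hF.comp (measurable_snd.prodMk (measurable_snd.comp measurable_fst)))
  exact (h1.stronglyMeasurable.integral_prod_right' (ν := mX)).measurable

variable {𝒦 : Type*} [Semigroup 𝒦] (κ : KerSg G mX 𝒦) {w : X × D → ℝ≥0∞}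
  [MeasurableConstSMul G (X × D)] [SMulInvariantMeasure G (X × D) (muXD mX D)] [Countable G]
  (hT : ∃ T : Finset D, ∀ d, ∃ g : G, g • d ∈ T) (hw : IsWeight G w)

theorem kopX_eq_kop (k : 𝒦) (F : X × D → ℂ) :
    kopX mX (κ.kap k) F =
      kop (Kernel.const (X × D) (muXD mX D)) (sker κ k (1 : HK G D)) F := by
  funext z
  rw [kop, Kernel.const_apply, integral_sker_one]
  rfl

theorem measurable_kopX' (k : 𝒦) {F : X × D → ℂ} (hF : Measurable F) :
    Measurable (kopX mX (κ.kap k) F) := measurable_kopX (κ.hyp k).choose_spec.meas hF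

include hT in
theorem kopX_smul (k : 𝒦) {F : X × D → ℂ} (hF : Measurable F)
    (hi : ∀ (g : G) z, F (g • z) = F z) (g : G) (z : X × D) :
    kopX mX (κ.kap k) F (g • z) = kopX mX (κ.kap k) F z := by
  obtain ⟨C, hC⟩ := kerHyp_sker κ hT k (1 : HK G D)
  rw [kopX_eq_kop (G := G) (D := D) κ k F]
  exact kop_smul hC hF hi g z

theorem measurable_foldX (l : List 𝒦) {F : X × D → ℂ} (hF : Measurable F) :
    Measurable (foldX mX (l.map κ.kap) F) := by
  induction l with
  | nil => exact hF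
  | cons k l ih => exact measurable_kopX' κ k ih

include hT in
theorem foldX_smul (l : List 𝒦) {F : X × D → ℂ} (hF : Measurable F)
    (hi : ∀ (g : G) z, F (g • z) = F z) (g : G) (z : X × D) :
    foldX mX (l.map κ.kap) F (g • z) = foldX mX (l.map κ.kap) F z := by
  induction l generalizing g z with
  | nil => exact hi g z
  | cons k l ih => exact kopX_smul κ hT k (measurable_foldX κ l hF) ih g z

/-- **The a.e. value of a product of full kernels.** -/
theorem symOp_prod_ae (l : List 𝒦) (f : autL2 G ((muXD mX D).withDensity w)) {F : X × D → ℂ}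
    (hF : Measurable F) (hi : ∀ (g : G) z, F (g • z) = F z)
    (hfF : arep f =ᵐ[(muXD mX D).withDensity w] F) :
    arep (symOp κ hT hw ((l.map (fsym G D)).prod) f)
      =ᵐ[muXD mX D] foldX mX (l.map κ.kap) F := by
  induction l with
  | nil =>
    rw [List.map_nil, List.prod_nil, map_one]
    exact hw.ae_eq_of_inv (measurable_arep f) hF (arep_smul f) hi hfF
  | cons k l ih =>
    rw [List.map_cons, List.prod_cons, map_mul]
    have h1 := opF_one_ae κ hT hw k (symOp κ hT hw
      ((l.map (fsym G D)).prod) f)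
      (measurable_foldX κ l hF) (foldX_smul κ hT l hF hi)
      ((withDensity_ac (muXD mX D) w).ae_eq ih)
    exact h1

/-- **Hilbert-Schmidt property from a sup bound on functions.** -/
theorem isHS_prod_of_bound [IsFiniteMeasure ((muXD mX D).withDensity w)]
    {𝒞 : Submodule ℂ (Lp ℂ 2 ((muXD mX D).withDensity w))} (h : StabRep (symOp κ hT hw) 𝒞)
    {l : List 𝒦} {B : ℝ}
    (hB : ∀ F : X × D → ℂ, Measurable F → (∀ (g : G) z, F (g • z) = F z) →
      ∀ hF2 : MemLp F 2 ((muXD mX D).withDensity w), hF2.toLp F ∈ 𝒞 →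
      ∀ᵐ z ∂(muXD mX D).withDensity w, ‖foldX mX (l.map κ.kap) F z‖ ≤
        B * (eLpNorm F 2 ((muXD mX D).withDensity w)).toReal) :
    IsHS (h.hom ((l.map (fsym G D)).prod)) := by
  refine isHS_of_ae (B := B) fun v => ?_
  set f : autL2 G ((muXD mX D).withDensity w) := ⟨v, h.le v.2⟩ with hf
  have h1 := (withDensity_ac (muXD mX D) w).ae_eq (symOp_prod_ae κ hT hw l f (measurable_arep f)
    (arep_smul f) Filter.EventuallyEq.rfl)
  have h0 : (memLp_arep f).toLp (arep f) = (v : Lp ℂ 2 ((muXD mX D).withDensity w)) := by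
    apply Lp.ext
    exact (memLp_arep f).coeFn_toLp.trans (coeFn_ae_arep f).symm
  have h2 := hB (arep f) (measurable_arep f) (arep_smul f) (memLp_arep f) (by
    rw [h0]
    exact v.2)
  have h3 : (eLpNorm (arep f) 2 ((muXD mX D).withDensity w)).toReal = ‖v‖ := by
    have h4 : ‖v‖ = ‖(v : Lp ℂ 2 ((muXD mX D).withDensity w))‖ := rfl
    rw [h4, ← h0, Lp.norm_toLp]
  filter_upwards [h1, h2, coeFn_ae_arep (symOp κ hT hw
    ((l.map (fsym G D)).prod) f)] with z hz1 hz2 hz3
  have h5 : ((h.hom ((l.map (fsym G D)).prod) v : 𝒞) :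
      Lp ℂ 2 ((muXD mX D).withDensity w)) = (symOp κ hT hw
    ((l.map (fsym G D)).prod) f :
      Lp ℂ 2 ((muXD mX D).withDensity w)) := rfl
  rw [h5, hz3, hz1, ← h3]
  exact hz2

end Fold

end Fermat.Agent.LT
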