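import Fermat.Agent.LT.Auto.XiCoord
import Fermat.Agent.LT.Auto.Space
import Fermat.Agent.LT.Red.Weight

/-!
# The cuspidal subspace of `L²(PGL₂(F) \ Z)`

* `IsWeight.setLIntegral_le_mul` : invariant functions on a set of finite multiplicity;
* `CuspSp.exists_box_bound` : `L²` bound on `fdom × box`;
* `IsCusp.congr_ae`, `IsCusp.add`, `IsCusp.smul`;
* `cuspL2 hw : Submodule ℂ (Lp ℂ 2 ν)`, `mem_cuspL2`, `mem_cuspL2_iff_of_ae`, `isClosed_cuspL2`.
-/

set_option autoImplicit false

noncomputable section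

open MeasureTheory ENNReal NumberField Matrix

namespace Fermat.Agent.LT

/-! ### Sets of finite multiplicity -/

section Mult

variable {G Z : Type*} [Group G] [Countable G] [MeasurableSpace Z] [MulAction G Z]
  [MeasurableConstSMul G Z] {μ : Measure Z} [SMulInvariantMeasure G Z μ] {w : Z → ℝ≥0∞}

/-- If `g z ∈ S` for at most `M` elements `g`, the integral of an invariant function over `S` is at most `M`
times the integral over `G \ Z`. -/
theorem IsWeight.setLIntegral_le_mul (h : IsWeight G w) {S : Set Z} (hS : MeasurableSet S)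
    {M : ℕ} (hM : ∀ z, {g : G | g • z ∈ S}.Finite ∧ {g : G | g • z ∈ S}.ncard ≤ M)
    {f : Z → ℝ≥0∞} (hf : Measurable f) (hinv : ∀ (g : G) z, f (g • z) = f z) :
    ∫⁻ z in S, f z ∂μ ≤ M * ∫⁻ z, f z ∂μ.withDensity w := by
  have hind : Measurable (S.indicator (1 : Z → ℝ≥0∞)) := measurable_one.indicator hS
  have h1 : ∫⁻ z in S, f z ∂μ =
      ∑' g : G, ∫⁻ z, w z * (S.indicator (1 : Z → ℝ≥0∞) (g • z) * f z) ∂μ := by
    rw [← lintegral_indicator hS]
    have h2 : ∀ z, S.indicator f z =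
        ∑' g : G, w (g • z) * (S.indicator (1 : Z → ℝ≥0∞) z * f z) := by
      intro z
      rw [ENNReal.tsum_mul_right, h.sum_eq, one_mul]
      by_cases hz : z ∈ S <;> simp [hz]
    have hm1 : ∀ g : G, Measurable fun z => w (g • z) * (S.indicator (1 : Z → ℝ≥0∞) z * f z) :=
      fun g => (h.meas.comp (measurable_const_smul g)).mul (hind.mul hf)
    simp_rw [h2]
    rw [lintegral_tsum fun g => (hm1 g).aemeasurable, ← (Equiv.inv G).tsum_eq]
    refine tsum_congr fun g => ?_
    rw [← IsWeight.lintegral_smul (μ := μ) g]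
    refine lintegral_congr fun z => ?_
    rw [Equiv.inv_apply, inv_smul_smul, hinv]
  have hm2 : ∀ g : G, Measurable fun z => w z * (S.indicator (1 : Z → ℝ≥0∞) (g • z) * f z) :=
    fun g => h.meas.mul ((hind.comp (measurable_const_smul g)).mul hf)
  rw [h1, ← lintegral_tsum fun g => (hm2 g).aemeasurable,
    lintegral_withDensity_eq_lintegral_mul _ h.meas hf,
    ← lintegral_const_mul _ (h.meas.mul hf)]
  refine lintegral_mono fun z => ?_
  have h3 : ∑' g : G, S.indicator (1 : Z → ℝ≥0∞) (g • z) ≤ M := by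
    rw [tsum_eq_sum (s := (hM z).1.toFinset) fun g hg => ?_]
    · calc ∑ g ∈ (hM z).1.toFinset, S.indicator (1 : Z → ℝ≥0∞) (g • z)
          ≤ ∑ _g ∈ (hM z).1.toFinset, (1 : ℝ≥0∞) :=
            Finset.sum_le_sum fun g _ => Set.indicator_le_self' (fun _ _ => zero_le) _
        _ = ((hM z).1.toFinset.card : ℝ≥0∞) := by simp
        _ ≤ M := by
            have := (hM z).2
            rw [Set.ncard_eq_toFinset_card _ (hM z).1] at this
            exact_mod_cast this
    · rw [Set.Finite.mem_toFinset, Set.mem_ofPred_eq] at hg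
      exact Set.indicator_of_notMem hg _
  calc ∑' g : G, w z * (S.indicator (1 : Z → ℝ≥0∞) (g • z) * f z)
      = (∑' g : G, S.indicator (1 : Z → ℝ≥0∞) (g • z)) * (w z * f z) := by
        rw [← ENNReal.tsum_mul_right]
        exact tsum_congr fun g => by ring
    _ ≤ M * (w * f) z := by
        rw [Pi.mul_apply]
        gcongr

end Mult

/-! ### Boxes -/

section Box

variable {F : Type*} [Field F] [NumberField F] [IsTotallyComplex F]

namespace CuspSp

theorem measurableSet_fdom {m : ℕ} (hm : m ≠ 0) : MeasurableSet (fdom F m) :=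
  (ZSpan.fundamentalDomain_measurableSet (embBasis F)).const_smul_of_ne_zero
    (Nat.cast_ne_zero.2 hm)

theorem isBounded_fdom (m : ℕ) : Bornology.IsBounded (fdom F m) :=
  (ZSpan.fundamentalDomain_isBounded (embBasis F)).smul₀ (m : ℝ)

theorem exists_norm_le_fdom (m : ℕ) : ∃ R : ℝ, 0 < R ∧ ∀ z ∈ fdom F m, ∀ w, ‖z w‖ ≤ R := by
  obtain ⟨R, hR, h⟩ := (isBounded_fdom (F := F) m).exists_pos_norm_le
  exact ⟨R, hR, fun z hz w => (norm_le_pi_norm z w).trans (h z hz)⟩

theorem volume_fdom_lt_top (m : ℕ) : volume (fdom F m) < ∞ :=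
  (isBounded_fdom m).measure_lt_top

/-- The box `(b+1)⁻¹ ≤ y_w ≤ b+1`. -/
def ybox (F : Type*) [Field F] (b : ℕ) : Set (InfinitePlace F → ℝ) :=
  {y | ∀ w, ((b : ℝ) + 1)⁻¹ ≤ y w ∧ y w ≤ b + 1}

omit [IsTotallyComplex F] [NumberField F] in
theorem pos_of_mem_ybox {b : ℕ} {y : InfinitePlace F → ℝ} (hy : y ∈ ybox F b)
    (w : InfinitePlace F) : 0 < y w :=
  (inv_pos.2 (by positivity)).trans_le (hy w).1

omit [IsTotallyComplex F] in
theorem measurableSet_ybox (b : ℕ) : MeasurableSet (ybox F b) := by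
  have h : ybox F b = ⋂ w, {y : InfinitePlace F → ℝ | ((b : ℝ) + 1)⁻¹ ≤ y w ∧ y w ≤ b + 1} := by
    ext y; simp [ybox]
  rw [h]
  exact MeasurableSet.iInter fun w =>
    (measurableSet_le measurable_const (measurable_pi_apply w)).inter
      (measurableSet_le (measurable_pi_apply w) measurable_const)

omit [IsTotallyComplex F] in
theorem volume_ybox_lt_top (b : ℕ) : volume (ybox F b) < ∞ := by
  have h : ybox F b ⊆ Set.univ.pi fun _ => Set.Icc (((b : ℝ) + 1)⁻¹) (b + 1) :=
    fun y hy w _ => hy w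
  refine (measure_mono h).trans_lt ?_
  rw [volume_pi_pi]
  exact ENNReal.prod_lt_top fun w _ => by rw [Real.volume_Icc]; exact ENNReal.ofReal_lt_top

omit [IsTotallyComplex F] in
/-- The boxes exhaust `y > 0`. -/
theorem exists_mem_ybox {y : InfinitePlace F → ℝ} (hy : ∀ w, 0 < y w) : ∃ b, y ∈ ybox F b := by
  obtain ⟨n, hn⟩ := exists_nat_ge (∑ w, (y w + (y w)⁻¹))
  refine ⟨n, fun w => ?_⟩
  have h1 : y w + (y w)⁻¹ ≤ n :=
    (Finset.single_le_sum (f := fun i => y i + (y i)⁻¹)
      (fun i _ => (add_pos (hy i) (inv_pos.2 (hy i))).le) (Finset.mem_univ w)).trans hn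
  have h2 := inv_pos.2 (hy w)
  constructor
  · rw [inv_le_comm₀ (by positivity) (hy w)]
    linarith [hy w]
  · linarith

omit [IsTotallyComplex F] in
theorem ae_of_ybox {p : (InfinitePlace F → ℝ) → Prop} (h : ∀ b : ℕ, ∀ᵐ y, y ∈ ybox F b → p y) :
    ∀ᵐ y : InfinitePlace F → ℝ, (∀ w, 0 < y w) → p y := by
  filter_upwards [ae_all_iff.2 h] with y hy hpos
  obtain ⟨b, hb⟩ := exists_mem_ybox hpos
  exact hy b hb

/-- Lebesgue measure on `fdom × box`. -/
def rho (F : Type*) [Field F] [NumberField F] [IsTotallyComplex F] (m b : ℕ) :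
    Measure ((InfinitePlace F → ℂ) × (InfinitePlace F → ℝ)) :=
  ((volume : Measure (InfinitePlace F → ℂ)).restrict (fdom F m)).prod
    ((volume : Measure (InfinitePlace F → ℝ)).restrict (ybox F b))

instance (m : ℕ) : IsFiniteMeasure ((volume : Measure (InfinitePlace F → ℂ)).restrict (fdom F m)) :=
  ⟨by rw [Measure.restrict_apply_univ]; exact volume_fdom_lt_top m⟩

omit [IsTotallyComplex F] in
theorem isFiniteMeasure_ybox (b : ℕ) :
    IsFiniteMeasure ((volume : Measure (InfinitePlace F → ℝ)).restrict (ybox F b)) :=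
  ⟨by rw [Measure.restrict_apply_univ]; exact volume_ybox_lt_top b⟩

instance (m b : ℕ) : IsFiniteMeasure (rho F m b) := by
  have := isFiniteMeasure_ybox (F := F) b
  unfold rho; infer_instance

variable {D : Type*}

/-- The coordinates of a slice. -/
def jmap (d : D) (q : (InfinitePlace F → ℂ) × (InfinitePlace F → ℝ)) : Xi F × D :=
  (pt q.1 q.2, d)

variable [MeasurableSpace D]

omit [NumberField F] [IsTotallyComplex F] in
theorem measurable_jmap (d : D) : Measurable (jmap (F := F) d) :=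
  measurable_pt.prodMk measurable_const

variable [MeasurableSingletonClass D] [Countable D] [MulAction (GL (Fin 2) F) D]

omit [MulAction (GL (Fin 2) F) D] [IsTotallyComplex F] in
theorem setLIntegral_slice (B : Set (Xi F)) (d : D)
    {f : Xi F × D → ℝ≥0∞} (hf : Measurable f) :
    ∫⁻ z in B ×ˢ {d}, f z ∂muZ F D = ∫⁻ x in B, f (x, d) := by
  rw [muZ, ← Measure.prod_restrict, Measure.restrict_singleton, Measure.count_singleton, one_smul,
    lintegral_prod _ hf.aemeasurable]
  refine lintegral_congr fun x => ?_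
  exact lintegral_dirac' d (f := fun y => f (x, y)) (hf.comp measurable_prodMk_left)

/-- The set of points with `z ∈ fdom`, `y ∈ ybox`. -/
def xbox (F : Type*) [Field F] [NumberField F] [IsTotallyComplex F] (m b : ℕ) : Set (Xi F) :=
  {x | (fun w => (x w).z) ∈ fdom F m ∧ (fun w => (x w).y) ∈ ybox F b}

theorem measurableSet_xbox {m : ℕ} (hm : m ≠ 0) (b : ℕ) : MeasurableSet (xbox F m b) := by
  have h1 : Measurable fun x : Xi F => fun w => (x w).z :=
    measurable_pi_lambda _ fun w => H3.measurable_z.comp (measurable_pi_apply w)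
  have h2 : Measurable fun x : Xi F => fun w => (x w).y :=
    measurable_pi_lambda _ fun w => H3.measurable_y.comp (measurable_pi_apply w)
  exact (h1 (measurableSet_fdom hm)).inter (h2 (measurableSet_ybox b))

variable [IsLevel F D] {w : Xi F × D → ℝ≥0∞}

omit [MeasurableSpace D] [MeasurableSingletonClass D] [Countable D] in
theorem exists_mult_xbox (m b : ℕ) (d : D) : ∃ M : ℕ, ∀ z : Xi F × D,
    {g : PG F | g • z ∈ xbox F m b ×ˢ ({d} : Set D)}.Finite ∧
      {g : PG F | g • z ∈ xbox F m b ×ˢ ({d} : Set D)}.ncard ≤ M := by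
  obtain ⟨R, hR, hR'⟩ := exists_norm_le_fdom (F := F) m
  set c : ℝ := max R (b + 1) with hc
  have hb1 : (1 : ℝ) ≤ b + 1 := by
    have : (0 : ℝ) ≤ b := Nat.cast_nonneg b
    linarith
  have hc1 : 1 ≤ c := hb1.trans (le_max_right _ _)
  obtain ⟨M, hM⟩ := Red.exists_card_le (F := F) (D := D) ((b + 1) * c) {d}
  refine ⟨M, fun z => ?_⟩
  have hsub : {g : PG F | g • z ∈ xbox F m b ×ˢ ({d} : Set D)} ⊆
      {γ : PG F | γ • z ∈ Red.siegelSet (F := F) ((b + 1) * c) {d}} := by
    rintro g ⟨⟨h1, h2⟩, h3⟩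
    refine Red.boxSet_subset (F := F) hc1 hb1 {d} ⟨fun v => ⟨?_, ?_, ?_⟩, ?_⟩
    · exact (hR' _ h1 v).trans (le_max_left _ _)
    · exact (inv_anti₀ (by positivity) (le_max_right R _)).trans (h2 v).1
    · exact (h2 v).2
    · simpa using h3
  exact ⟨(hM z).1.subset hsub, (Set.ncard_le_ncard hsub (hM z).1).trans (hM z).2⟩

/-- The basic bound on `fdom × box`. -/
theorem exists_box_bound (hw : IsWeight (PG F) w) {m : ℕ} (hm : m ≠ 0) (b : ℕ) (d : D) :
    ∃ C : ℝ≥0∞, C ≠ ∞ ∧ ∀ f : Xi F × D → ℝ≥0∞, Measurable f →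
      (∀ (g : PG F) z, f (g • z) = f z) →
      ∫⁻ q, f (jmap d q) ∂rho F m b ≤ C * ∫⁻ z, f z ∂(muZ F D).withDensity w := by
  obtain ⟨M, hM⟩ := exists_mult_xbox (F := F) m b d
  refine ⟨((cb (b + 1) ^ Fintype.card (InfinitePlace F) : NNReal) : ℝ≥0∞) * M,
    ENNReal.mul_ne_top ENNReal.coe_ne_top (ENNReal.natCast_ne_top M), fun f hf hinv => ?_⟩
  have hB := measurableSet_xbox (F := F) hm b
  have hfd : Measurable fun x : Xi F => f (x, d) := hf.comp (measurable_id.prodMk measurable_const)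
  have h1 : ∫⁻ q, f (jmap d q) ∂rho F m b ≤
      ∫⁻ y in stripY F (b + 1), ∫⁻ z, (xbox F m b).indicator (fun x => f (x, d)) (pt z y) := by
    have hfin := isFiniteMeasure_ybox (F := F) b
    have hfj : Measurable fun q : (InfinitePlace F → ℂ) × (InfinitePlace F → ℝ) =>
        f (jmap d q) := hf.comp (measurable_jmap d)
    rw [rho, lintegral_prod_symm _ hfj.aemeasurable]
    refine (setLIntegral_mono' (measurableSet_ybox b) fun y hy => ?_).trans
      (lintegral_mono_set fun y (hy : y ∈ ybox F b) v => ⟨pos_of_mem_ybox hy v, (hy v).2⟩)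
    rw [← lintegral_indicator (measurableSet_fdom hm)]
    refine lintegral_mono fun z => ?_
    by_cases hz : z ∈ fdom F m
    · have h2 : pt z y ∈ xbox F m b := by
        refine ⟨?_, ?_⟩
        · have : (fun v => (pt z y v).z) = z := funext fun v => pt_z (pos_of_mem_ybox hy) v
          rw [this]; exact hz
        · have : (fun v => (pt z y v).y) = y := funext fun v => pt_y (pos_of_mem_ybox hy) v
          rw [this]; exact hy
      simp only [Set.indicator_of_mem hz, Set.indicator_of_mem h2]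
      exact le_rfl
    · simp only [Set.indicator_of_notMem hz]
      exact zero_le
  refine h1.trans ((lintegral_pt_le _ (hfd.indicator hB)).trans ?_)
  rw [lintegral_indicator hB, ← setLIntegral_slice (xbox F m b) d hf, mul_assoc]
  gcongr
  exact hw.setLIntegral_le_mul (hB.prod (measurableSet_singleton d)) hM hf hinv

/-- The `L²` and `L¹` bounds on `fdom × box`. -/
theorem exists_norm_bound (hw : IsWeight (PG F) w) {m : ℕ} (hm : m ≠ 0) (b : ℕ) (d : D) :
    ∃ C : ℝ≥0∞, C ≠ ∞ ∧ ∀ f : Xi F × D → ℂ, Measurable f →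
      (∀ (g : PG F) z, f (g • z) = f z) →
      eLpNorm (fun q => f (jmap d q)) 2 (rho F m b) ≤
          C * eLpNorm f 2 ((muZ F D).withDensity w) ∧
        ∫⁻ q, ‖f (jmap d q)‖ₑ ∂rho F m b ≤ C * eLpNorm f 2 ((muZ F D).withDensity w) := by
  obtain ⟨C, hC, h⟩ := exists_box_bound hw hm b d
  set U : ℝ≥0∞ := (rho F m b Set.univ) ^ (1 / 2 : ℝ) with hU
  have hU' : U ≠ ∞ := ENNReal.rpow_ne_top_of_nonneg (by norm_num) (measure_ne_top _ _)
  have hC' : C ^ (1 / 2 : ℝ) ≠ ∞ := ENNReal.rpow_ne_top_of_nonneg (by norm_num) hC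
  refine ⟨C ^ (1 / 2 : ℝ) * (1 + U), ENNReal.mul_ne_top hC' (by finiteness), fun f hf hinv => ?_⟩
  have h2 : eLpNorm (fun q => f (jmap d q)) 2 (rho F m b) ≤
      C ^ (1 / 2 : ℝ) * eLpNorm f 2 ((muZ F D).withDensity w) := by
    rw [eLpNorm_eq_lintegral_rpow_enorm_toReal (by norm_num) (by norm_num),
      eLpNorm_eq_lintegral_rpow_enorm_toReal (by norm_num) (by norm_num)]
    simp only [ENNReal.toReal_ofNat]
    rw [← ENNReal.mul_rpow_of_nonneg _ _ (by norm_num)]
    refine ENNReal.rpow_le_rpow ?_ (by norm_num)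
    exact h (fun z => ‖f z‖ₑ ^ (2 : ℝ)) (hf.enorm.pow_const _) fun g z => by rw [hinv]
  have h1 : ∫⁻ q, ‖f (jmap d q)‖ₑ ∂rho F m b ≤
      eLpNorm (fun q => f (jmap d q)) 2 (rho F m b) * U := by
    rw [← eLpNorm_one_eq_lintegral_enorm]
    refine (eLpNorm_le_eLpNorm_mul_rpow_measure_univ (p := 1) (q := 2) (by norm_num)
      (hf.comp (measurable_jmap d)).aestronglyMeasurable).trans (le_of_eq ?_)
    congr 2
    norm_num
  constructor
  · refine h2.trans ?_
    gcongr
    exact le_mul_of_one_le_right zero_le (le_add_of_nonneg_right zero_le)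
  · calc ∫⁻ q, ‖f (jmap d q)‖ₑ ∂rho F m b
        ≤ (C ^ (1 / 2 : ℝ) * eLpNorm f 2 ((muZ F D).withDensity w)) * U :=
          h1.trans (by gcongr)
      _ = (C ^ (1 / 2 : ℝ) * U) * eLpNorm f 2 ((muZ F D).withDensity w) := by ring
      _ ≤ (C ^ (1 / 2 : ℝ) * (1 + U)) * eLpNorm f 2 ((muZ F D).withDensity w) := by
          gcongr
          exact le_add_of_nonneg_left zero_le

end CuspSp

end Box

/-! ### Cuspidal functions -/

section Cusp

variable {F : Type*} [Field F] [NumberField F] [IsTotallyComplex F] {D : Type*}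
  [MeasurableSpace D] [MeasurableSingletonClass D] [Countable D] [MulAction (GL (Fin 2) F) D]

open CuspSp

omit [IsTotallyComplex F] [MulAction (GL (Fin 2) F) D] in
/-- Almost everywhere equal functions have the same constant terms. -/
theorem ae_pt_eq {E : Type*} {f f' : Xi F × D → E} (h : f =ᵐ[muZ F D] f') (d : D) :
    ∀ᵐ y : InfinitePlace F → ℝ, (∀ w, 0 < y w) →
      ∀ᵐ z : InfinitePlace F → ℂ, f (pt z y, d) = f' (pt z y, d) := by
  have h1 : muZ F D {p | f p ≠ f' p} = 0 := h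
  have h2 : (volume : Measure (Xi F)) {x | f (x, d) ≠ f' (x, d)} = 0 := by
    have h3 : muZ F D ({x | f (x, d) ≠ f' (x, d)} ×ˢ ({d} : Set D)) = 0 := by
      refine measure_mono_null ?_ h1
      rintro ⟨x, d'⟩ ⟨hx, hd⟩
      obtain rfl : d' = d := hd
      exact hx
    rw [muZ, Measure.prod_prod, Measure.count_singleton, mul_one] at h3
    exact h3
  filter_upwards [ae_pt h2] with y hy hpos
  filter_upwards [hy hpos] with z hz
  by_contra h
  exact hz h

theorem IsCusp.congr_ae {f f' : Xi F × D → ℂ} (h : f =ᵐ[muZ F D] f') (hf : IsCusp f) :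
    IsCusp f' := by
  intro d m hm hfix
  filter_upwards [hf d m hm hfix, ae_pt_eq h d] with y h1 h2 hpos
  rw [← h1 hpos]
  refine (setIntegral_congr_ae₀ ?_ ?_)
  · exact (measurableSet_fdom hm).nullMeasurableSet
  · filter_upwards [h2 hpos] with z hz _
    exact hz.symm

theorem isCusp_congr_ae {f f' : Xi F × D → ℂ} (h : f =ᵐ[muZ F D] f') : IsCusp f ↔ IsCusp f' :=
  ⟨IsCusp.congr_ae h, IsCusp.congr_ae h.symm⟩

omit [MeasurableSpace D] [MeasurableSingletonClass D] [Countable D] in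
theorem IsCusp.const_mul {f : Xi F × D → ℂ} (hf : IsCusp f) (a : ℂ) :
    IsCusp fun z => a * f z := by
  intro d m hm hfix
  filter_upwards [hf d m hm hfix] with y h1 hpos
  rw [integral_const_mul, h1 hpos, mul_zero]

omit [MeasurableSpace D] [MeasurableSingletonClass D] [Countable D] in
theorem isCusp_zero : IsCusp (0 : Xi F × D → ℂ) := by
  intro d m _ _
  exact Filter.Eventually.of_forall fun y _ => by simp

variable [IsLevel F D] {w : Xi F × D → ℝ≥0∞}

/-- Square integrable automorphic functions are integrable on almost every horosphere. -/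
theorem ae_integrableOn_fdom (hw : IsWeight (PG F) w) {f : Xi F × D → ℂ} (hf : Measurable f)
    (hinv : ∀ (g : PG F) z, f (g • z) = f z) (hL : MemLp f 2 ((muZ F D).withDensity w))
    {m : ℕ} (hm : m ≠ 0) (d : D) :
    ∀ᵐ y : InfinitePlace F → ℝ, (∀ w, 0 < y w) →
      IntegrableOn (fun z => f (pt z y, d)) (fdom F m) := by
  refine ae_of_ybox fun b => ?_
  obtain ⟨C, hC, h⟩ := exists_norm_bound hw hm b d
  have hi : Integrable (fun q => f (jmap d q)) (rho F m b) := by
    refine ⟨(hf.comp (measurable_jmap d)).aestronglyMeasurable, ?_⟩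
    exact ((h f hf hinv).2).trans_lt (ENNReal.mul_lt_top hC.lt_top hL.2)
  have hfin := isFiniteMeasure_ybox (F := F) b
  have h1 := hi.prod_left_ae
  exact (ae_restrict_iff' (measurableSet_ybox b)).1 h1

/-- Sums of square integrable cuspidal automorphic functions are cuspidal. -/
theorem IsCusp.add (hw : IsWeight (PG F) w) {f f' : Xi F × D → ℂ} (hf : Measurable f)
    (hinv : ∀ (g : PG F) z, f (g • z) = f z) (hL : MemLp f 2 ((muZ F D).withDensity w))
    (hf' : Measurable f') (hinv' : ∀ (g : PG F) z, f' (g • z) = f' z)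
    (hL' : MemLp f' 2 ((muZ F D).withDensity w)) (hc : IsCusp f) (hc' : IsCusp f') :
    IsCusp (f + f') := by
  intro d m hm hfix
  filter_upwards [hc d m hm hfix, hc' d m hm hfix, ae_integrableOn_fdom hw hf hinv hL hm d,
    ae_integrableOn_fdom hw hf' hinv' hL' hm d] with y h1 h2 h3 h4 hpos
  simp only [Pi.add_apply]
  rw [integral_add (h3 hpos) (h4 hpos), h1 hpos, h2 hpos, add_zero]

/-- **The cuspidal subspace** of `L²(PGL₂(F) \ Z)`. -/
def cuspL2 (hw : IsWeight (PG F) w) : Submodule ℂ (Lp ℂ 2 ((muZ F D).withDensity w)) where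
  carrier := {f | ∃ h : f ∈ autL2 (PG F) ((muZ F D).withDensity w), IsCusp (arep ⟨f, h⟩)}
  zero_mem' := by
    refine ⟨Submodule.zero_mem _, ?_⟩
    refine isCusp_zero.congr_ae ?_
    refine (hw.ae_eq_of_inv measurable_zero (measurable_arep _) (fun _ _ => rfl)
      (arep_smul _) ?_)
    exact (Lp.coeFn_zero ℂ 2 _).symm.trans (coeFn_ae_arep
      (⟨0, Submodule.zero_mem _⟩ : autL2 (PG F) ((muZ F D).withDensity w)))
  add_mem' := by
    rintro a b ⟨ha, hca⟩ ⟨hb, hcb⟩
    refine ⟨Submodule.add_mem _ ha hb, ?_⟩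
    refine (IsCusp.add hw (measurable_arep _) (arep_smul _) (memLp_arep _) (measurable_arep _)
      (arep_smul _) (memLp_arep _) hca hcb).congr_ae ?_
    refine hw.ae_eq_of_inv ((measurable_arep _).add (measurable_arep _)) (measurable_arep _)
      (fun g z => ?_) (arep_smul _) ?_
    · simp only [Pi.add_apply, arep_smul]
    · exact (arep_add (⟨a, ha⟩ : autL2 (PG F) _) ⟨b, hb⟩).symm
  smul_mem' := by
    rintro c a ⟨ha, hca⟩
    refine ⟨Submodule.smul_mem _ c ha, ?_⟩
    refine (hca.const_mul c).congr_ae ?_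
    refine hw.ae_eq_of_inv ((measurable_arep _).const_mul c) (measurable_arep _)
      (fun g z => ?_) (arep_smul _) ?_
    · simp only [arep_smul]
    · exact (arep_csmul c (⟨a, ha⟩ : autL2 (PG F) _)).symm

variable {hw : IsWeight (PG F) w}

theorem mem_cuspL2 {f : Lp ℂ 2 ((muZ F D).withDensity w)} :
    f ∈ cuspL2 hw ↔ ∃ h : f ∈ autL2 (PG F) ((muZ F D).withDensity w), IsCusp (arep ⟨f, h⟩) :=
  Iff.rfl

theorem cuspL2_le : cuspL2 hw ≤ autL2 (PG F) ((muZ F D).withDensity w) := fun _ h => h.1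

theorem coe_mem_cuspL2 {f : autL2 (PG F) ((muZ F D).withDensity w)} :
    (f : Lp ℂ 2 ((muZ F D).withDensity w)) ∈ cuspL2 hw ↔ IsCusp (arep f) :=
  ⟨fun h => h.2, fun h => ⟨f.2, h⟩⟩

/-- **Membership from any invariant representative.** -/
theorem mem_cuspL2_iff_of_ae {f : Lp ℂ 2 ((muZ F D).withDensity w)} {f₀ : Xi F × D → ℂ}
    (hm : Measurable f₀) (hinv : ∀ (g : PG F) z, f₀ (g • z) = f₀ z)
    (hae : f =ᵐ[(muZ F D).withDensity w] f₀) : f ∈ cuspL2 hw ↔ IsCusp f₀ := by
  have hf : f ∈ autL2 (PG F) ((muZ F D).withDensity w) := mem_autL2.2 ⟨f₀, hm, hinv, hae⟩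
  have h1 : arep (⟨f, hf⟩ : autL2 (PG F) _) =ᵐ[muZ F D] f₀ :=
    hw.ae_eq_of_inv (measurable_arep _) hm (arep_smul _) hinv
      ((coeFn_ae_arep (⟨f, hf⟩ : autL2 (PG F) _)).symm.trans hae)
  rw [← isCusp_congr_ae h1]
  exact ⟨fun h => h.2, fun h => ⟨hf, h⟩⟩

theorem autMk_mem_cuspL2 {f₀ : Xi F × D → ℂ} (hm : Measurable f₀)
    (hinv : ∀ (g : PG F) z, f₀ (g • z) = f₀ z) (hL : MemLp f₀ 2 ((muZ F D).withDensity w)) :
    ((autMk f₀ hm hinv hL : autL2 (PG F) _) : Lp ℂ 2 ((muZ F D).withDensity w)) ∈ cuspL2 hw ↔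
      IsCusp f₀ :=
  mem_cuspL2_iff_of_ae hm hinv (coeFn_autMk f₀ hm hinv hL)

/-- The norm of the constant terms is bounded by the `L²` norm. -/
theorem exists_lintegral_constTerm_le (hw : IsWeight (PG F) w) {m : ℕ} (hm : m ≠ 0) (b : ℕ)
    (d : D) : ∃ C : ℝ≥0∞, C ≠ ∞ ∧ ∀ f : Xi F × D → ℂ, Measurable f →
      (∀ (g : PG F) z, f (g • z) = f z) →
      ∫⁻ y in ybox F b, ‖∫ z in fdom F m, f (pt z y, d)‖ₑ ≤
        C * eLpNorm f 2 ((muZ F D).withDensity w) := by
  obtain ⟨C, hC, h⟩ := exists_norm_bound hw hm b d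
  refine ⟨C, hC, fun f hf hinv => le_trans ?_ (h f hf hinv).2⟩
  have hfin := isFiniteMeasure_ybox (F := F) b
  have hm' : Measurable fun q : (InfinitePlace F → ℂ) × (InfinitePlace F → ℝ) =>
      ‖f (jmap d q)‖ₑ := (hf.comp (measurable_jmap d)).enorm
  rw [rho, lintegral_prod_symm _ hm'.aemeasurable]
  exact lintegral_mono fun y => enorm_integral_le_lintegral_enorm _

/-- **The cuspidal subspace is closed.** -/
theorem isClosed_cuspL2 (hw : IsWeight (PG F) w) :
    IsClosed (cuspL2 hw : Set (Lp ℂ 2 ((muZ F D).withDensity w))) := by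
  refine isClosed_of_closure_subset fun f hf => ?_
  have hcl : IsClosed (autL2 (PG F) ((muZ F D).withDensity w) :
      Set (Lp ℂ 2 ((muZ F D).withDensity w))) := by
    have : CompleteSpace (autL2 (PG F) ((muZ F D).withDensity w)) := inferInstance
    exact (completeSpace_coe_iff_isComplete.1 this).isClosed
  have hfa : f ∈ autL2 (PG F) ((muZ F D).withDensity w) :=
    hcl.closure_subset_iff.2 (fun x hx => cuspL2_le hx) hf
  refine ⟨hfa, fun d m hm hfix => ?_⟩
  set f₀ := arep (⟨f, hfa⟩ : autL2 (PG F) ((muZ F D).withDensity w)) with hf₀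
  have hmf := measurable_arep (⟨f, hfa⟩ : autL2 (PG F) ((muZ F D).withDensity w))
  refine ae_of_ybox fun b => ?_
  obtain ⟨C, hC, h⟩ := exists_lintegral_constTerm_le hw hm b d
  have hfin := isFiniteMeasure_ybox (F := F) b
  have key : ∫⁻ y in ybox F b, ‖∫ z in fdom F m, f₀ (pt z y, d)‖ₑ = 0 := by
    have hle : ∀ ε : ℝ, 0 < ε →
        ∫⁻ y in ybox F b, ‖∫ z in fdom F m, f₀ (pt z y, d)‖ₑ ≤ C * ENNReal.ofReal ε := by
      intro ε hε
      obtain ⟨g, hg, hfg⟩ := Metric.mem_closure_iff.1 hf ε hε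
      set g₀ := arep (⟨g, hg.1⟩ : autL2 (PG F) ((muZ F D).withDensity w)) with hg₀
      have hmg := measurable_arep (⟨g, hg.1⟩ : autL2 (PG F) ((muZ F D).withDensity w))
      have h1 := h (f₀ - g₀) (hmf.sub hmg) fun γ z => by
        simp only [Pi.sub_apply, hf₀, hg₀, arep_smul]
      have h2 : eLpNorm (f₀ - g₀) 2 ((muZ F D).withDensity w) ≤ ENNReal.ofReal ε := by
        have h3 : (⇑(f - g) : Xi F × D → ℂ) =ᵐ[(muZ F D).withDensity w] f₀ - g₀ :=
          (Lp.coeFn_sub f g).trans ((coeFn_ae_arep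
            (⟨f, hfa⟩ : autL2 (PG F) ((muZ F D).withDensity w))).sub (coeFn_ae_arep
            (⟨g, hg.1⟩ : autL2 (PG F) ((muZ F D).withDensity w))))
        rw [← eLpNorm_congr_ae h3, ← Lp.enorm_def, ← ofReal_norm, ← dist_eq_norm]
        exact ENNReal.ofReal_le_ofReal hfg.le
      refine le_trans ?_ (h1.trans (by gcongr))
      refine lintegral_mono_ae ((ae_restrict_iff' (measurableSet_ybox b)).2 ?_)
      filter_upwards [hg.2 d m hm hfix, ae_integrableOn_fdom hw hmf
        (arep_smul (⟨f, hfa⟩ : autL2 (PG F) ((muZ F D).withDensity w))) (memLp_arep _) hm d,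
        ae_integrableOn_fdom hw hmg
        (arep_smul (⟨g, hg.1⟩ : autL2 (PG F) ((muZ F D).withDensity w))) (memLp_arep _) hm d]
        with y e1 e2 e3 hy
      have hpos := pos_of_mem_ybox hy
      simp only [Pi.sub_apply]
      rw [integral_sub (e2 hpos) (e3 hpos), e1 hpos, sub_zero]
    have h0 : Filter.Tendsto (fun ε : ℝ => C * ENNReal.ofReal ε) (nhdsWithin 0 (Set.Ioi 0))
        (nhds 0) := by
      have h1 : Filter.Tendsto (fun ε : ℝ => C * ENNReal.ofReal ε) (nhds 0)
          (nhds (C * ENNReal.ofReal 0)) :=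
        ENNReal.Tendsto.const_mul (ENNReal.continuous_ofReal.tendsto 0) (Or.inr hC)
      rw [ENNReal.ofReal_zero, mul_zero] at h1
      exact h1.mono_left nhdsWithin_le_nhds
    refine le_antisymm (ge_of_tendsto h0 ?_) zero_le
    filter_upwards [self_mem_nhdsWithin] with ε hε
    exact hle ε hε
  have hsm : Measurable fun y : InfinitePlace F → ℝ =>
      ∫ z in fdom F m, f₀ (pt z y, d) := by
    have h1 : StronglyMeasurable fun q : (InfinitePlace F → ℂ) × (InfinitePlace F → ℝ) =>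
        f₀ (jmap d q) := (hmf.comp (measurable_jmap d)).stronglyMeasurable
    exact (h1.integral_prod_left').measurable
  rw [lintegral_eq_zero_iff hsm.enorm] at key
  have h2 := (ae_restrict_iff' (measurableSet_ybox (F := F) b)).1 key
  filter_upwards [h2] with y hy hyb
  simpa using hy hyb

end Cusp

end Fermat.Agent.LT
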