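import Mathlib
import Fermat.Agent.LT.Auto.Diag
import Fermat.Agent.LT.Aleph.Mean
import Fermat.Agent.LT.Red.Lattice
import Fermat.Agent.LT.Red.C3Op
import Fermat.Agent.LT.Desc.Mu

/-! # Stability of the cuspidal subspace under the operators of symbols -/

set_option autoImplicit false
set_option linter.unusedSectionVars false

noncomputable section

open MeasureTheory ENNReal MulAction ProbabilityTheory NumberField
open scoped InnerProductSpace ComplexConjugate

namespace Fermat.Agent.LT

open Fermat.Agent.LT.Desc (cuspX cuspX_le coe_mem_cuspX)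

section Cusp

variable {F : Type*} [Field F] [NumberField F] [IsTotallyComplex F] {D : Type*}
  [MulAction (GL (Fin 2) F) D]

theorem measurable_pt_slice [MeasurableSpace D] {f : Xi F × D → ℂ} (hf : Measurable f)
    (y : InfinitePlace F → ℝ) (d : D) : Measurable fun z : InfinitePlace F → ℂ => f (pt z y, d) := by
  refine hf.comp (Measurable.prodMk ?_ measurable_const)
  exact measurable_pt.comp (measurable_id.prodMk measurable_const)

/-- The vanishing of the constant term does not depend on the modulus. -/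
theorem integral_fdom_eq_zero [MeasurableSpace D] {f : Xi F × D → ℂ} (hf : Measurable f)
    (hi : ∀ (g : GL (Fin 2) F) z, f (g • z) = f z) {d : D} {m M : ℕ} (hm : m ≠ 0) (hM : M ≠ 0)
    (hmd : ∀ a : 𝓞 F, nb ((m : F) * a) • d = d) (hMd : ∀ a : 𝓞 F, nb ((M : F) * a) • d = d)
    {y : InfinitePlace F → ℝ} (hy : ∀ w, 0 < y w)
    (h0 : ∫ z in fdom F M, f (pt z y, d) = 0) : ∫ z in fdom F m, f (pt z y, d) = 0 := by
  have hper : ∀ {n : ℕ} (hn : n ≠ 0), (∀ a : 𝓞 F, nb ((n : F) * a) • d = d) →
      Aleph.IsPer (mBasis F hn) fun z => f (pt z y, d) := by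
    intro n hn hnd l hl z
    have h1 := periodic_of_inv hi hn hnd hy ⟨l, hl⟩ z
    simp only
    rw [add_comm z l]
    exact h1
  have key := Aleph.integral_change (volume : Measure (InfinitePlace F → ℂ)) (hper hM hMd)
    (hper hm hmd) (measurable_pt_slice hf y d)
  rw [← fdom_eq hM, ← fdom_eq hm, h0, mul_zero, mul_eq_zero] at key
  rcases key with h | h
  · exfalso
    have h1 := Aleph.measure_fd_ne_zero (volume : Measure (InfinitePlace F → ℂ)) (mBasis F hM)
    have h2 := Aleph.measure_fd_ne_top (volume : Measure (InfinitePlace F → ℂ)) (mBasis F hM)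
    rw [← fdom_eq hM] at h1 h2
    have h3 : (volume : Measure (InfinitePlace F → ℂ)).real (fdom F M) = 0 := by
      exact_mod_cast h
    rw [measureReal_def, ENNReal.toReal_eq_zero_iff] at h3
    rcases h3 with h3 | h3
    · exact h1 h3
    · exact h2 h3
  · exact h

end Cusp

/-! ### Discrete kernels -/

section Act

variable {G X D : Type*} [Group G] [MulAction G X] [MulAction G D]

/-- The operator of a Hecke kernel on functions on `X × D`. -/
def actD (a : HK G D) (f : X × D → ℂ) (z : X × D) : ℂ := ∑' d', a.ker z.2 d' * f (z.1, d')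

theorem actD_eq_sum (a : HK G D) (f : X × D → ℂ) (z : X × D) :
    actD a f z = ∑ d' ∈ (a.finite_row z.2).toFinset, a.ker z.2 d' * f (z.1, d') :=
  tsum_eq_sum fun d' h => by
    have h1 : a.ker z.2 d' = 0 := by
      by_contra h1
      exact h ((a.finite_row z.2).mem_toFinset.2 h1)
    rw [h1, zero_mul]

theorem actD_smul (a : HK G D) {f : X × D → ℂ} (hi : ∀ (g : G) z, f (g • z) = f z) (g : G)
    (z : X × D) : actD a f (g • z) = actD a f z := by
  unfold actD
  rw [← (MulAction.toPerm g).tsum_eq]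
  refine tsum_congr fun d' => ?_
  rw [MulAction.toPerm_apply]
  have h1 : f ((g • z).1, g • d') = f (z.1, d') := hi g (z.1, d')
  have h2 : a.ker (g • z).2 (g • d') = a.ker z.2 d' := a.ker_smul_smul g z.2 d'
  rw [h1, h2]

theorem measurable_actD [MeasurableSpace X] [MeasurableSpace D] [MeasurableSingletonClass D]
    [Countable D] (a : HK G D) {f : X × D → ℂ} (hf : Measurable f) : Measurable (actD a f) := by
  refine measurable_from_prod_countable_left fun d => ?_
  have h1 : (fun x => actD a f (x, d)) =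
      fun x => ∑ d' ∈ (a.finite_row d).toFinset, a.ker d d' * f (x, d') := by
    funext x
    exact actD_eq_sum a f (x, d)
  rw [h1]
  exact Finset.measurable_sum _ fun d' _ =>
    (hf.comp (measurable_id.prodMk measurable_const)).const_mul _

end Act

section Stab

variable {F : Type*} [Field F] [NumberField F] [IsTotallyComplex F] {D : Type*}
  [MeasurableSpace D] [DiscreteMeasurableSpace D] [Countable D] [MulAction (GL (Fin 2) F) D]
  [IsLevel F D] {w : Xi F × D → ℝ≥0∞}

/-- Hecke operators preserve cuspidal functions. -/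
theorem IsCusp.actD (hw : IsWeight (PG F) w) (a : HK (PG F) D) {f : Xi F × D → ℂ}
    (hf : Measurable f) (hi : ∀ (g : PG F) z, f (g • z) = f z)
    (h2 : MemLp f 2 ((muZ F D).withDensity w)) (hc : IsCusp f) : IsCusp (actD a f) := by
  classical
  intro d m hm hmd
  set T := (a.finite_row d).toFinset with hT
  obtain ⟨M, hM, hMT⟩ := exists_isMod_finset F (insert d T)
  have hMd : ∀ d' ∈ insert d T, ∀ a : 𝓞 F, nb ((M : F) * a) • d' = d' := fun d' hd' a =>
    (hMT d' hd').nb_smul (RingOfIntegers.isIntegral_coe a)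
  have h1 : ∀ᵐ y : InfinitePlace F → ℝ, ∀ d' ∈ T, (∀ w, 0 < y w) →
      IntegrableOn (fun z => f (pt z y, d')) (fdom F M) ∧
        ∫ z in fdom F M, f (pt z y, d') = 0 := by
    have h5 : (↑T : Set D).Countable := T.countable_toSet
    refine (ae_ball_iff h5).mpr fun d' hd' => ?_
    rw [Finset.mem_coe] at hd'
    filter_upwards [ae_integrableOn_fdom hw hf hi h2 hM d',
      hc d' M hM (hMd d' (Finset.mem_insert_of_mem hd'))] with y h3 h4 hy
    exact ⟨h3 hy, h4 hy⟩
  filter_upwards [h1] with y hy hpos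
  refine integral_fdom_eq_zero (measurable_actD a hf)
    (fun g z => actD_smul a hi (QuotientGroup.mk g) z) hm hM hmd
    (hMd d (Finset.mem_insert_self _ _)) hpos ?_
  have h3 : ∀ z : InfinitePlace F → ℂ, Fermat.Agent.LT.actD a f (pt z y, d) =
      ∑ d' ∈ T, a.ker d d' * f (pt z y, d') := fun z => actD_eq_sum a f (pt z y, d)
  simp_rw [h3]
  rw [integral_finsetSum T fun d' hd' => ((hy d' hd' hpos).1).const_mul _]
  refine Finset.sum_eq_zero fun d' hd' => ?_
  rw [integral_const_mul, (hy d' hd' hpos).2, mul_zero]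

variable (hT : ∃ T : Finset D, ∀ d, ∃ g : PG F, g • d ∈ T) (hw : IsWeight (PG F) w)

theorem opD_mem_cuspX (a : HK (PG F) D)
    {f : autL2 (PG F) ((muXD (volume : Measure (Xi F)) D).withDensity w)}
    (hf : (f : Lp ℂ 2 ((muXD (volume : Measure (Xi F)) D).withDensity w)) ∈ cuspX hw) :
    (opD hT hw a f : Lp ℂ 2 ((muXD (volume : Measure (Xi F)) D).withDensity w)) ∈ cuspX hw := by
  rw [coe_mem_cuspX] at hf ⊢
  exact (isCusp_congr_ae (opD_ae (mX := (volume : Measure (Xi F))) hT hw a f (measurable_arep f)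
    (arep_smul f) Filter.EventuallyEq.rfl)).mpr
    (hf.actD hw a (measurable_arep f) (arep_smul f) (memLp_arep f))

variable {𝒦 : Type*} [Semigroup 𝒦] (κ : KerSg (PG F) (volume : Measure (Xi F)) 𝒦)

theorem opF_one_mem_cuspX
    (hκ : ∀ (k : 𝒦) (f : Xi F × D → ℂ), Red.Nice f → Red.Nice (opK (κ.kap k) f)) (k : 𝒦)
    {f : autL2 (PG F) ((muXD (volume : Measure (Xi F)) D).withDensity w)}
    (hf : (f : Lp ℂ 2 ((muXD (volume : Measure (Xi F)) D).withDensity w)) ∈ cuspX hw) :
    (opF κ hT hw k (1 : HK (PG F) D) f :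
      Lp ℂ 2 ((muXD (volume : Measure (Xi F)) D).withDensity w)) ∈ cuspX hw := by
  rw [coe_mem_cuspX] at hf ⊢
  exact (isCusp_congr_ae (opF_one_ae κ hT hw k f (measurable_arep f) (arep_smul f)
    Filter.EventuallyEq.rfl)).mpr (hκ k _ (Red.nice_arep hw f hf)).cusp

/-- **The cuspidal subspace is stable under all the symbols.** -/
theorem stabRep_cuspX
    (hκ : ∀ (k : 𝒦) (f : Xi F × D → ℂ), Red.Nice f → Red.Nice (opK (κ.kap k) f)) :
    StabRep (symOp κ hT hw) (cuspX hw) where
  le := cuspX_le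
  stab s v hv := by
    obtain ⟨x, a⟩ := s
    induction x using WithOne.recOneCoe with
    | one => exact opD_mem_cuspX hT hw a (f := ⟨v, cuspX_le hv⟩) hv
    | coe k =>
      rw [symOp_coe, opF_eq_opD_mul]
      exact opD_mem_cuspX hT hw a (f := opF κ hT hw k 1 ⟨v, cuspX_le hv⟩)
        (opF_one_mem_cuspX hT hw κ hκ k (f := ⟨v, cuspX_le hv⟩) hv)

/-- **Products of full kernels which are bounded from `L²_cusp` to bounded functions are
Hilbert-Schmidt operators on `L²_cusp`.** -/
theorem isHS_prod_cuspX [IsFiniteMeasure ((muXD (volume : Measure (Xi F)) D).withDensity w)]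
    (hκ : ∀ (k : 𝒦) (f : Xi F × D → ℂ), Red.Nice f → Red.Nice (opK (κ.kap k) f)) {l : List 𝒦}
    (hl : ∃ C : ℝ, 0 ≤ C ∧
      ∀ f : autL2 (PG F) ((muXD (volume : Measure (Xi F)) D).withDensity w), IsCusp (arep f) →
        ∀ᵐ z ∂muXD (volume : Measure (Xi F)) D,
          ‖arep ((l.map fun k => opF κ hT hw k (1 : HK (PG F) D)).prod f) z‖ ≤ C * ‖f‖) :
    IsHS ((stabRep_cuspX hT hw κ hκ).hom ((l.map (fsym (PG F) D)).prod)) := by
  obtain ⟨C, hC, h⟩ := hl
  refine isHS_of_ae (B := C) fun v => ?_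
  set f : autL2 (PG F) ((muXD (volume : Measure (Xi F)) D).withDensity w) :=
    ⟨v, cuspX_le v.2⟩ with hf
  have h1 := h f (coe_mem_cuspX.mp v.2)
  have e1 : (l.map fun k => opF κ hT hw k (1 : HK (PG F) D)).prod =
      symOp κ hT hw ((l.map (fsym (PG F) D)).prod) := by
    rw [map_list_prod, List.map_map]
    rfl
  rw [e1] at h1
  filter_upwards [(withDensity_ac (muXD (volume : Measure (Xi F)) D) w).ae_le h1,
    coeFn_ae_arep (symOp κ hT hw ((l.map (fsym (PG F) D)).prod) f)] with z hz1 hz2
  have h5 : (((stabRep_cuspX hT hw κ hκ).hom ((l.map (fsym (PG F) D)).prod) v : cuspX hw) :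
      Lp ℂ 2 ((muXD (volume : Measure (Xi F)) D).withDensity w)) =
      (symOp κ hT hw ((l.map (fsym (PG F) D)).prod) f :
      Lp ℂ 2 ((muXD (volume : Measure (Xi F)) D).withDensity w)) := rfl
  rw [h5, hz2]
  exact hz1

end Stab

end Fermat.Agent.LT
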