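import Mathlib
import Fermat.Agent.LT.Auto.CuspStab

/-! # The package of block B4

`K : KDat F D 𝒦` : a semigroup of full kernels on `X_∞ = Xi F` with all the good properties;
`K.V hw` : the Hilbert space `L²_cusp ⊖ (common kernel)`, `K.symV hw` : the operators of the
symbols on it. -/

set_option autoImplicit false
set_option linter.unusedSectionVars false

noncomputable section

open MeasureTheory ENNReal MulAction ProbabilityTheory NumberField
open scoped InnerProductSpace ComplexConjugate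

namespace Fermat.Agent.LT

open Fermat.Agent.LT.Desc (cuspX cuspX_le coe_mem_cuspX isClosed_cuspX exists_orbits)

/-- A semigroup of full kernels with an involution, which preserve cuspidal functions and such
that every product of `m` of them is bounded from `L²_cusp` to bounded functions. -/
structure KDat (F : Type*) [Field F] [NumberField F] [IsTotallyComplex F] (D : Type*)
    [MeasurableSpace D] [DiscreteMeasurableSpace D] [Countable D] [MulAction (GL (Fin 2) F) D]
    [IsLevel F D] (𝒦 : Type*) [Semigroup 𝒦] [StarMul 𝒦]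
    extends KerSg (PG F) (volume : Measure (Xi F)) 𝒦 where
  kap_star : ∀ (k : 𝒦) x x', kap (star k) x x' = conj (kap k x' x)
  nice : ∀ (k : 𝒦) (f : Xi F × D → ℂ), Red.Nice f → Red.Nice (opK (kap k) f)
  m : ℕ
  m_ne : m ≠ 0
  bound : ∀ {w : Xi F × D → ℝ≥0∞} (hw : IsWeight (PG F) w) (l : List 𝒦), l.length = m →
    ∃ C : ℝ, 0 ≤ C ∧ ∀ f : autL2 (PG F) ((muXD (volume : Measure (Xi F)) D).withDensity w),
      IsCusp (arep f) → ∀ᵐ z ∂muXD (volume : Measure (Xi F)) D,
        ‖arep ((l.map fun k => opF toKerSg (exists_orbits F D) hw k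
          (1 : HK (PG F) D)).prod f) z‖ ≤ C * ‖f‖

namespace KDat

variable {F : Type*} [Field F] [NumberField F] [IsTotallyComplex F] {D : Type*}
  [MeasurableSpace D] [DiscreteMeasurableSpace D] [Countable D] [MulAction (GL (Fin 2) F) D]
  [IsLevel F D] {w : Xi F × D → ℝ≥0∞} {𝒦 : Type*} [Semigroup 𝒦] [StarMul 𝒦]
  (K : KDat F D 𝒦) (hw : IsWeight (PG F) w)

/-- The data of a semigroup of kernels all of which are good. -/
def ofCKer (κ : KerSg (PG F) (volume : Measure (Xi F)) 𝒦)
    (hstar : ∀ (k : 𝒦) x x', κ.kap (star k) x x' = conj (κ.kap k x' x))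
    (hnice : ∀ k, Red.IsCKer F D (κ.kap k)) : KDat F D 𝒦 where
  toKerSg := κ
  kap_star := hstar
  nice k := (hnice k).nice
  m := Fintype.card (InfinitePlace F) + 1
  m_ne := Nat.succ_ne_zero _
  bound hw l hl := Red.exists_ae_bound_opF κ (exists_orbits F D) hw hnice l (by omega)

/-- The operator of a symbol on `L²(PGL₂(F) \ (X × D))`. -/
def op : Symb (PG F) D 𝒦 →*
    (autL2 (PG F) ((muXD (volume : Measure (Xi F)) D).withDensity w) →L[ℂ]
      autL2 (PG F) ((muXD (volume : Measure (Xi F)) D).withDensity w)) :=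
  symOp K.toKerSg (exists_orbits F D) hw

theorem op_def : K.op hw = symOp K.toKerSg (exists_orbits F D) hw := rfl

theorem adjoint_op (s : Symb (PG F) D 𝒦) :
    ContinuousLinearMap.adjoint (K.op hw s) = K.op hw (sstar s) :=
  adjoint_symOp K.toKerSg (exists_orbits F D) hw K.kap_star s

/-- `L²_cusp` is stable. -/
theorem stabC : StabRep (K.op hw) (cuspX hw) :=
  stabRep_cuspX (exists_orbits F D) hw K.toKerSg K.nice

/-- Products of `m` full kernels. -/
theorem isHS_prod (l : List 𝒦) (hl : l.length = K.m) :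
    IsHS ((K.stabC hw).hom ((l.map (fsym (PG F) D)).prod)) := by
  have hfin : IsFiniteMeasure ((muXD (volume : Measure (Xi F)) D).withDensity w) :=
    isFiniteMeasure_weight F D hw
  exact isHS_prod_cuspX (exists_orbits F D) hw K.toKerSg K.nice (K.bound hw l hl)

/-- **The Hilbert space**: the part of `L²_cusp` where the full kernels have no common kernel. -/
def V : Submodule ℂ (Lp ℂ 2 ((muXD (volume : Measure (Xi F)) D).withDensity w)) :=
  (K.stabC hw).mainPart (fullS (PG F) D 𝒦)

theorem V_le_cuspX : K.V hw ≤ cuspX hw := (K.stabC hw).mainPart_le _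

theorem V_le : K.V hw ≤ autL2 (PG F) ((muXD (volume : Measure (Xi F)) D).withDensity w) :=
  (K.V_le_cuspX hw).trans cuspX_le

theorem isClosed_V : IsClosed (K.V hw :
    Set (Lp ℂ 2 ((muXD (volume : Measure (Xi F)) D).withDensity w))) :=
  (K.stabC hw).isClosed_mainPart _ (isClosed_cuspX hw)

instance : CompleteSpace (K.V hw) := (K.isClosed_V hw).completeSpace_coe

theorem isCusp_arep {v : Lp ℂ 2 ((muXD (volume : Measure (Xi F)) D).withDensity w)}
    (hv : v ∈ K.V hw) : IsCusp (arep (⟨v, K.V_le hw hv⟩ : autL2 (PG F) _)) :=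
  coe_mem_cuspX.mp (K.V_le_cuspX hw hv)

/-- `V` is stable. -/
theorem stabV : StabRep (K.op hw) (K.V hw) := (K.stabC hw).mainS K.kap_star

/-- **The operators of the symbols on `V`.** -/
def symV : Symb (PG F) D 𝒦 →* (K.V hw →L[ℂ] K.V hw) := (K.stabV hw).hom

theorem coe_symV (s : Symb (PG F) D 𝒦) (v : K.V hw) :
    ((K.symV hw s v : K.V hw) : Lp ℂ 2 ((muXD (volume : Measure (Xi F)) D).withDensity w)) =
      K.op hw s ⟨v, K.V_le hw v.2⟩ := rfl

theorem coe_symV' (s : Symb (PG F) D 𝒦) (v : K.V hw) :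
    (⟨(K.symV hw s v : K.V hw), K.V_le hw (K.symV hw s v).2⟩ :
      autL2 (PG F) ((muXD (volume : Measure (Xi F)) D).withDensity w)) =
      K.op hw s ⟨v, K.V_le hw v.2⟩ := rfl

theorem adjoint_symV (s : Symb (PG F) D 𝒦) :
    ContinuousLinearMap.adjoint (K.symV hw s) = K.symV hw (sstar s) :=
  (K.stabV hw).adjoint_hom (K.adjoint_op hw) s

theorem isSymmetric_symV {s : Symb (PG F) D 𝒦} (hs : sstar s = s) :
    (K.symV hw s).IsSymmetric :=
  (K.stabV hw).isSymmetric (K.adjoint_op hw) hs

theorem symV_add (x : WithOne 𝒦) (a b : HK (PG F) D) :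
    K.symV hw (x, a + b) = K.symV hw (x, a) + K.symV hw (x, b) := by
  refine ContinuousLinearMap.ext fun v => Subtype.ext ?_
  have h1 := congrArg (fun T : autL2 (PG F) ((muXD (volume : Measure (Xi F)) D).withDensity w)
    →L[ℂ] autL2 (PG F) ((muXD (volume : Measure (Xi F)) D).withDensity w) =>
    (T ⟨v, K.V_le hw v.2⟩ : Lp ℂ 2 ((muXD (volume : Measure (Xi F)) D).withDensity w)))
    (symOp_add K.toKerSg (exists_orbits F D) hw x a b)
  exact h1

theorem symV_smul (x : WithOne 𝒦) (c : ℂ) (a : HK (PG F) D) :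
    K.symV hw (x, c • a) = c • K.symV hw (x, a) := by
  refine ContinuousLinearMap.ext fun v => Subtype.ext ?_
  have h1 := congrArg (fun T : autL2 (PG F) ((muXD (volume : Measure (Xi F)) D).withDensity w)
    →L[ℂ] autL2 (PG F) ((muXD (volume : Measure (Xi F)) D).withDensity w) =>
    (T ⟨v, K.V_le hw v.2⟩ : Lp ℂ 2 ((muXD (volume : Measure (Xi F)) D).withDensity w)))
    (symOp_smul K.toKerSg (exists_orbits F D) hw x c a)
  exact h1

/-! ### Diagonalisation -/

section Diag

variable {I : Type*} {A : I → Symb (PG F) D 𝒦}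

/-- `IsDiag.fin`. -/
theorem finite_jointEig
    (hfull : ∀ k : 𝒦, star k = k → ∃ i, A i = fsym (PG F) D k) (χ : I → ℝ) :
    FiniteDimensional ℂ (jointEig (fun i => K.symV hw (A i)) χ) := by
  exact finite_jointEig_symb K.kap_star (K.stabC hw) K.m_ne (K.isHS_prod hw) hfull
    (K.stabV hw) χ

/-- `IsDiag.dense`. -/
theorem dense_jointEig (hA : ∀ i, sstar (A i) = A i) (hcomm : ∀ i j, A i * A j = A j * A i)
    (hfull : ∀ k : 𝒦, star k = k → ∃ i, A i = fsym (PG F) D k) :
    (⨆ χ : I → ℝ, jointEig (fun i => K.symV hw (A i)) χ).topologicalClosure = ⊤ := by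
  exact dense_jointEig_symb K.kap_star (K.stabC hw) K.m_ne (K.isHS_prod hw) hA hcomm
    hfull (K.stabV hw)

end Diag

/-! ### Eigenvectors -/

/-- A cuspidal eigenfunction of a full kernel with a non-zero eigenvalue lies in `V`. -/
theorem mem_V_of_eig {s : Symb (PG F) D 𝒦} (hs : s ∈ fullS (PG F) D 𝒦)
    {f : autL2 (PG F) ((muXD (volume : Measure (Xi F)) D).withDensity w)}
    (hf : IsCusp (arep f)) {c : ℂ} (hc : c ≠ 0) (he : K.op hw s f = c • f) :
    (f : Lp ℂ 2 ((muXD (volume : Measure (Xi F)) D).withDensity w)) ∈ K.V hw :=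
  (K.stabC hw).mem_mainS_of_eig K.kap_star hs (coe_mem_cuspX.mpr hf) hc he

/-- The full kernels map `L²_cusp` to `V`. -/
theorem op_mem_V {s : Symb (PG F) D 𝒦} (hs : s ∈ fullS (PG F) D 𝒦)
    {f : autL2 (PG F) ((muXD (volume : Measure (Xi F)) D).withDensity w)}
    (hf : IsCusp (arep f)) :
    (K.op hw s f : Lp ℂ 2 ((muXD (volume : Measure (Xi F)) D).withDensity w)) ∈ K.V hw :=
  (K.stabC hw).mem_mainS K.kap_star hs (coe_mem_cuspX.mpr hf)

/-- No vector of `V` is killed by all the full kernels. -/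
theorem eq_zero_of_symV {v : K.V hw} (h : ∀ k : 𝒦, K.symV hw (fsym (PG F) D k) v = 0) : v = 0 := by
  apply Subtype.ext
  refine eq_zero_of_opF (K.stabC hw) v.2 fun k => ?_
  have h1 := congrArg (fun y : K.V hw =>
    (y : Lp ℂ 2 ((muXD (volume : Measure (Xi F)) D).withDensity w))) (h k)
  exact Subtype.ext h1

/-! ### Linear combinations of full kernels which map to cuspidal functions -/

section Lin

variable {ι : Type*} {t : Finset ι} {c : ι → ℂ} {s : ι → Symb (PG F) D 𝒦}

/-- The operator `∑ c_i op (s_i)`. -/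
def opSum (K : KDat F D 𝒦) (hw : IsWeight (PG F) w) (t : Finset ι) (c : ι → ℂ)
    (s : ι → Symb (PG F) D 𝒦) :
    autL2 (PG F) ((muXD (volume : Measure (Xi F)) D).withDensity w) →L[ℂ]
      autL2 (PG F) ((muXD (volume : Measure (Xi F)) D).withDensity w) :=
  linS K.toKerSg (exists_orbits F D) hw t c s

theorem opSum_apply (f : autL2 (PG F) ((muXD (volume : Measure (Xi F)) D).withDensity w)) :
    K.opSum hw t c s f = ∑ i ∈ t, c i • K.op hw (s i) f := linS_apply t c s f

theorem adjoint_opSum :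
    ContinuousLinearMap.adjoint (K.opSum hw t c s) =
      K.opSum hw t (fun i => conj (c i)) fun i => sstar (s i) :=
  adjoint_linS K.kap_star t c s

/-- If the value is cuspidal, it is in `V`. -/
theorem opSum_mem_V (hs : ∀ i ∈ t, s i ∈ fullS (PG F) D 𝒦)
    {f : autL2 (PG F) ((muXD (volume : Measure (Xi F)) D).withDensity w)}
    (hf : IsCusp (arep (K.opSum hw t c s f))) :
    (K.opSum hw t c s f : Lp ℂ 2 ((muXD (volume : Measure (Xi F)) D).withDensity w)) ∈
      K.V hw :=
  (K.stabC hw).linS_mem K.kap_star hs (coe_mem_cuspX.mpr hf)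

/-- If the adjoint takes cuspidal values, the operator kills the orthogonal complement of `V`. -/
theorem opSum_eq_zero (hs : ∀ i ∈ t, s i ∈ fullS (PG F) D 𝒦)
    (hf : ∀ g : autL2 (PG F) ((muXD (volume : Measure (Xi F)) D).withDensity w),
      IsCusp (arep (K.opSum hw t (fun i => conj (c i)) (fun i => sstar (s i)) g)))
    {f : autL2 (PG F) ((muXD (volume : Measure (Xi F)) D).withDensity w)}
    (hfo : (f : Lp ℂ 2 ((muXD (volume : Measure (Xi F)) D).withDensity w)) ∈ (K.V hw)ᗮ) :
    K.opSum hw t c s f = 0 :=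
  (K.stabC hw).linS_eq_zero K.kap_star hs (fun g => coe_mem_cuspX.mpr (hf g)) hfo

end Lin

/-! ### The bound of products of more than `n` full kernels -/

section Bound

theorem isCusp_op {f : autL2 (PG F) ((muXD (volume : Measure (Xi F)) D).withDensity w)}
    (hf : IsCusp (arep f)) (s : Symb (PG F) D 𝒦) : IsCusp (arep (K.op hw s f)) :=
  coe_mem_cuspX.mp ((K.stabC hw).stab s f (coe_mem_cuspX.mpr hf))

/-- **Sup bound** for `(∏ l) * s'`, `l` a list of at least `m` full kernels, followed by a bounded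
operator which preserves `L²_cusp`. -/
theorem exists_ae_bound_cusp' (l : List 𝒦) (hl : K.m ≤ l.length) (s' : Symb (PG F) D 𝒦)
    (T : autL2 (PG F) ((muXD (volume : Measure (Xi F)) D).withDensity w) →L[ℂ]
      autL2 (PG F) ((muXD (volume : Measure (Xi F)) D).withDensity w))
    (hT : ∀ f, IsCusp (arep f) → IsCusp (arep (T f))) :
    ∃ C : ℝ, 0 ≤ C ∧ ∀ f : autL2 (PG F) ((muXD (volume : Measure (Xi F)) D).withDensity w),
      IsCusp (arep f) → ∀ᵐ z ∂muXD (volume : Measure (Xi F)) D,
        ‖arep (K.op hw ((l.map (fsym (PG F) D)).prod * s') (T f)) z‖ ≤ C * ‖f‖ := by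
  obtain ⟨C, hC, h⟩ := K.bound hw (l.take K.m) (List.length_take_of_le hl)
  have e1 : ((l.take K.m).map fun k => opF K.toKerSg (exists_orbits F D) hw k
      (1 : HK (PG F) D)).prod = K.op hw (((l.take K.m).map (fsym (PG F) D)).prod) := by
    rw [map_list_prod, List.map_map]
    rfl
  have e2 : (l.map (fsym (PG F) D)).prod * s' =
      ((l.take K.m).map (fsym (PG F) D)).prod * (((l.drop K.m).map (fsym (PG F) D)).prod * s') := by
    rw [← mul_assoc, ← List.prod_append, ← List.map_append, List.take_append_drop]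
  set S := K.op hw (((l.drop K.m).map (fsym (PG F) D)).prod * s') with hS
  rw [e1] at h
  refine ⟨C * (‖S‖ * ‖T‖), by positivity, fun f hf => ?_⟩
  have h1 := h (S (T f)) (K.isCusp_op hw (hT f hf) _)
  rw [e2, map_mul]
  filter_upwards [h1] with z hz
  refine hz.trans ?_
  rw [mul_assoc, mul_assoc]
  refine mul_le_mul_of_nonneg_left ?_ hC
  have h3 : 0 ≤ ‖S‖ := norm_nonneg S
  exact (S.le_opNorm _).trans (mul_le_mul_of_nonneg_left (T.le_opNorm f) h3)

/-- A product of symbols, at least `m` of which are full kernels: sup bound on `L²_cusp`.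
`s = (∏ l) * s'`. -/
theorem exists_ae_bound_mul (l : List 𝒦) (hl : K.m ≤ l.length) (s' : Symb (PG F) D 𝒦) :
    ∃ C : ℝ, 0 ≤ C ∧ ∀ f : autL2 (PG F) ((muXD (volume : Measure (Xi F)) D).withDensity w),
      IsCusp (arep f) → ∀ᵐ z ∂muXD (volume : Measure (Xi F)) D,
        ‖arep (K.op hw ((l.map (fsym (PG F) D)).prod * s') f) z‖ ≤ C * ‖f‖ :=
  K.exists_ae_bound_cusp' hw l hl s' (ContinuousLinearMap.id ℂ _) fun _ hf => hf

/-- **Sup bound** for a product of at least `m` full kernels on `L²_cusp`. -/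
theorem exists_ae_bound_cusp (l : List 𝒦) (hl : K.m ≤ l.length) :
    ∃ C : ℝ, 0 ≤ C ∧ ∀ f : autL2 (PG F) ((muXD (volume : Measure (Xi F)) D).withDensity w),
      IsCusp (arep f) → ∀ᵐ z ∂muXD (volume : Measure (Xi F)) D,
        ‖arep (K.op hw ((l.map (fsym (PG F) D)).prod) f) z‖ ≤ C * ‖f‖ := by
  have h := K.exists_ae_bound_mul hw l hl 1
  rwa [mul_one] at h

end Bound

end KDat

end Fermat.Agent.LT
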