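import Fermat.Agent.LT.CT

/-!
# Coordinates `(z, y)` on `X_∞` and the invariant measure

* `measurable_pt` : `(z, y) ↦ pt z y` is measurable;
* `lintegral_pt_le` : on `{0 < y_w ≤ b}` Lebesgue measure is at most a constant times the invariant measure;
* `ae_pt` : a null set of `X_∞` is null in coordinates.
-/

set_option autoImplicit false

noncomputable section

open MeasureTheory ENNReal NumberField Matrix

namespace Fermat.Agent.LT

namespace CuspSp

theorem pi_measure_mono {ι : Type*} [Fintype ι] {α : ι → Type*} [∀ i, MeasurableSpace (α i)]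
    {μ ν : ∀ i, Measure (α i)} (h : ∀ i, μ i ≤ ν i) : Measure.pi μ ≤ Measure.pi ν := by
  refine Measure.le_iff.2 fun s hs => ?_
  rw [Measure.pi, Measure.pi, toMeasure_apply _ _ hs, toMeasure_apply _ _ hs]
  refine (OuterMeasure.le_pi.2 fun t _ => ?_) s
  refine (OuterMeasure.pi_pi_le _ _).trans (Finset.prod_le_prod' fun i _ => ?_)
  exact h i (t i)

theorem measurableSet_strip (b : ℝ) : MeasurableSet {p : ℂ × ℝ | 0 < p.2 ∧ p.2 ≤ b} :=
  (measurableSet_lt measurable_const measurable_snd).inter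
    (measurableSet_le measurable_snd measurable_const)

/-- The constant of the comparison. -/
def cb (b : ℝ) : NNReal := Real.toNNReal (b ^ 3)

theorem map_ofPair_le (b : ℝ) :
    ((volume : Measure (ℂ × ℝ)).restrict {p : ℂ × ℝ | 0 < p.2 ∧ p.2 ≤ b}).map H3.ofPair ≤
      cb b • (volume : Measure H3) := by
  refine Measure.le_iff.2 fun s hs => ?_
  have hm := measurableSet_strip b
  have hd : Measurable fun p : ℂ × ℝ => ENNReal.ofReal ((p.2 ^ 3)⁻¹) *
      s.indicator (1 : H3 → ℝ≥0∞) (H3.ofPair p) :=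
    (ENNReal.measurable_ofReal.comp (measurable_snd.pow_const 3).inv).mul
      ((measurable_one.indicator hs).comp H3.measurable_ofPair)
  have h1 : volume s = ∫⁻ p in {p : ℂ × ℝ | 0 < p.2}, ENNReal.ofReal ((p.2 ^ 3)⁻¹) *
      s.indicator (1 : H3 → ℝ≥0∞) (H3.ofPair p) := by
    rw [← lintegral_indicator_one hs, H3.lintegral_eq (measurable_one.indicator hs)]
  have h2 : (cb b • (volume : Measure H3)) s = (cb b : ℝ≥0∞) * volume s := rfl
  rw [h2, h1, ← lintegral_const_mul _ hd, ← lintegral_indicator_one hs,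
    lintegral_map (measurable_one.indicator hs) H3.measurable_ofPair]
  refine le_trans (setLIntegral_mono' hm fun p hp => ?_)
    (lintegral_mono_set fun p (hp : 0 < p.2 ∧ p.2 ≤ b) => hp.1)
  rw [← mul_assoc]
  have h3 : 1 ≤ (cb b : ℝ≥0∞) * ENNReal.ofReal ((p.2 ^ 3)⁻¹) := by
    have h4 : (cb b : ℝ≥0∞) = ENNReal.ofReal (b ^ 3) := rfl
    have h5 : 0 < p.2 ^ 3 := pow_pos hp.1 3
    have h6 : p.2 ^ 3 ≤ b ^ 3 := pow_le_pow_left₀ hp.1.le hp.2 3
    rw [h4, ← ENNReal.ofReal_mul (h5.le.trans h6), ENNReal.one_le_ofReal]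
    rw [← div_eq_mul_inv, one_le_div h5]
    exact h6
  exact le_mul_of_one_le_left zero_le h3

instance sigmaFinite_map_ofPair (b : ℝ) : SigmaFinite
    (((volume : Measure (ℂ × ℝ)).restrict {p : ℂ × ℝ | 0 < p.2 ∧ p.2 ≤ b}).map H3.ofPair) :=
  Measure.sigmaFinite_of_le _ (map_ofPair_le b)

theorem pi_smul_volume {ι : Type*} [Fintype ι] (c : NNReal) :
    (Measure.pi fun _ : ι => c • (volume : Measure H3)) =
      (c ^ Fintype.card ι) • (Measure.pi fun _ : ι => (volume : Measure H3)) := by
  refine Measure.pi_eq fun s _ => ?_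
  have h1 : ∀ i, (c • (volume : Measure H3)) (s i) = (c : ℝ≥0∞) * volume (s i) := fun i => rfl
  have h2 : ((c ^ Fintype.card ι) • (Measure.pi fun _ : ι => (volume : Measure H3)))
      (Set.univ.pi s) = ((c ^ Fintype.card ι : NNReal) : ℝ≥0∞) *
        (Measure.pi fun _ : ι => (volume : Measure H3)) (Set.univ.pi s) := rfl
  rw [h2, Measure.pi_pi]
  simp only [h1]
  rw [Finset.prod_mul_distrib, Finset.prod_const, Finset.card_univ]
  push_cast
  rfl

theorem lintegral_ofPair_le {ι : Type*} [Fintype ι] (b : ℝ) {f : (ι → H3) → ℝ≥0∞}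
    (hf : Measurable f) :
    ∫⁻ p : ι → ℂ × ℝ in Set.univ.pi fun _ => {p : ℂ × ℝ | 0 < p.2 ∧ p.2 ≤ b},
        f (fun w => H3.ofPair (p w)) ≤
      ((cb b ^ Fintype.card ι : NNReal) : ℝ≥0∞) * ∫⁻ x, f x := by
  have h1 : (volume : Measure (ι → ℂ × ℝ)).restrict
      (Set.univ.pi fun _ => {p : ℂ × ℝ | 0 < p.2 ∧ p.2 ≤ b}) =
      Measure.pi fun _ => (volume : Measure (ℂ × ℝ)).restrict {p : ℂ × ℝ | 0 < p.2 ∧ p.2 ≤ b} := by
    rw [volume_pi, Measure.restrict_pi_pi]
  have hmeas : Measurable fun (p : ι → ℂ × ℝ) (w : ι) => H3.ofPair (p w) :=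
    measurable_pi_lambda _ fun w => H3.measurable_ofPair.comp (measurable_pi_apply w)
  rw [h1, ← lintegral_map hf hmeas, Measure.pi_map_pi fun _ => H3.measurable_ofPair.aemeasurable]
  refine (lintegral_mono' (pi_measure_mono fun _ => map_ofPair_le b) le_rfl).trans ?_
  rw [pi_smul_volume, lintegral_smul_measure]
  rfl

end CuspSp

open CuspSp

section Xi

variable {F : Type*} [Field F] [NumberField F]

omit [NumberField F] in
theorem measurable_pt : Measurable fun q : (InfinitePlace F → ℂ) × (InfinitePlace F → ℝ) =>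
    (pt q.1 q.2 : Xi F) :=
  measurable_pi_lambda _ fun w => H3.measurable_ofPair.comp
    (((measurable_pi_apply w).comp measurable_fst).prodMk
      ((measurable_pi_apply w).comp measurable_snd))

/-- The strip `0 < y_w ≤ b`. -/
def stripY (F : Type*) [Field F] (b : ℝ) : Set (InfinitePlace F → ℝ) :=
  {y | ∀ w, 0 < y w ∧ y w ≤ b}

theorem measurableSet_stripY (b : ℝ) : MeasurableSet (stripY F b) := by
  have h : stripY F b = ⋂ w, {y : InfinitePlace F → ℝ | 0 < y w ∧ y w ≤ b} := by
    ext y; simp [stripY]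
  rw [h]
  exact MeasurableSet.iInter fun w =>
    (measurableSet_lt measurable_const (measurable_pi_apply w)).inter
      (measurableSet_le (measurable_pi_apply w) measurable_const)

/-- On a strip, Lebesgue measure is dominated by the invariant measure. -/
theorem lintegral_pt_le (b : ℝ) {f : Xi F → ℝ≥0∞} (hf : Measurable f) :
    ∫⁻ y in stripY F b, ∫⁻ z, f (pt z y) ≤
      ((cb b ^ Fintype.card (InfinitePlace F) : NNReal) : ℝ≥0∞) * ∫⁻ x, f x := by
  have h := lintegral_ofPair_le (ι := InfinitePlace F) b hf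
  refine le_trans (le_of_eq ?_) h
  have hS : MeasurableSet (Set.univ.pi fun _ : InfinitePlace F =>
      {p : ℂ × ℝ | 0 < p.2 ∧ p.2 ≤ b}) := MeasurableSet.univ_pi fun _ => measurableSet_strip b
  have hm : Measurable fun q : (InfinitePlace F → ℂ) × (InfinitePlace F → ℝ) =>
      f (pt q.1 q.2) := hf.comp measurable_pt
  have e := volume_measurePreserving_arrowProdEquivProdArrow ℂ ℝ (InfinitePlace F)
  have h1 : ∫⁻ y in stripY F b, ∫⁻ z, f (pt z y) =
      ∫⁻ q : (InfinitePlace F → ℂ) × (InfinitePlace F → ℝ),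
        (Prod.snd ⁻¹' stripY F b).indicator (fun q => f (pt q.1 q.2)) q := by
    rw [lintegral_indicator (measurable_snd (measurableSet_stripY b))]
    have h2 : (Prod.snd ⁻¹' stripY F b : Set ((InfinitePlace F → ℂ) × (InfinitePlace F → ℝ))) =
        Set.univ ×ˢ stripY F b := by
      ext q; simp
    rw [h2, Measure.volume_eq_prod, ← Measure.prod_restrict,
      lintegral_prod_symm _ hm.aemeasurable, Measure.restrict_univ]
  rw [h1, ← e.lintegral_comp (hm.indicator (measurable_snd (measurableSet_stripY b))),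
    ← lintegral_indicator hS]
  refine lintegral_congr fun p => ?_
  by_cases hp : p ∈ Set.univ.pi fun _ : InfinitePlace F => {p : ℂ × ℝ | 0 < p.2 ∧ p.2 ≤ b}
  · rw [Set.indicator_of_mem hp, Set.indicator_of_mem]
    · rfl
    · intro w
      exact hp w (Set.mem_univ w)
  · rw [Set.indicator_of_notMem hp, Set.indicator_of_notMem]
    intro hp'
    exact hp fun w _ => hp' w

/-- Null sets of `X_∞` in coordinates. -/
theorem ae_pt {N : Set (Xi F)} (hN : volume N = 0) :
    ∀ᵐ y : InfinitePlace F → ℝ, (∀ w, 0 < y w) → ∀ᵐ z : InfinitePlace F → ℂ, pt z y ∉ N := by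
  have hm := measurableSet_toMeasurable (volume : Measure (Xi F)) N
  have h0 : (volume : Measure (Xi F)) (toMeasurable volume N) = 0 := by
    rw [measure_toMeasurable]; exact hN
  have hind : Measurable ((toMeasurable (volume : Measure (Xi F)) N).indicator
      (1 : Xi F → ℝ≥0∞)) := measurable_one.indicator hm
  have h1 : ∀ n : ℕ, ∀ᵐ y : InfinitePlace F → ℝ, y ∈ stripY F n →
      ∀ᵐ z : InfinitePlace F → ℂ, pt z y ∉ N := by
    intro n
    have h2 := lintegral_pt_le (F := F) n hind
    rw [lintegral_indicator_one hm, h0, mul_zero, nonpos_iff_eq_zero] at h2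
    have hmy : Measurable fun y : InfinitePlace F → ℝ => ∫⁻ z : InfinitePlace F → ℂ,
        (toMeasurable (volume : Measure (Xi F)) N).indicator (1 : Xi F → ℝ≥0∞) (pt z y) :=
      Measurable.lintegral_prod_left'
        (f := fun q : (InfinitePlace F → ℂ) × (InfinitePlace F → ℝ) =>
          (toMeasurable (volume : Measure (Xi F)) N).indicator (1 : Xi F → ℝ≥0∞) (pt q.1 q.2))
        (hind.comp measurable_pt)
    rw [lintegral_eq_zero_iff hmy] at h2
    have h3 := (ae_restrict_iff' (measurableSet_stripY (F := F) n)).1 h2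
    filter_upwards [h3] with y hy hyn
    have h4 := hy hyn
    have hmz : Measurable fun z : InfinitePlace F → ℂ =>
        (toMeasurable (volume : Measure (Xi F)) N).indicator (1 : Xi F → ℝ≥0∞) (pt z y) :=
      (hind.comp measurable_pt).comp (measurable_id.prodMk measurable_const)
    simp only [Pi.zero_apply] at h4
    rw [lintegral_eq_zero_iff hmz] at h4
    filter_upwards [h4] with z hz hzN
    have h5 : pt z y ∈ toMeasurable (volume : Measure (Xi F)) N := subset_toMeasurable _ _ hzN
    simp only [Set.indicator_of_mem h5, Pi.one_apply, Pi.zero_apply] at hz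
    exact one_ne_zero hz
  have h2 := ae_all_iff.2 h1
  filter_upwards [h2] with y hy hpos
  obtain ⟨n, hn⟩ := exists_nat_ge (∑ w, y w)
  exact hy n fun w => ⟨hpos w, (Finset.single_le_sum (fun i _ => (hpos i).le)
    (Finset.mem_univ w)).trans hn⟩

end Xi

end Fermat.Agent.LT
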